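import Fermat.Agent.Switch.FamilyRat
import Fermat.Agent.ECLocal.StableLine
import Fermat.Agent.Mazur.Kummer
import Fermat.Agent.Mazur.Val

/-!
# Five torsion of a semistable curve forces semistability up to scaling at `q ≥ 7`
-/

set_option autoImplicit false

noncomputable section

open WeierstrassCurve WeierstrassCurve.Affine
open scoped WeierstrassCurve.Affine Pointwise
open FermatAgent.EC (mapPoint mapPoint_some)

namespace FermatAgent.Switch

open FermatAgent.ECLocal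

local notation "Qbar" => AlgebraicClosure ℚ

lemma klein_residue {K : Type*} [Field K] (h5 : (5 : K) ≠ 0) {u v : K}
    (h4 : klein4 u v = 0) (hD : u * v * kleinG u v = 0) : u = 0 ∧ v = 0 := by
  have h0 : u = 0 → v = 0 := fun h => by
    rw [h] at h4; simpa [klein4] using h4
  have h1 : v = 0 → u = 0 := fun h => by
    rw [h] at h4; simpa [klein4] using h4
  rcases mul_eq_zero.1 hD with h | h
  · rcases mul_eq_zero.1 h with h | h
    · exact ⟨h, h0 h⟩
    · exact ⟨h1 h, h⟩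
  · have e : (5 : K) ^ 5 * (u * v) ^ 2 = 0 := by
      have hG : klein4 u v = kleinG u v * (u ^ 2 - 239 * u * v - v ^ 2) + 5 ^ 5 * (u * v) ^ 2 := by
        simp only [klein4, kleinG]; ring
      rw [h4, h] at hG
      linear_combination -hG
    rcases mul_eq_zero.1 ((mul_eq_zero.1 e).resolve_left (pow_ne_zero _ h5) |>
        (pow_eq_zero_iff (by norm_num : (2 : ℕ) ≠ 0)).1) with h | h
    · exact ⟨h, h0 h⟩
    · exact ⟨h1 h, h⟩

lemma pow_dvd_of_valuation_le {q : ℕ} (hq : q.Prime) {A : ValuationSubring Qbar}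
    (hA : A.LiesOverPrime q) {e : ℕ} : ∀ {n : ℤ},
      A.valuation (n : Qbar) ≤ A.valuation (q : Qbar) ^ e → (q : ℤ) ^ e ∣ n := by
  induction e with
  | zero => simp
  | succ e ih =>
    intro n h
    have hlt : A.valuation (n : Qbar) < 1 :=
      h.trans_lt (pow_lt_one₀ zero_le (ECLocal.valuation_natCast_lt_one hA) (Nat.succ_ne_zero e))
    obtain ⟨m, rfl⟩ := (valuation_intCast_lt_one_iff hq hA n).1 hlt
    rw [pow_succ']
    refine mul_dvd_mul_left _ (ih ?_)
    rw [Int.cast_mul, Int.cast_natCast, map_mul, pow_succ'] at h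
    exact le_of_mul_le_mul_left h (zero_lt_iff.2 (ECLocal.valuation_natCast_ne_zero hq))

/-- If `a³ - b² = 1728 Δ` with `Δ ≠ 0` then `a³ ≠ b²` in `ℚ̄`. -/
lemma cast_cube_ne_sq {a b Δ : ℤ} (h : a ^ 3 - b ^ 2 = 1728 * Δ) (hΔ : Δ ≠ 0) :
    (a : Qbar) ^ 3 ≠ (b : Qbar) ^ 2 := fun h' => by
  rw [show a ^ 3 = b ^ 2 by exact_mod_cast h', sub_self, eq_comm, mul_eq_zero] at h
  exact h.elim (by norm_num) hΔ

section Scale

variable {q : ℕ} {A : ValuationSubring Qbar} {m : ℤ}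

/-- The valuation of a power of `q` times an element. -/
lemma valuation_scale_mul (m : ℤ) (n : ℕ) (w : A) :
    A.valuation (((q : Qbar) ^ m) ^ n * (w : Qbar)) =
      A.valuation (q : Qbar) ^ ((n : ℤ) * m) * A.valuation (w : Qbar) := by
  rw [map_mul, map_pow, map_zpow₀, ← zpow_natCast, ← zpow_mul, mul_comm m]

/-- An integer which is integral after scaling by `q ^ (m n)`, `m ≥ 1`, is divisible by `q ^ n`. -/
lemma pow_dvd_of_scale (hq : q.Prime) (hA : A.LiesOverPrime q) (hm : 1 ≤ m) {n : ℕ} {c : ℤ}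
    {w : A} (hc : (c : Qbar) = ((q : Qbar) ^ m) ^ n * (w : Qbar)) : (q : ℤ) ^ n ∣ c := by
  refine pow_dvd_of_valuation_le hq hA ?_
  rw [hc, valuation_scale_mul, ← zpow_natCast]
  refine (mul_le_of_le_one_right' (A.valuation_le_one w)).trans ?_
  refine zpow_le_zpow_right_of_le_one₀ (zero_lt_iff.2 (ECLocal.valuation_natCast_ne_zero hq))
    (ECLocal.valuation_natCast_lt_one hA).le ?_
  exact le_mul_of_one_le_right (Nat.cast_nonneg n) hm

/-- Scaling by `q ^ (m n)`, `m ≤ 0`, keeps elements out of the maximal ideal. -/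
lemma residue_eq_zero_of_scale (hq : q.Prime) (hA : A.LiesOverPrime q) (hm : m ≤ 0) {n : ℕ}
    {c : Qbar} {w : A} (hc : c = ((q : Qbar) ^ m) ^ n * (w : Qbar)) (h : A.valuation c < 1) :
    IsLocalRing.residue A w = 0 := by
  rw [IsLocalRing.residue_eq_zero_iff, A.valuation_lt_one_iff]
  refine lt_of_le_of_lt ?_ h
  rw [hc, valuation_scale_mul]
  exact le_mul_of_one_le_left' (one_le_zpow_of_nonpos₀
    (zero_lt_iff.2 (ECLocal.valuation_natCast_ne_zero hq))
    (ECLocal.valuation_natCast_lt_one hA).le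
    (mul_nonpos_of_nonneg_of_nonpos (Nat.cast_nonneg n) hm))

end Scale

/-- A nonzero five torsion point fixed by inertia. -/
lemma exists_inertia_fixed {W : WeierstrassCurve ℤ} (hΔ : W.Δ ≠ 0) {q : ℕ} (hq : q.Prime)
    (hq5 : q ≠ 5) {A : ValuationSubring Qbar} (hA : A.LiesOverPrime q)
    (hss : (q : ℤ) ∣ W.Δ → ¬(q : ℤ) ∣ W.c₄) :
    ∃ x : QTor W 5, x ≠ 0 ∧ ∀ σ ∈ A.inertiaSubgroupIn ℚ, σ • x = x := by
  have : Fact (Nat.Prime 5) := ⟨by norm_num⟩
  have hΔq := EC.intMap_Δ_ne_zero hΔ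
  have := Module.nontrivial_of_finrank_eq_succ
    (EC.finrank_torsionBy_rat (W.map (Int.castRingHom ℚ)) hΔq 5)
  have hqn : ¬q ∣ 5 := fun h => hq5 ((Nat.prime_dvd_prime_iff_eq hq (by norm_num)).mp h)
  by_cases hall : ∀ σ ∈ A.inertiaSubgroupIn ℚ, ∀ x : QTor W 5, σ • x = x
  · obtain ⟨x, hx⟩ := exists_ne (0 : QTor W 5)
    exact ⟨x, hx, fun σ hσ => hall σ hσ x⟩
  push Not at hall
  obtain ⟨σ₀, hσ₀, x₀, hx₀⟩ := hall
  refine ⟨σ₀ • x₀ - x₀, sub_ne_zero.2 hx₀, fun τ hτ => Subtype.ext ?_⟩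
  change τ • (σ₀ • x₀.1 - x₀.1) = σ₀ • x₀.1 - x₀.1
  by_cases hd : (q : ℤ) ∣ W.Δ
  · have hz := inertia_sub_inZeroComponentAt hq hA hΔ hd (hss hd) hσ₀ x₀.1
    have hn : 5 • (x₀.1 - σ₀ • x₀.1) = 0 := by
      rw [nsmul_sub, ← galois_smul_nsmul, mem_qTor.1 x₀.2, galois_smul_zero, sub_zero]
    have h := inertia_fixes_of_inZeroComponentAt hq hA hqn hτ hz hn
    rw [← neg_sub x₀.1 (σ₀ • x₀.1), smul_neg, h]
  · exact absurd (Subtype.ext (inertia_fixes_of_good hq hA hd hqn hσ₀ (mem_qTor.1 x₀.2))) hx₀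

/-- If a point of order five of `W` is fixed by inertia at `A` and `W` has the five torsion of
`shortCurve a b`, then a Klein pair with invariants `(a, b)` is fixed by inertia at `A`. -/
lemma exists_fixed_kleinPair {W : WeierstrassCurve ℤ} {q : ℕ} (hq : q.Prime) (hq5 : q ≠ 5)
    {A : ValuationSubring Qbar} (hA : A.LiesOverPrime q) {a b : ℤ} (hd : a ^ 3 ≠ b ^ 2)
    (hT : TorEquiv 5 W (shortCurve a b)) {x : QTor W 5} (hx0 : x ≠ 0)
    (hxfix : ∀ σ ∈ A.inertiaSubgroupIn ℚ, σ • x = x) :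
    ∃ U V : Qbar, klein4 U V = a ∧ klein6 U V = b ∧
      ∀ σ ∈ A.inertiaSubgroupIn ℚ, σ U = U ∧ σ V = V := by
  classical
  obtain ⟨e, he⟩ := hT
  obtain ⟨z, hz⟩ := exists_cyclotomic_five
  have hd' : (a : Qbar) ^ 3 ≠ (b : Qbar) ^ 2 := by exact_mod_cast hd
  let pc := ECLocal.pointCongr (qbar_curve_eq a b)
  set P := pc (e x).1 with hP
  have hP0 : P ≠ 0 := fun h => hx0 (e.injective
    ((Subtype.ext (pc.injective (h.trans (map_zero pc).symm))).trans (map_zero e).symm))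
  have hP5 : (5 : ℕ) • P = 0 := by rw [hP, ← map_nsmul, mem_qTor.1 (e x).2, map_zero]
  obtain ⟨U, V, g4, g6, hUV⟩ := exists_kleinPt_eq hz hd' hP0 hP5
  refine ⟨U, V, g4, g6, fun σ hσ => ?_⟩
  have h0 := shortCurve_map_galois σ.toRingEquiv a b
  have hσz : σ.toRingEquiv z = z ^ (2 ^ 0) := by
    rw [pow_zero, pow_one]
    exact Mazur.inertia_fixes_rootsOfUnity hq hA
      (fun h => hq5 ((Nat.prime_dvd_prime_iff_eq hq (by norm_num)).mp h)) (by norm_num) hσ
      (by linear_combination (z - 1) * hz)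
  obtain ⟨h4', h6', em⟩ := mapPoint_kleinPt hz hd' σ.toRingEquiv h0 hσz g4 g6
  rw [hUV, hP, ← pointCongr_galois (qbar_curve_eq a b) σ h0, pow_zero, one_nsmul] at em
  have h1 : σ • (e x).1 = (e x).1 := by
    have := congrArg Subtype.val (he σ x)
    rw [hxfix σ hσ] at this
    exact this.symm
  rw [h1, ← hP, ← hUV] at em
  exact kleinPt_inj hz hd' em.symm

/-- A Klein pair fixed by inertia at `q ≠ 5` forces semistability at `q` up to scaling: if `q`
divides `a` and the discriminant then `q ^ 4 ∣ a` and `q ^ 6 ∣ b`. -/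
lemma scalable_of_fixed_kleinPair {q : ℕ} (hq : q.Prime) (hq5 : q ≠ 5)
    {A : ValuationSubring Qbar} (hA : A.LiesOverPrime q) {a b D : ℤ}
    (hrel : a ^ 3 - b ^ 2 = 1728 * D) (hD0 : D ≠ 0) {U V : Qbar} (g4 : klein4 U V = a)
    (g6 : klein6 U V = b) (hfix : ∀ σ ∈ A.inertiaSubgroupIn ℚ, σ U = U ∧ σ V = V)
    (h4 : (q : ℤ) ∣ a) (hqD : (q : ℤ) ∣ D) : (q : ℤ) ^ 4 ∣ a ∧ (q : ℤ) ^ 6 ∣ b := by
  have hdisc : (a : Qbar) ^ 3 - (b : Qbar) ^ 2 = 1728 * (D : Qbar) := by
    exact_mod_cast congrArg (Int.cast : ℤ → Qbar) hrel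
  have hk : U * V * kleinG U V ^ 5 = -(D : Qbar) := by
    have h := klein_disc U V
    rw [g4, g6, hdisc] at h
    exact mul_left_cancel₀ (show (-1728 : Qbar) ≠ 0 by norm_num) (by linear_combination -h)
  have hU0 : U ≠ 0 := by
    rintro rfl
    exact hD0 (by simpa using hk)
  have hV0 : V ≠ 0 := by
    rintro rfl
    exact hD0 (by simpa using hk)
  obtain ⟨i, hi⟩ := Mazur.exists_zpow_valuation_eq hq hA hU0 (fun σ hσ => (hfix σ hσ).1)
  obtain ⟨k, hk'⟩ := Mazur.exists_zpow_valuation_eq hq hA hV0 (fun σ hσ => (hfix σ hσ).2)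
  set π := A.valuation (q : Qbar) with hπ
  have hπ0 : 0 < π := zero_lt_iff.2 (ECLocal.valuation_natCast_ne_zero hq)
  have hπ1 : π < 1 := ECLocal.valuation_natCast_lt_one hA
  set m := min i k with hm
  set d : Qbar := (q : Qbar) ^ m with hddef
  have hd0 : d ≠ 0 := zpow_ne_zero _ (Nat.cast_ne_zero.2 hq.ne_zero)
  have hvd : A.valuation d = π ^ m := by rw [hddef, map_zpow₀]
  have hu : A.valuation (U / d) = π ^ (i - m) := by
    rw [map_div₀, hi, hvd, zpow_sub₀ hπ0.ne']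
  have hv : A.valuation (V / d) = π ^ (k - m) := by
    rw [map_div₀, hk', hvd, zpow_sub₀ hπ0.ne']
  have hle : ∀ {n : ℤ}, 0 ≤ n → π ^ n ≤ 1 := fun {n} hn => by
    obtain ⟨n, rfl⟩ := Int.eq_ofNat_of_zero_le hn
    rw [zpow_natCast]; exact pow_le_one₀ zero_le hπ1.le
  let u : A := ⟨U / d, (A.valuation_le_one_iff _).1 (hu ▸ hle (sub_nonneg.2 (min_le_left _ _)))⟩
  let v : A := ⟨V / d, (A.valuation_le_one_iff _).1 (hv ▸ hle (sub_nonneg.2 (min_le_right _ _)))⟩
  have e4 : (a : Qbar) = d ^ 4 * ((klein4 u v : A) : Qbar) := by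
    rw [← g4, show ((klein4 u v : A) : Qbar) = klein4 (U / d) (V / d) from
      (map_klein A.subtype u v).1]
    simp only [klein4]; field_simp
  have e6 : (b : Qbar) = d ^ 6 * ((klein6 u v : A) : Qbar) := by
    rw [← g6, show ((klein6 u v : A) : Qbar) = klein6 (U / d) (V / d) from
      (map_klein A.subtype u v).2]
    simp only [klein6]; field_simp
  have eΔ : -(D : Qbar) = d ^ 12 * ((u * v * kleinG u v ^ 5 : A) : Qbar) := by
    rw [← hk, show ((u * v * kleinG u v ^ 5 : A) : Qbar) = U / d * (V / d) *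
      kleinG (U / d) (V / d) ^ 5 from (by
        show A.subtype (u * v * kleinG u v ^ 5) = _
        simp only [kleinG, map_mul, map_pow, map_add, map_sub, map_ofNat]
        rfl)]
    simp only [kleinG]; field_simp
  by_cases hm1 : 1 ≤ m
  · exact ⟨pow_dvd_of_scale hq hA hm1 e4, pow_dvd_of_scale hq hA hm1 e6⟩
  · exfalso
    have hm0 : m ≤ 0 := by omega
    have r4 := residue_eq_zero_of_scale hq hA hm0 e4 ((valuation_intCast_lt_one_iff hq hA a).2 h4)
    have rΔ := residue_eq_zero_of_scale hq hA hm0 eΔ (by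
      rw [Valuation.map_neg]; exact (valuation_intCast_lt_one_iff hq hA _).2 hqD)
    have h5 : (5 : IsLocalRing.ResidueField A) ≠ 0 := by
      exact_mod_cast natCast_residue_ne_zero hq hA (n := 5)
        (fun h => hq5 ((Nat.prime_dvd_prime_iff_eq hq (by norm_num)).mp h))
    rw [(map_klein (IsLocalRing.residue A) u v).1] at r4
    have rG : IsLocalRing.residue A u * IsLocalRing.residue A v *
        kleinG (IsLocalRing.residue A u) (IsLocalRing.residue A v) = 0 := by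
      have h : IsLocalRing.residue A u * IsLocalRing.residue A v *
          kleinG (IsLocalRing.residue A u) (IsLocalRing.residue A v) ^ 5 = 0 := by
        simpa [kleinG, map_ofNat] using rΔ
      rcases mul_eq_zero.1 h with h | h
      · rw [h, zero_mul]
      · rw [(pow_eq_zero_iff (by norm_num : (5 : ℕ) ≠ 0)).1 h, mul_zero]
    obtain ⟨ru, rv⟩ := klein_residue h5 r4 rG
    rw [IsLocalRing.residue_eq_zero_iff, A.valuation_lt_one_iff] at ru rv
    rcases min_choice i k with h | h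
    · exact absurd ru (not_lt.2 (le_of_eq (by
        show 1 = A.valuation (U / d); rw [hu, hm, h, sub_self, zpow_zero])))
    · exact absurd rv (not_lt.2 (le_of_eq (by
        show 1 = A.valuation (V / d); rw [hv, hm, h, sub_self, zpow_zero])))

/-- **Semistable up to scaling.** If `W₂` has the five torsion of a curve semistable at
`q ≠ 5`, then at `q` either `W₂` is semistable or it can be scaled down by `q`. -/
theorem semistable_or_scalable {W W₂ : WeierstrassCurve ℤ} (hΔ : W.Δ ≠ 0) (hΔ₂ : W₂.Δ ≠ 0)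
    (hT : TorEquiv 5 W W₂) {q : ℕ} (hq : q.Prime) (hq5 : q ≠ 5)
    (hss : (q : ℤ) ∣ W.Δ → ¬(q : ℤ) ∣ W.c₄) (h4 : (q : ℤ) ∣ W₂.c₄) (hd : (q : ℤ) ∣ W₂.Δ) :
    (q : ℤ) ^ 4 ∣ W₂.c₄ ∧ (q : ℤ) ^ 6 ∣ W₂.c₆ := by
  obtain ⟨A, hA⟩ := GaloisBasic.exists_liesOverPrime hq
  obtain ⟨x, hx0, hxfix⟩ := exists_inertia_fixed hΔ hq hq5 hA hss
  have hrel : W₂.c₄ ^ 3 - W₂.c₆ ^ 2 = 1728 * W₂.Δ := W₂.c_relation.symm
  obtain ⟨U, V, g4, g6, hfix⟩ := exists_fixed_kleinPair hq hq5 hA (fun h => hΔ₂ (by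
    rw [h, sub_self, eq_comm] at hrel
    exact (mul_eq_zero.1 hrel).resolve_left (by norm_num)))
    (hT.trans (torEquiv_shortCurve 5 W₂).symm) hx0 hxfix
  exact scalable_of_fixed_kleinPair hq hq5 hA hrel hΔ₂ g4 g6 hfix h4 hd

end FermatAgent.Switch
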