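import Fermat.Agent.Switch.Points
import Fermat.Agent.ECLocal.PointMaps
import Fermat.Agent.ECLocal.IntCurve
import Fermat.Agent.EC.TorsionRat
import Fermat.Prelude.Def_EllipticCurve_FrobeniusTrace

/-!
# Galois equivariant identifications of torsion
-/

set_option autoImplicit false

noncomputable section

open WeierstrassCurve WeierstrassCurve.Affine
open scoped WeierstrassCurve.Affine

namespace FermatAgent.Switch

local notation "Qbar" => AlgebraicClosure ℚ

/-- `ℚ̄`-points of an integral curve. -/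
abbrev QPts (W : WeierstrassCurve ℤ) : Type :=
  ((W.map (Int.castRingHom ℚ))⁄(AlgebraicClosure ℚ)).Point

/-- The `n`-torsion of an integral curve over `ℚ̄`. -/
abbrev QTor (W : WeierstrassCurve ℤ) (n : ℕ) : Submodule ℤ (QPts W) :=
  Submodule.torsionBy ℤ (QPts W) (n : ℤ)

/-- The `n`-torsion consists of the points killed by `n`. -/
lemma mem_qTor {W : WeierstrassCurve ℤ} {n : ℕ} {P : QPts W} : P ∈ QTor W n ↔ n • P = 0 := by
  rw [Submodule.mem_torsionBy_iff, natCast_zsmul]

/-- The `n`-torsion modules of two curves are Galois equivariantly isomorphic. -/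
def TorEquiv (n : ℕ) (W W' : WeierstrassCurve ℤ) : Prop :=
  ∃ e : QTor W n ≃+ QTor W' n, ∀ (σ : Qbar ≃ₐ[ℚ] Qbar) (x : QTor W n), e (σ • x) = σ • e x

/-- Equivalence of torsion is symmetric. -/
lemma TorEquiv.symm {n : ℕ} {W W' : WeierstrassCurve ℤ} (h : TorEquiv n W W') :
    TorEquiv n W' W := by
  obtain ⟨e, he⟩ := h
  refine ⟨e.symm, fun σ x => e.injective ?_⟩
  rw [he, e.apply_symm_apply, e.apply_symm_apply]

/-- Equivalence of torsion is transitive. -/
lemma TorEquiv.trans {n : ℕ} {W W' W'' : WeierstrassCurve ℤ} (h : TorEquiv n W W')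
    (h' : TorEquiv n W' W'') : TorEquiv n W W'' := by
  obtain ⟨e, he⟩ := h
  obtain ⟨e', he'⟩ := h'
  exact ⟨e.trans e', fun σ x => by simp [he, he']⟩

/-- An equivariant isomorphism of point groups identifies the torsion. -/
lemma torEquiv_of_addEquiv (n : ℕ) {W W' : WeierstrassCurve ℤ} (f : QPts W →+ QPts W')
    (hf : Function.Bijective f) (hσ : ∀ (σ : Qbar ≃ₐ[ℚ] Qbar) (P), f (σ • P) = σ • f P) :
    TorEquiv n W W' := by
  let g : QTor W n →+ QTor W' n :=
    { toFun := fun x => ⟨f x.1, mem_qTor.2 (by rw [← map_nsmul, mem_qTor.1 x.2, map_zero])⟩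
      map_zero' := Subtype.ext (map_zero f)
      map_add' := fun x y => Subtype.ext (map_add f x.1 y.1) }
  refine ⟨AddEquiv.ofBijective g ⟨fun x y h => Subtype.ext (hf.1 (congrArg Subtype.val h)),
    fun y => ?_⟩, fun σ x => Subtype.ext (hσ σ x.1)⟩
  obtain ⟨P, hP⟩ := hf.2 y.1
  exact ⟨⟨P, mem_qTor.2 (hf.1 (by rw [map_nsmul, hP, map_zero, mem_qTor.1 y.2]))⟩, Subtype.ext hP⟩

/-- An isomorphism over `ℚ` identifies the `ℚ̄`-points equivariantly. -/
lemma exists_pointsHom_of_variableChange {W : WeierstrassCurve ℤ} {E : WeierstrassCurve ℚ}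
    (C : VariableChange ℚ) (hC : C • E = W.map (Int.castRingHom ℚ)) :
    ∃ f : QPts W →+ (E⁄Qbar).Point, Function.Bijective f ∧
      ∀ (σ : Qbar ≃ₐ[ℚ] Qbar) (P), f (σ • P) = σ • f P := by
  set V : WeierstrassCurve Qbar := (W.map (Int.castRingHom ℚ))⁄Qbar with hV
  set V' : WeierstrassCurve Qbar := E⁄Qbar with hV'
  set D : VariableChange Qbar := C.map (algebraMap ℚ Qbar) with hD
  have hDV : V.toAffine = (D • V').toAffine := by
    rw [hV, hV', hD]
    show ((W.map (Int.castRingHom ℚ)).map (algebraMap ℚ Qbar)) =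
      (C.map (algebraMap ℚ Qbar)) • (E.map (algebraMap ℚ Qbar))
    rw [WeierstrassCurve.map_variableChange (C := C) (W := E), hC]
  refine ⟨(ECLocal.vcHom D V').comp (ECLocal.pointCongr hDV).toAddMonoidHom,
    show Function.Bijective (⇑(ECLocal.vcHom D V') ∘ ⇑(ECLocal.pointCongr hDV)) from
    Function.Bijective.comp ⟨ECLocal.vcHom_injective _ _, ECLocal.vcHom_surjective _ _⟩
      (ECLocal.pointCongr hDV).bijective, fun σ P => ?_⟩
  rcases P with _ | ⟨x, y, h⟩
  · rw [← Point.zero_def, ECLocal.galois_smul_zero, map_zero]; rfl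
  have e : σ • (Point.some x y h : QPts W) = Point.some (σ x) (σ y)
      ((Affine.baseChange_nonsingular (W := W.map (Int.castRingHom ℚ))
        (f := σ.toAlgHom) σ.injective x y).mpr h) := rfl
  rw [e]
  show ECLocal.vcHom D V' (ECLocal.pointCongr hDV _) =
    σ • (ECLocal.vcHom D V' (ECLocal.pointCongr hDV _))
  erw [ECLocal.pointCongr_some, ECLocal.pointCongr_some, ECLocal.vcHom_some, ECLocal.vcHom_some,
    Point.algEquiv_smul_def, Point.map_some]
  simp only [Point.some.injEq]
  constructor <;> simp [hD, VariableChange.map]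

/-- Curves isomorphic over `ℚ` have isomorphic torsion. -/
lemma torEquiv_of_variableChange (n : ℕ) {W W' : WeierstrassCurve ℤ}
    (C : VariableChange ℚ)
    (hC : C • W'.map (Int.castRingHom ℚ) = W.map (Int.castRingHom ℚ)) : TorEquiv n W W' := by
  obtain ⟨f, hf, hσ⟩ := exists_pointsHom_of_variableChange C hC
  exact torEquiv_of_addEquiv n f hf hσ

/-- The change of variables to the short model. -/
lemma exists_variableChange_shortCurve (W : WeierstrassCurve ℤ) :
    ∃ C : VariableChange ℚ,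
      C • W.map (Int.castRingHom ℚ) = (shortCurve W.c₄ W.c₆).map (Int.castRingHom ℚ) := by
  refine ⟨⟨Units.mk0 (1 / 6) (by norm_num), -((W.b₂ : ℚ) / 12), -((W.a₁ : ℚ) / 2),
    -(((W.a₃ : ℚ) - (W.b₂ : ℚ) / 12 * W.a₁) / 2)⟩, ?_⟩
  refine WeierstrassCurve.ext ?_ ?_ ?_ ?_ ?_ <;>
    simp only [variableChange_def, WeierstrassCurve.map_a₁, WeierstrassCurve.map_a₂,
      WeierstrassCurve.map_a₃, WeierstrassCurve.map_a₄, WeierstrassCurve.map_a₆, shortCurve,
      Units.val_inv_eq_inv_val, Units.val_mk0, eq_intCast, b₂, b₄, b₆, WeierstrassCurve.c₄,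
      WeierstrassCurve.c₆] <;>
    push_cast <;> ring

/-- The short curve of the invariants has the same torsion as the curve. -/
lemma torEquiv_shortCurve (n : ℕ) (W : WeierstrassCurve ℤ) :
    TorEquiv n (shortCurve W.c₄ W.c₆) W := by
  obtain ⟨C, hC⟩ := exists_variableChange_shortCurve W
  exact torEquiv_of_variableChange n C hC

/-- Isomorphic torsion modules have the same traces. -/
lemma galoisTrace_eq_of_torEquiv {p : ℕ} [Fact p.Prime] {W W' : WeierstrassCurve ℤ}
    (h : TorEquiv p W W') (σ : Qbar ≃ₐ[ℚ] Qbar) :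
    Point.galoisTrace ℚ (W.map (Int.castRingHom ℚ)).toAffine p σ =
      Point.galoisTrace ℚ (W'.map (Int.castRingHom ℚ)).toAffine p σ := by
  obtain ⟨e, he⟩ := h
  let Ψ : QTor W p ≃ₗ[ZMod p] QTor W' p :=
    LinearEquiv.ofBijective (AddMonoidHom.toZModLinearMap p e.toAddMonoidHom) e.bijective
  have hdiag : Point.galoisRepModuleEnd ℚ (W'.map (Int.castRingHom ℚ)).toAffine p σ =
      Ψ.conj (Point.galoisRepModuleEnd ℚ (W.map (Int.castRingHom ℚ)).toAffine p σ) := by
    refine LinearMap.ext fun y => ?_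
    obtain ⟨x, rfl⟩ := Ψ.surjective y
    rw [LinearEquiv.conj_apply_apply, LinearEquiv.symm_apply_apply]
    exact (he σ x).symm
  rw [Point.galoisTrace_def, Point.galoisTrace_def, hdiag, LinearMap.trace_conj']

end FermatAgent.Switch
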