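import Fermat.Agent.Switch.FamilyRat
import Fermat.Agent.EC.DetCyclotomic
import Fermat.Agent.EC.Frobenius
import Fermat.Agent.GaloisBasic.Frobenius
import Mathlib.RingTheory.Polynomial.Cyclotomic.Roots
import Mathlib.FieldTheory.Normal.Basic
import Mathlib.FieldTheory.Galois.Basic

/-!
# An automorphism witnessing a nonsplit multiplicative member of the family
-/

set_option autoImplicit false

noncomputable section

open WeierstrassCurve WeierstrassCurve.Affine Polynomial
open scoped WeierstrassCurve.Affine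
open FermatAgent.EC (mapPoint mapPoint_some)

namespace FermatAgent.Switch

local notation "Qbar" => AlgebraicClosure ℚ

lemma zmod_five_facts : (5 : ZMod 5) = 0 ∧ (3 : ZMod 5) ^ 2 ≠ 2 ∧ (2 : ZMod 5) ^ 2 ≠ 2 ∧
    ∀ t : ZMod 5, t = 0 ∨ t = 1 ∨ t = 2 ∨ t = 3 ∨ t = 4 := by decide

/-- In dimension two over `ZMod 5`, an endomorphism of determinant two has an even power with
an eigenvalue opposite to its determinant. -/
lemma exists_anti_eigen {M : Type*} [AddCommGroup M] [Module (ZMod 5) M] [Fact (Nat.Prime 5)]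
    (hrank : Module.finrank (ZMod 5) M = 2) (A : M →ₗ[ZMod 5] M)
    (hdet : LinearMap.det A = 2) :
    ∃ x : M, x ≠ 0 ∧ ∃ j : ℕ, Even j ∧ (A ^ j) x = -((2 : ZMod 5) ^ j • x) := by
  have := Module.finite_of_finrank_eq_succ hrank
  have := Module.nontrivial_of_finrank_eq_succ hrank
  obtain ⟨y₀, hy₀⟩ := exists_ne (0 : M)
  set t := LinearMap.trace (ZMod 5) M A with ht
  have hCH : ∀ x, A (A x) = t • A x - (2 : ZMod 5) • x := by
    intro x
    have h := EC.comp_self_of_trace_det hrank A x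
    rw [hdet] at h
    rw [← sub_eq_zero, ← h]
    abel
  have h5 : ∀ x : M, (5 : ZMod 5) • x = 0 := fun x => by
    rw [zmod_five_facts.1, zero_smul]
  have hne : ∀ c : ZMod 5, c ^ 2 ≠ 2 → ∃ y, A y - c • y ≠ 0 := by
    intro c hc
    by_contra hcon
    push Not at hcon
    refine hc ?_
    have hA : A = c • LinearMap.id := LinearMap.ext fun y => sub_eq_zero.1 (hcon y)
    rw [← hdet, hA, LinearMap.det_smul, hrank, LinearMap.det_id, mul_one]
  have hpow : ∀ (m : ℕ) (x : M), (A ^ (m + 1)) x = A ((A ^ m) x) := fun m x => by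
    rw [pow_succ', Module.End.mul_apply]
  rcases zmod_five_facts.2.2.2 t with h | h | h | h | h <;> rw [h] at hCH
  · refine ⟨y₀, hy₀, 4, ⟨2, rfl⟩, ?_⟩
    rw [show (A ^ 4) y₀ = A (A (A (A y₀))) by simp [pow_succ', Module.End.mul_apply]]
    simp only [hCH, map_sub, map_smul]
    linear_combination (norm := module) (4 : ZMod 5) • h5 y₀
  · refine ⟨y₀, hy₀, 12, ⟨6, rfl⟩, ?_⟩
    have h3 : ∀ x, A (A (A x)) = -A x - (2 : ZMod 5) • x := fun x => by
      simp only [hCH, map_sub, map_smul]; module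
    have h6 : ∀ x, A (A (A (A (A (A x))))) = (2 : ZMod 5) • x := fun x => by
      rw [h3, h3]; simp only [map_sub, map_smul, hCH]
      linear_combination (norm := module) h5 (A x)
    rw [show (A ^ 12) y₀ = A (A (A (A (A (A (A (A (A (A (A (A y₀))))))))))) by
      simp [pow_succ', Module.End.mul_apply], h6, h6]
    linear_combination (norm := module) ((820 : ZMod 5) • h5 y₀)
  · obtain ⟨y, hy⟩ := hne 3 zmod_five_facts.2.1
    refine ⟨_, hy, 2, ⟨1, rfl⟩, ?_⟩
    rw [pow_two, Module.End.mul_apply]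
    simp only [hCH, map_sub, map_smul]
    linear_combination (norm := module) (-2 : ZMod 5) • h5 y
  · obtain ⟨y, hy⟩ := hne 2 zmod_five_facts.2.2.1
    refine ⟨_, hy, 2, ⟨1, rfl⟩, ?_⟩
    rw [pow_two, Module.End.mul_apply]
    simp only [hCH, map_sub, map_smul]
    linear_combination (norm := module) h5 (A y) - (2 : ZMod 5) • h5 y
  · refine ⟨y₀, hy₀, 12, ⟨6, rfl⟩, ?_⟩
    have h3 : ∀ x, A (A (A x)) = -A x + (2 : ZMod 5) • x := fun x => by
      simp only [hCH, map_sub, map_smul]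
      linear_combination (norm := module) (3 : ZMod 5) • h5 (A x) - (2 : ZMod 5) • h5 x
    have h6 : ∀ x, A (A (A (A (A (A x))))) = (2 : ZMod 5) • x := fun x => by
      rw [h3 (A (A (A x))), h3 x]; simp only [map_neg, map_add, map_smul, hCH]
      module
    rw [show (A ^ 12) y₀ = A (A (A (A (A (A (A (A (A (A (A (A y₀))))))))))) by
      simp [pow_succ', Module.End.mul_apply], h6, h6]
    linear_combination (norm := module) ((820 : ZMod 5) • h5 y₀)

lemma apply_apply_cubeRoot (σ : Qbar ≃ₐ[ℚ] Qbar) {w : Qbar} (hw : w ^ 2 + w + 1 = 0) :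
    σ (σ w) = w := by
  have h : σ w ^ 2 + σ w + 1 = 0 := by simpa using congrArg σ hw
  have h2 : (σ w - w) * (σ w + w + 1) = 0 := by linear_combination h - hw
  rcases mul_eq_zero.1 h2 with e | e
  · rw [sub_eq_zero] at e; rw [e, e]
  · rw [show σ w = -1 - w by linear_combination e, map_sub, map_neg, map_one,
      show σ w = -1 - w by linear_combination e]
    ring

lemma exists_galois_sq {z : Qbar} (hz : z ^ 4 + z ^ 3 + z ^ 2 + z + 1 = 0) :
    IsPrimitiveRoot z 5 ∧ ∃ σ : Qbar ≃ₐ[ℚ] Qbar, σ z = z ^ 2 := by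
  have : Fact (Nat.Prime 5) := ⟨by norm_num⟩
  have h1 : z ≠ 1 := by rintro rfl; norm_num at hz
  have h5 : z ^ 5 = 1 := by linear_combination (z - 1) * hz
  have hp : IsPrimitiveRoot z 5 := by
    have h := IsPrimitiveRoot.orderOf z
    rwa [orderOf_eq_prime h5 h1] at h
  refine ⟨hp, ?_⟩
  have h : minpoly ℚ z = minpoly ℚ (z ^ 2) := by
    rw [← cyclotomic_eq_minpoly_rat hp (by norm_num),
      ← cyclotomic_eq_minpoly_rat (hp.pow_of_coprime 2 (by norm_num)) (by norm_num)]
  obtain ⟨σ, hσ⟩ := (Normal.minpoly_eq_iff_mem_orbit Qbar).1 h.symm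
  exact ⟨σ, hσ⟩

/-- Some automorphism `g` fixing the cube roots of unity negates a Klein pair with invariants
`(a, b)`: an even power of one squaring the fifth roots of unity maps a five torsion point `P`
to `-2 ^ j P`. -/
lemma exists_antifixed_kleinPair {a b : ℤ} (hd : a ^ 3 ≠ b ^ 2) :
    ∃ (g : Qbar ≃ₐ[ℚ] Qbar) (U V : Qbar), (∀ w : Qbar, w ^ 2 + w + 1 = 0 → g w = w) ∧
      klein4 U V = a ∧ klein6 U V = b ∧ g U = -U ∧ g V = -V := by
  classical
  have : Fact (Nat.Prime 5) := ⟨by norm_num⟩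
  have : NeZero 5 := ⟨by norm_num⟩
  obtain ⟨z, hz⟩ := exists_cyclotomic_five
  obtain ⟨hzp, σ, hσ⟩ := exists_galois_sq hz
  have hd' : (a : Qbar) ^ 3 ≠ (b : Qbar) ^ 2 := by exact_mod_cast hd
  set W := shortCurve a b with hW
  have hΔ : (W.map (Int.castRingHom ℚ)).Δ ≠ 0 := by
    rw [WeierstrassCurve.map_Δ, hW, shortCurve_Δ, eq_intCast, Int.cast_ne_zero]
    exact mul_ne_zero (by norm_num) (sub_ne_zero.2 hd)
  have hrank := EC.finrank_torsionBy_rat (W.map (Int.castRingHom ℚ)) hΔ 5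
  have hn : Nat.card (rootsOfUnity 5 Qbar) = 5 := IsAlgClosed.card_rootsOfUnity_eq Qbar 5
  have hdet : LinearMap.det (Affine.Point.galoisRepModuleEnd ℚ
      (W.map (Int.castRingHom ℚ)).toAffine 5 σ) = 2 := by
    have h := congrArg Units.val (EC.galoisRepDetEqCyclotomic_rat
      (W.map (Int.castRingHom ℚ)) hΔ 5 hn σ)
    rw [Affine.Point.galoisRepDet_apply, LinearEquiv.coe_det] at h
    refine (show LinearMap.det (Affine.Point.galoisRepModuleEnd ℚ
      (W.map (Int.castRingHom ℚ)).toAffine 5 σ) = _ from h).trans ?_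
    refine (modularCyclotomicCharacter.unique Qbar hn (σ : Qbar ≃+* Qbar) fun t ht => ?_).symm
    have ht' : ((t : Qbar)) ^ 5 = 1 := by
      rw [← Units.val_pow_eq_pow_val, (mem_rootsOfUnity 5 t).1 ht, Units.val_one]
    obtain ⟨i, -, hi⟩ := hzp.eq_pow_of_pow_eq_one ht'
    show σ (t : Qbar) = (t : Qbar) ^ (2 : ZMod 5).val
    rw [← hi, map_pow, hσ, show (2 : ZMod 5).val = 2 from rfl, ← pow_mul, ← pow_mul, mul_comm]
  obtain ⟨x, hx0, j, hj, hx⟩ := exists_anti_eigen hrank _ hdet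
  set g := σ ^ j with hg
  have hgx : g • x = -((2 ^ j : ℕ) • x) := by
    have e : g • x = ((Affine.Point.galoisRepModuleEnd ℚ
      (W.map (Int.castRingHom ℚ)).toAffine 5 σ) ^ j) x := by
      rw [← map_pow]; rfl
    have e2 : ((2 ^ j : ℕ) : ZMod 5) = 2 ^ j := Nat.cast_pow 2 j
    rw [e, hx, ← Nat.cast_smul_eq_nsmul (ZMod 5) (2 ^ j) x, e2]
  have hgz : g z = z ^ (2 ^ j) := by
    have key : ∀ m : ℕ, (σ ^ m) z = z ^ (2 ^ m) := by
      intro m
      induction m with
      | zero => simp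
      | succ m ih => rw [pow_succ', AlgEquiv.mul_apply, ih, map_pow, hσ, ← pow_mul, pow_succ']
    exact key j
  have hgw : ∀ w : Qbar, w ^ 2 + w + 1 = 0 → g w = w := by
    intro w hw
    obtain ⟨m, rfl⟩ := hj
    have key : ∀ m : ℕ, (σ ^ (m + m)) w = w := by
      intro m
      induction m with
      | zero => simp
      | succ m ih =>
        rw [show m + 1 + (m + 1) = m + m + 2 by ring, pow_add, AlgEquiv.mul_apply, pow_two,
          AlgEquiv.mul_apply, apply_apply_cubeRoot σ hw, ih]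
    exact key m
  -- the Klein coordinates of `x`
  let pc := ECLocal.pointCongr (qbar_curve_eq a b)
  set P := pc x.1 with hP
  have hP0 : P ≠ 0 := fun h => hx0 (Subtype.ext (pc.injective (h.trans (map_zero pc).symm)))
  have hP5 : (5 : ℕ) • P = 0 := by rw [hP, ← map_nsmul, mem_qTor.1 x.2, map_zero]
  obtain ⟨U, V, h4, h6, hUV⟩ := exists_kleinPt_eq hz hd' hP0 hP5
  have h0 := shortCurve_map_galois g.toRingEquiv a b
  obtain ⟨h4', h6', em⟩ := mapPoint_kleinPt hz hd' g.toRingEquiv h0 hgz h4 h6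
  set K' := kleinPt hz hd' h4' h6' with hK'
  have hgP : mapPoint g.toRingEquiv.toRingHom h0 P = -((2 ^ j : ℕ) • P) := by
    rw [hP, ← pointCongr_galois (qbar_curve_eq a b) g h0 x.1, ← map_nsmul, ← map_neg]
    exact congrArg pc (congrArg Subtype.val hgx)
  have hzero : (2 ^ j : ℕ) • (K' + P) = 0 := by
    rw [nsmul_add, ← em, hUV, hgP, neg_add_cancel]
  have hK5 : (5 : ℕ) • (K' + P) = 0 := by
    rw [nsmul_add, hK', five_nsmul_kleinPt, hP5, add_zero]
  have hsum : K' + P = 0 := by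
    have h1 := addOrderOf_dvd_of_nsmul_eq_zero hzero
    have h2 := addOrderOf_dvd_of_nsmul_eq_zero hK5
    have h3 := Nat.dvd_gcd h1 h2
    rw [(Nat.Coprime.pow_left j (by norm_num : Nat.Coprime 2 5)).gcd_eq_one, Nat.dvd_one] at h3
    exact AddMonoid.addOrderOf_eq_one_iff.1 h3
  have hK : K' = kleinPt hz hd' ((klein4_neg U V).trans h4) ((klein6_neg U V).trans h6) := by
    rw [kleinPt_neg hz hd' h4 h6, hUV, eq_neg_iff_add_eq_zero]; exact hsum
  exact ⟨g, U, V, hgw, h4, h6, kleinPt_inj hz hd' hK⟩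

/-- A point `rc` on the congruent family with singular fibre of nonsplit type, and an automorphism
seeing it: at `rc` one of the flowed Klein coordinates vanishes. -/
theorem exists_cusp {a b : ℤ} (hd : a ^ 3 ≠ b ^ 2) {A B : ℚ[X]}
    (hfam : IsKleinFamily a b A B) :
    ∃ (g : Qbar ≃ₐ[ℚ] Qbar) (rc M : Qbar),
      (∀ w : Qbar, w ^ 2 + w + 1 = 0 → g w = w) ∧ M ≠ 0 ∧ g rc = rc ∧ g M = -M ∧
      aeval rc B = -M ^ 2 ∧ aeval rc A ≠ 0 ∧ aeval rc A ^ 3 = aeval rc B ^ 2 := by
  classical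
  have hd' : (a : Qbar) ^ 3 ≠ (b : Qbar) ^ 2 := by exact_mod_cast hd
  obtain ⟨g, U, V, hgw, h4, h6, hgU, hgV⟩ := exists_antifixed_kleinPair hd
  have hdisc : U ≠ 0 ∧ V ≠ 0 ∧ kleinG U V ≠ 0 := by
    have h := klein_disc U V
    rw [h4, h6] at h
    have h' : -1728 * (U * V * kleinG U V ^ 5) ≠ (0 : Qbar) := h ▸ sub_ne_zero.2 hd'
    simp only [ne_eq, mul_eq_zero, pow_eq_zero_iff (by norm_num : (5 : ℕ) ≠ 0), not_or] at h'
    exact ⟨h'.2.1.1, h'.2.1.2, h'.2.2⟩
  obtain ⟨hU0, hV0, hG0⟩ := hdisc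
  set p := U ^ 2 + 66 * U * V - 11 * V ^ 2 with hp
  set q := 11 * U ^ 2 + 66 * U * V - V ^ 2 with hq
  have hgp : g p = p := by
    simp only [hp, map_sub, map_add, map_mul, map_pow, map_ofNat, hgU, hgV]; ring
  have hgq : g q = q := by
    simp only [hq, map_sub, map_add, map_mul, map_pow, map_ofNat, hgU, hgV]; ring
  have hpq : p + q ≠ 0 := by
    rw [show p + q = 12 * kleinG U V by simp only [hp, hq, kleinG]; ring]
    exact mul_ne_zero (by norm_num) hG0
  by_cases hq0 : q = 0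
  · have hp0 : p ≠ 0 := fun h => hpq (by rw [h, hq0, add_zero])
    set rc := 1 / p with hrc
    have hfU : flowU U V rc = 0 := by
      rw [flowU, ← hp, hrc, one_div, inv_mul_cancel₀ hp0, sub_self, zero_pow (by norm_num),
        mul_zero]
    have hfV : flowV U V rc = V := by rw [flowV, ← hq, hq0, mul_zero, add_zero, one_pow, mul_one]
    obtain ⟨e4, e6⟩ := hfam U V h4 h6 rc
    rw [hfU, hfV] at e4 e6
    simp only [klein4, klein6] at e4 e6
    refine ⟨g, rc, V ^ 3, hgw, pow_ne_zero _ hV0, by rw [hrc, map_div₀, map_one, hgp],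
      by rw [map_pow, hgV]; ring, ?_, ?_, ?_⟩
    · rw [← e6]; ring
    · rw [← e4]; simpa using hV0
    · rw [← e4, ← e6]; ring
  · set rc := -1 / q with hrc
    have hfV : flowV U V rc = 0 := by
      rw [flowV, ← hq, hrc, div_mul_cancel₀ _ hq0, add_neg_cancel, zero_pow (by norm_num),
        mul_zero]
    set X₀ := flowU U V rc with hX
    have hX' : X₀ = U * ((p + q) / q) ^ 5 := by
      rw [hX, flowU, ← hp, hrc]; field_simp; ring
    have hX0 : X₀ ≠ 0 := by
      rw [hX']; exact mul_ne_zero hU0 (pow_ne_zero _ (div_ne_zero hpq hq0))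
    obtain ⟨e4, e6⟩ := hfam U V h4 h6 rc
    rw [hfV, ← hX] at e4 e6
    simp only [klein4, klein6] at e4 e6
    have hgX : g X₀ = -X₀ := by
      rw [hX', map_mul, map_pow, map_div₀, map_add, hgp, hgq, hgU]; ring
    refine ⟨g, rc, X₀ ^ 3, hgw, pow_ne_zero _ hX0,
      by rw [hrc, map_div₀, map_neg, map_one, hgq], by rw [map_pow, hgX]; ring, ?_, ?_, ?_⟩
    · rw [← e6]; ring
    · rw [← e4]; simpa using hX0
    · rw [← e4, ← e6]; ring

end FermatAgent.Switch
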