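import Fermat.Agent.Switch.Specialisation
import Mathlib.RingTheory.Localization.FractionRing
import Mathlib.RingTheory.RootsOfUnity.PrimitiveRoots
import Mathlib.Tactic.NormNum.Prime
import Mathlib.Tactic.IntervalCases
import Mathlib.Algebra.CharZero.Infinite

/-!
# The five torsion along the congruent family

For every nondegenerate `r` the map `kleinPt (U, V) ↦ kleinPt (flow (U, V) r)` extends to an
isomorphism on five torsion, commuting with automorphisms fixing `r` and the invariants.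
-/

set_option autoImplicit false

noncomputable section

open WeierstrassCurve WeierstrassCurve.Affine Polynomial
open FermatAgent.EC (mapPoint mapPoint_some)

namespace FermatAgent.Switch

universe u v

section Defs

variable {R : Type u} [CommRing R]

/-- `(u + r·dirU)⁵` in terms of `U = u⁵`, `V = v⁵`. -/
def flowU (U V r : R) : R := U * (1 - r * (U ^ 2 + 66 * U * V - 11 * V ^ 2)) ^ 5

/-- `(v + r·dirV)⁵` in terms of `U = u⁵`, `V = v⁵`. -/
def flowV (U V r : R) : R := V * (1 + r * (11 * U ^ 2 + 66 * U * V - V ^ 2)) ^ 5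

lemma flow_zero (U V : R) : flowU U V 0 = U ∧ flowV U V 0 = V := by
  constructor <;> simp only [flowU, flowV] <;> ring

/-- Fifth powers of the points on the line follow the flow. -/
lemma pow_five_line (u v r : R) :
    (u + r * dirU u v) ^ 5 = flowU (u ^ 5) (v ^ 5) r ∧
      (v + r * dirV u v) ^ 5 = flowV (u ^ 5) (v ^ 5) r := by
  constructor <;> simp only [flowU, flowV, dirU, dirV] <;> ring

lemma map_flow {S : Type v} [CommRing S] (φ : R →+* S) (U V r : R) :
    φ (flowU U V r) = flowU (φ U) (φ V) (φ r) ∧ φ (flowV U V r) = flowV (φ U) (φ V) (φ r) := by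
  constructor <;> simp [flowU, flowV, map_ofNat]

/-- Klein's forms commute with ring homomorphisms. -/
lemma map_klein {S : Type v} [CommRing S] (φ : R →+* S) (U V : R) :
    φ (klein4 U V) = klein4 (φ U) (φ V) ∧ φ (klein6 U V) = klein6 (φ U) (φ V) := by
  constructor <;> simp [klein4, klein6, map_ofNat]

end Defs

lemma map_qxy {k : Type u} [Field k] {L : Type v} [Field L] (φ : k →+* L) (z U V : k) :
    φ (qx z U V) = qx (φ z) (φ U) (φ V) ∧ φ (qy z U V) = qy (φ z) (φ U) (φ V) := by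
  constructor <;> simp [qx, qy, map_div₀, map_ofNat]

section Conjugates

variable {k : Type u} [Field k] {z : k}

lemma cyclotomic_pow_two_pow (hz : z ^ 4 + z ^ 3 + z ^ 2 + z + 1 = 0) (j : ℕ) :
    (z ^ 2 ^ j) ^ 4 + (z ^ 2 ^ j) ^ 3 + (z ^ 2 ^ j) ^ 2 + z ^ 2 ^ j + 1 = 0 := by
  induction j with
  | zero => simpa using hz
  | succ j ih =>
    rw [pow_succ 2, pow_mul]
    set w := z ^ 2 ^ j
    linear_combination (w ^ 4 - w ^ 3 + w ^ 2 - w + 1) * ih

lemma exists_two_pow_of_root (hz : z ^ 4 + z ^ 3 + z ^ 2 + z + 1 = 0) [CharZero k] {w : k}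
    (hw : w ^ 4 + w ^ 3 + w ^ 2 + w + 1 = 0) : ∃ j : ℕ, w = z ^ 2 ^ j := by
  have hz5 : z ^ 5 = 1 := by linear_combination (z - 1) * hz
  have hw5 : w ^ 5 = 1 := by linear_combination (w - 1) * hw
  have hz1 : z ≠ 1 := fun h => by rw [h] at hz; norm_num at hz
  have hw1 : w ≠ 1 := fun h => by rw [h] at hw; norm_num at hw
  have : Fact (Nat.Prime 5) := ⟨by norm_num⟩
  have hp : IsPrimitiveRoot z 5 := IsPrimitiveRoot.iff_orderOf.2 (orderOf_eq_prime hz5 hz1)
  obtain ⟨i, hi, rfl⟩ := hp.eq_pow_of_pow_eq_one hw5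
  interval_cases i
  · simp at hw1
  · exact ⟨0, by simp⟩
  · exact ⟨1, by simp⟩
  · exact ⟨3, by linear_combination (-z ^ 3) * hz5⟩
  · exact ⟨2, by simp⟩

/-- `(U, V) ↦ (-V, U)`. -/
def quarterTurn (p : k × k) : k × k := (-p.2, p.1)

lemma qxy_two_pow [CharZero k] (hz : z ^ 4 + z ^ 3 + z ^ 2 + z + 1 = 0) (j : ℕ) (p : k × k) :
    qx (z ^ 2 ^ j) p.1 p.2 = qx z (quarterTurn^[j] p).1 (quarterTurn^[j] p).2 ∧
      qy (z ^ 2 ^ j) p.1 p.2 = qy z (quarterTurn^[j] p).1 (quarterTurn^[j] p).2 := by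
  induction j generalizing p with
  | zero => simp
  | succ j ih =>
    rw [pow_succ 2, pow_mul, qx_sq (cyclotomic_pow_two_pow hz j),
      qy_sq_root (cyclotomic_pow_two_pow hz j), Function.iterate_succ_apply]
    exact ih (quarterTurn p)

variable [CharZero k] [DecidableEq k] (hz : z ^ 4 + z ^ 3 + z ^ 2 + z + 1 = 0)
  {a b : k} (hd : a ^ 3 ≠ b ^ 2)

include hz hd in
lemma two_pow_nsmul_kleinPt (j : ℕ) {U V : k} (h4 : klein4 U V = a) (h6 : klein6 U V = b) :
    ∃ (h4' : klein4 (quarterTurn^[j] (U, V)).1 (quarterTurn^[j] (U, V)).2 = a)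
      (h6' : klein6 (quarterTurn^[j] (U, V)).1 (quarterTurn^[j] (U, V)).2 = b),
      (2 ^ j) • kleinPt hz hd h4 h6 = kleinPt hz hd h4' h6' := by
  induction j with
  | zero => exact ⟨h4, h6, by simp⟩
  | succ j ih =>
    obtain ⟨h4', h6', e⟩ := ih
    simp only [Function.iterate_succ_apply']
    refine ⟨(klein4_swap _ _).trans h4', (klein6_swap _ _).trans h6', ?_⟩
    rw [pow_succ, mul_nsmul, e, two_nsmul_kleinPt]
    rfl

include hz hd in
/-- The conjugate of a Klein point. -/
lemma mapPoint_kleinPt (σ : k ≃+* k) (hσ : (shortCurve a b).map σ.toRingHom = shortCurve a b)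
    {j : ℕ} (hj : σ z = z ^ 2 ^ j) {U V : k} (h4 : klein4 U V = a) (h6 : klein6 U V = b) :
    ∃ (h4' : klein4 (σ U) (σ V) = a) (h6' : klein6 (σ U) (σ V) = b),
      mapPoint σ.toRingHom hσ (kleinPt hz hd h4 h6) = (2 ^ j) • kleinPt hz hd h4' h6' := by
  have ea := congrArg WeierstrassCurve.a₄ hσ
  have eb := congrArg WeierstrassCurve.a₆ hσ
  simp only [shortCurve, WeierstrassCurve.map_a₄, WeierstrassCurve.map_a₆, map_mul, map_neg,
    map_ofNat, mul_eq_mul_left_iff, neg_eq_zero, OfNat.ofNat_ne_zero, or_false,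
    RingEquiv.toRingHom_eq_coe, RingEquiv.coe_toRingHom] at ea eb
  have h4' : klein4 (σ U) (σ V) = a :=
    (((map_klein σ.toRingHom U V).1).symm.trans (congrArg σ h4)).trans ea
  have h6' : klein6 (σ U) (σ V) = b :=
    (((map_klein σ.toRingHom U V).2).symm.trans (congrArg σ h6)).trans eb
  obtain ⟨h4'', h6'', e⟩ := two_pow_nsmul_kleinPt hz hd j h4' h6'
  refine ⟨h4', h6', ?_⟩
  rw [e, kleinPt, kleinPt, mapPoint_some]
  simp only [Point.some.injEq]
  obtain ⟨e1, e2⟩ := map_qxy σ.toRingHom z U V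
  simp only [RingEquiv.toRingHom_eq_coe, RingEquiv.coe_toRingHom] at e1 e2 ⊢
  rw [e1, e2, hj]
  exact qxy_two_pow hz j (σ U, σ V)

end Conjugates

section Family

variable {k : Type u} [Field k] [CharZero k] [DecidableEq k] {z : k}

/-- `qx` along the family, as a polynomial in `r`. -/
def polyX (z U V : k) : k[X] :=
  C ((36 * (z ^ 2 + z ^ 3) - 57) / 5) * flowU (C U) (C V) X ^ 2
    + C ((396 * (z ^ 2 + z ^ 3) + 198) / 5) * flowU (C U) (C V) X * flowV (C U) (C V) X
    + C ((-93 - 36 * (z ^ 2 + z ^ 3)) / 5) * flowV (C U) (C V) X ^ 2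

/-- `qy` along the family, as a polynomial in `r`. -/
def polyY (z U V : k) : k[X] :=
  C ((-216 - 432 * z - 324 * z ^ 2 - 108 * z ^ 3) / 5) * flowU (C U) (C V) X ^ 3
    + C ((-2484 - 4968 * z - 3456 * z ^ 2 - 1512 * z ^ 3) / 5) * flowU (C U) (C V) X ^ 2
        * flowV (C U) (C V) X
    + C ((-972 - 1944 * z + 1512 * z ^ 2 - 3456 * z ^ 3) / 5) * flowU (C U) (C V) X
        * flowV (C U) (C V) X ^ 2
    + C ((108 + 216 * z - 108 * z ^ 2 + 324 * z ^ 3) / 5) * flowV (C U) (C V) X ^ 3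

omit [DecidableEq k] in
lemma eval_poly (z U V r : k) :
    (polyX z U V).eval r = qx z (flowU U V r) (flowV U V r) ∧
      (polyY z U V).eval r = qy z (flowU U V r) (flowV U V r) := by
  have e1 : (flowU (C U) (C V) X).eval r = flowU U V r := by
    simpa using (map_flow (evalRingHom r) (C U) (C V) X).1
  have e2 : (flowV (C U) (C V) X).eval r = flowV U V r := by
    simpa using (map_flow (evalRingHom r) (C U) (C V) X).2
  constructor <;>
    simp only [polyX, polyY, qx, qy, eval_add, eval_mul, eval_C, eval_pow, e1, e2] <;> ring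

variable (K : Type u) [Field K] [Algebra k[X] K] [IsFractionRing k[X] K]

omit [CharZero k] [DecidableEq k] [IsFractionRing k[X] K] in
lemma algebraMap_poly (z U V : k) :
    algebraMap k[X] K (polyX z U V) = qx (algebraMap k[X] K (C z))
        (algebraMap k[X] K (flowU (C U) (C V) X)) (algebraMap k[X] K (flowV (C U) (C V) X)) ∧
      algebraMap k[X] K (polyY z U V) = qy (algebraMap k[X] K (C z))
        (algebraMap k[X] K (flowU (C U) (C V) X)) (algebraMap k[X] K (flowV (C U) (C V) X)) := by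
  set φ : k →+* K := (algebraMap k[X] K).comp C with hφ
  have e : ∀ c : k, algebraMap k[X] K (C c) = φ c := fun c => rfl
  constructor <;>
    simp only [polyX, polyY, qx, qy, map_add, map_mul, map_pow, e, map_div₀, map_sub, map_neg,
      map_ofNat] <;> ring

variable (hz : z ^ 4 + z ^ 3 + z ^ 2 + z + 1 = 0) {a b : k} (hd : a ^ 3 ≠ b ^ 2) (A B : k[X])
  (hfam : ∀ U V : k, klein4 U V = a → klein6 U V = b → ∀ r : k,
    klein4 (flowU U V r) (flowV U V r) = A.eval r ∧
      klein6 (flowU U V r) (flowV U V r) = B.eval r)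
  (hA0 : A.eval 0 = a) (hB0 : B.eval 0 = b)

include hfam in
omit [DecidableEq k] in
/-- The flow identities as identities of polynomials in the parameter. -/
lemma klein_flow_poly {U V : k} (h4 : klein4 U V = a) (h6 : klein6 U V = b) :
    klein4 (flowU (C U) (C V) X) (flowV (C U) (C V) X) = A ∧
      klein6 (flowU (C U) (C V) X) (flowV (C U) (C V) X) = B := by
  have e : ∀ r : k, (flowU (C U) (C V) X).eval r = flowU U V r ∧
      (flowV (C U) (C V) X).eval r = flowV U V r := fun r => by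
    simpa using map_flow (evalRingHom r) (C U) (C V) X
  constructor <;> refine Polynomial.funext fun r => ?_
  · rw [← (hfam _ _ h4 h6 r).1, ← (e r).1, ← (e r).2]
    exact (map_klein (evalRingHom r) _ _).1
  · rw [← (hfam _ _ h4 h6 r).2, ← (e r).1, ← (e r).2]
    exact (map_klein (evalRingHom r) _ _).2

include hz hd hfam hA0 hB0 in
omit [DecidableEq k] in
/-- The flow lifts the Klein points to the generic member. -/
lemma isLift_kleinPt {U V : k} (h4 : klein4 U V = a) (h6 : klein6 U V = b) :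
    IsLift A B 5 (qx z U V) (qy z U V) (polyX z U V) (polyY z U V) := by
  refine ⟨by rw [(eval_poly z U V 0).1, (flow_zero U V).1, (flow_zero U V).2],
    by rw [(eval_poly z U V 0).2, (flow_zero U V).1, (flow_zero U V).2], fun {_} => ?_⟩
  set φ := algebraMap k[X] (FractionRing k[X])
  have hinj : Function.Injective φ := IsFractionRing.injective _ _
  have : CharZero (FractionRing k[X]) := charZero_of_injective_ringHom (φ.comp C).injective
  have hzK : φ (C z) ^ 4 + φ (C z) ^ 3 + φ (C z) ^ 2 + φ (C z) + 1 = 0 := by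
    simpa using congrArg (φ.comp C) hz
  have hdK : φ A ^ 3 ≠ φ B ^ 2 := fun h => hd (by
    rw [← map_pow, ← map_pow] at h
    simpa [hA0, hB0] using congrArg (fun P => P.eval 0) (hinj h))
  obtain ⟨f4, f6⟩ := klein_flow_poly A B hfam h4 h6
  have e4 := ((map_klein φ _ _).1).symm.trans (congrArg φ f4)
  have e6 := ((map_klein φ _ _).2).symm.trans (congrArg φ f6)
  rw [(algebraMap_poly _ z U V).1, (algebraMap_poly _ z U V).2]
  exact ⟨klein_nonsingular hzK hdK e4 e6, five_nsmul_kleinPt hzK hdK e4 e6⟩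

include hz hd hfam hA0 hB0 in
/-- The five torsion along the family: an equivariant injection, by specialisation of the lifts. -/
theorem exists_torsionHom {r : k} (hr : A.eval r ^ 3 ≠ B.eval r ^ 2) :
    ∃ f : Submodule.torsionBy ℤ (shortCurve a b).toAffine.Point ((5 : ℕ) : ℤ) →+
        (shortCurve (A.eval r) (B.eval r)).toAffine.Point,
      Function.Injective f ∧ (∀ S, (5 : ℕ) • f S = 0) ∧
      ∀ (σ : k ≃+* k) (h0 : (shortCurve a b).map σ.toRingHom = shortCurve a b)
        (hr' : (shortCurve (A.eval r) (B.eval r)).map σ.toRingHom =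
          shortCurve (A.eval r) (B.eval r)), σ r = r →
        ∀ S S' : Submodule.torsionBy ℤ (shortCurve a b).toAffine.Point ((5 : ℕ) : ℤ),
          S'.1 = mapPoint σ.toRingHom h0 S.1 → f S' = mapPoint σ.toRingHom hr' (f S) := by
  obtain ⟨f, hf, hf5, hfval⟩ := exists_specialisation (n := 5) (by norm_num) A B hA0 hB0 hd
    (fun x y h hn => by
      obtain ⟨U, V, h4, h6, e⟩ := exists_kleinPt_eq hz hd (Point.some_ne_zero h) hn
      rw [kleinPt, Point.some.injEq] at e
      obtain ⟨rfl, rfl⟩ := e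
      exact ⟨_, _, isLift_kleinPt hz hd A B hfam hA0 hB0 h4 h6⟩) hr
  have key : ∀ (S : Submodule.torsionBy ℤ (shortCurve a b).toAffine.Point ((5 : ℕ) : ℤ)) (U V : k)
      (h4 : klein4 U V = a) (h6 : klein6 U V = b), S.1 = kleinPt hz hd h4 h6 →
      f S = kleinPt hz hr (hfam U V h4 h6 r).1 (hfam U V h4 h6 r).2 := fun S U V h4 h6 e => by
    obtain ⟨h', e'⟩ := hfval S _ _ _ _ _ e (isLift_kleinPt hz hd A B hfam hA0 hB0 h4 h6)
    rw [e', kleinPt, Point.some.injEq]
    exact ⟨(eval_poly z U V r).1, (eval_poly z U V r).2⟩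
  refine ⟨f, hf, hf5, fun σ h0 hr' hσr S S' hS' => ?_⟩
  by_cases h : S.1 = 0
  · rw [show S = 0 from Subtype.ext h,
      show S' = 0 from Subtype.ext (by rw [hS', h, map_zero]; rfl), map_zero, map_zero]
  obtain ⟨U, V, h4, h6, e⟩ := exists_kleinPt_eq hz hd h
    (by rw [← natCast_zsmul]; exact (Submodule.mem_torsionBy_iff _ _).1 S.2)
  have hσz : σ z ^ 4 + σ z ^ 3 + σ z ^ 2 + σ z + 1 = 0 := by simpa using congrArg σ hz
  obtain ⟨j, hj⟩ := exists_two_pow_of_root hz hσz
  obtain ⟨g4, g6, em⟩ := mapPoint_kleinPt hz hd σ h0 hj h4 h6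
  obtain ⟨g4r, g6r, emr⟩ := mapPoint_kleinPt hz hr σ hr' hj
    (hfam U V h4 h6 r).1 (hfam U V h4 h6 r).2
  let T : Submodule.torsionBy ℤ (shortCurve a b).toAffine.Point ((5 : ℕ) : ℤ) :=
    ⟨kleinPt hz hd g4 g6, by
      rw [Submodule.mem_torsionBy_iff, natCast_zsmul]; exact five_nsmul_kleinPt _ _ _ _⟩
  rw [show S' = 2 ^ j • T from Subtype.ext (by
      rw [hS', ← e, em]; exact (AddSubmonoidClass.coe_nsmul T (2 ^ j)).symm), map_nsmul,
    key T _ _ g4 g6 rfl, key S U V h4 h6 e.symm, emr]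
  congr 1
  rw [kleinPt, kleinPt, Point.some.injEq]
  obtain ⟨e1, e2⟩ := map_flow σ.toRingHom U V r
  simp only [RingEquiv.toRingHom_eq_coe, RingEquiv.coe_toRingHom, hσr] at e1 e2
  simp [e1, e2]

end Family

end FermatAgent.Switch
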