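import Fermat.Agent.Switch.Forms
import Mathlib.RingTheory.Derivation.MapCoeffs
import Mathlib.Algebra.MvPolynomial.Derivation
import Mathlib.RingTheory.Polynomial.Basic
import Mathlib.Algebra.Polynomial.Lifts

/-!
# Rationality of the congruent family

The covariants of `(u + r·dirU, v + r·dirV)` are polynomials in `r` whose coefficients are
rational polynomials in the covariants of `(u, v)`.
-/

set_option autoImplicit false

noncomputable section

open Polynomial

namespace FermatAgent.Switch

universe u

/-- The ring `ℚ[u, v]`. -/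
abbrev UV : Type := MvPolynomial (Fin 2) ℚ

/-- `u`. -/
abbrev xu : UV := MvPolynomial.X 0

/-- `v`. -/
abbrev xv : UV := MvPolynomial.X 1

/-- The Hamiltonian derivation of `D`. -/
def flowDer : Derivation ℚ UV UV :=
  MvPolynomial.mkDerivation ℚ ![dirU xu xv, dirV xu xv]

lemma flowDer_u : flowDer xu = dirU xu xv := by
  simp [flowDer, MvPolynomial.mkDerivation_X]

lemma flowDer_v : flowDer xv = dirV xu xv := by
  simp [flowDer, MvPolynomial.mkDerivation_X]

/-- `flowDer` on coefficients. -/
def coeffDer : Derivation ℚ UV[X] UV[X] :=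
  PolynomialModule.equivPolynomialSelf.compDer flowDer.mapCoeffs

lemma coeff_coeffDer (p : UV[X]) (i : ℕ) : (coeffDer p).coeff i = flowDer (p.coeff i) := rfl

lemma coeffDer_C (a : UV) : coeffDer (C a) = C (flowDer a) := by
  ext i
  rw [coeff_coeffDer, coeff_C, coeff_C]
  split_ifs <;> simp

lemma coeffDer_X : coeffDer (X : UV[X]) = 0 := by
  ext i
  rw [coeff_coeffDer, coeff_X, coeff_zero]
  split_ifs <;> simp

/-- The operator annihilating the family up to a factor. -/
def familyOp : Derivation ℚ UV[X] UV[X] :=
  coeffDer - (1 - C (11 * form4 xu xv) * X ^ 2) • (derivative' (R := UV)).restrictScalars ℚ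

lemma familyOp_apply (p : UV[X]) :
    familyOp p = coeffDer p - (1 - C (11 * form4 xu xv) * X ^ 2) * derivative p := rfl

/-- `u + r·dirU`. -/
def lineU : UV[X] := C xu + C (dirU xu xv) * X

/-- `v + r·dirV`. -/
def lineV : UV[X] := C xv + C (dirV xu xv) * X

lemma familyOp_lineU : familyOp lineU = C (11 * form4 xu xv) * X * lineU := by
  rw [familyOp_apply, lineU, map_add, Derivation.leibniz, coeffDer_C, coeffDer_C, coeffDer_X,
    flowDer_u, deriv_dirU flowDer flowDer_u flowDer_v, smul_zero, zero_add, derivative_add,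
    derivative_C, derivative_C_mul, derivative_X]
  simp only [smul_eq_mul, map_mul]
  ring

lemma familyOp_lineV : familyOp lineV = C (11 * form4 xu xv) * X * lineV := by
  rw [familyOp_apply, lineV, map_add, Derivation.leibniz, coeffDer_C, coeffDer_C, coeffDer_X,
    flowDer_v, deriv_dirV flowDer flowDer_u flowDer_v, smul_zero, zero_add, derivative_add,
    derivative_C, derivative_C_mul, derivative_X]
  simp only [smul_eq_mul, map_mul]
  ring

/-- The operator acts on the quartic form of the line as on its weight. -/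
lemma familyOp_form4 :
    familyOp (form4 lineU lineV) = C (11 * form4 xu xv) * X * (20 * form4 lineU lineV) := by
  have hu := familyOp_lineU
  have hv := familyOp_lineV
  simp only [form4, klein4] at hu hv ⊢
  generalize lineU = a at *
  generalize lineV = b at *
  simp only [map_add, map_sub, Derivation.leibniz, Derivation.leibniz_pow, smul_eq_mul,
    nsmul_eq_mul, hu, hv, show (228 : UV[X]) = ((228 : ℕ) : UV[X]) by norm_num,
    show (494 : UV[X]) = ((494 : ℕ) : UV[X]) by norm_num, Derivation.map_natCast]
  push_cast; ring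

/-- The operator acts on the sextic form of the line as on its weight. -/
lemma familyOp_form6 :
    familyOp (form6 lineU lineV) = C (11 * form4 xu xv) * X * (30 * form6 lineU lineV) := by
  have hu := familyOp_lineU
  have hv := familyOp_lineV
  simp only [form4, form6, klein4, klein6] at hu hv ⊢
  generalize lineU = a at *
  generalize lineV = b at *
  simp only [map_neg, map_add, map_sub, Derivation.leibniz, Derivation.leibniz_pow, smul_eq_mul,
    nsmul_eq_mul, hu, hv, show (522 : UV[X]) = ((522 : ℕ) : UV[X]) by norm_num,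
    show (10005 : UV[X]) = ((10005 : ℕ) : UV[X]) by norm_num, Derivation.map_natCast]
  push_cast; ring

/-- The invariant subalgebra `ℚ[c₄, c₆]`. -/
def invariantAlg : Subalgebra ℚ UV := Algebra.adjoin ℚ {form4 xu xv, form6 xu xv}

/-- `c₄(u, v)` lies in the invariant algebra. -/
lemma form4_mem_invariantAlg : form4 xu xv ∈ invariantAlg :=
  Algebra.subset_adjoin (Set.mem_insert _ _)

/-- `c₆(u, v)` lies in the invariant algebra. -/
lemma form6_mem_invariantAlg : form6 xu xv ∈ invariantAlg :=
  Algebra.subset_adjoin (Set.mem_insert_of_mem _ rfl)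

lemma flowDer_mem_invariantAlg {a : UV} (ha : a ∈ invariantAlg) :
    flowDer a ∈ invariantAlg := by
  induction ha using Algebra.adjoin_induction with
  | mem x hx =>
    rcases hx with rfl | rfl
    · rw [deriv_form4 flowDer flowDer_u flowDer_v]
      exact mul_mem (by simp) form6_mem_invariantAlg
    · rw [deriv_form6 flowDer flowDer_u flowDer_v]
      exact mul_mem (by simp)
        (pow_mem form4_mem_invariantAlg 2)
  | algebraMap c => rw [Derivation.map_algebraMap]; exact zero_mem _
  | add x y _ _ hx hy => rw [map_add]; exact add_mem hx hy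
  | mul x y hx' hy' hx hy =>
    rw [Derivation.leibniz]
    exact add_mem (mul_mem hx' hy) (mul_mem hy' hx)

/-- A weight vector of the operator with invariant constant term has invariant coefficients. -/
lemma coeff_mem_invariantAlg {G : UV[X]} {n : ℕ}
    (hG : familyOp G = C (11 * form4 xu xv) * X * ((n : UV[X]) * G))
    (h0 : G.coeff 0 ∈ invariantAlg) (i : ℕ) : G.coeff i ∈ invariantAlg := by
  induction i using Nat.strong_induction_on with
  | _ i ih =>
    rcases i with _ | i
    · exact h0
    have h := congrArg (fun p : UV[X] => p.coeff i) hG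
    rw [familyOp_apply, sub_mul, one_mul, ← C_eq_natCast] at h
    simp only [coeff_sub, coeff_coeffDer, coeff_derivative, mul_assoc (C (11 * form4 xu xv)),
      coeff_C_mul] at h
    have hnat : ∀ m : ℕ, (m : UV) ∈ invariantAlg := fun m => natCast_mem _ m
    have hk : (11 * form4 xu xv) ∈ invariantAlg := mul_mem (by simp)
      form4_mem_invariantAlg
    have hδ : flowDer (G.coeff i) ∈ invariantAlg := flowDer_mem_invariantAlg (ih i (by omega))
    have hA : ((X : UV[X]) ^ 2 * derivative G).coeff i ∈ invariantAlg := by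
      rw [coeff_X_pow_mul']
      split_ifs
      · rw [coeff_derivative]
        exact mul_mem (ih _ (by omega)) (add_mem (hnat _) (one_mem _))
      · exact zero_mem _
    have hB : ((X : UV[X]) * (C (n : UV) * G)).coeff i ∈ invariantAlg := by
      rcases i with _ | i
      · rw [coeff_X_mul_zero]; exact zero_mem _
      · rw [coeff_X_mul, coeff_C_mul]; exact mul_mem (hnat n) (ih i (by omega))
    have hmain : G.coeff (i + 1) * ((i : UV) + 1) ∈ invariantAlg := by
      rw [show G.coeff (i + 1) * ((i : UV) + 1) = flowDer (G.coeff i) +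
          11 * form4 xu xv * ((X : UV[X]) ^ 2 * derivative G).coeff i -
          11 * form4 xu xv * ((X : UV[X]) * (C (n : UV) * G)).coeff i by linear_combination -h]
      exact sub_mem (add_mem hδ (mul_mem hk hA)) (mul_mem hk hB)
    have hinv : algebraMap ℚ UV ((i : ℚ) + 1)⁻¹ ∈ invariantAlg := invariantAlg.algebraMap_mem _
    have := mul_mem hmain hinv
    rwa [mul_assoc, show ((i : UV) + 1) = algebraMap ℚ UV ((i : ℚ) + 1) by simp, ← map_mul,
      mul_inv_cancel₀ (by positivity), map_one, mul_one] at this

variable {k : Type u} [Field k] [Algebra ℚ k]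

lemma exists_rat_poly {u₀ v₀ : k} {a b : ℚ} (ha : form4 u₀ v₀ = algebraMap ℚ k a)
    (hb : form6 u₀ v₀ = algebraMap ℚ k b) {G : UV[X]} {n : ℕ}
    (hG : familyOp G = C (11 * form4 xu xv) * X * ((n : UV[X]) * G))
    (h0 : G.coeff 0 ∈ invariantAlg) :
    ∃ P : ℚ[X], P.map (algebraMap ℚ k) = G.map (MvPolynomial.aeval ![u₀, v₀]).toRingHom := by
  let ev : UV →ₐ[ℚ] k := MvPolynomial.aeval ![u₀, v₀]
  have hle : invariantAlg.map ev ≤ (⊥ : Subalgebra ℚ k) := by
    rw [invariantAlg, AlgHom.map_adjoin, Algebra.adjoin_le_iff]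
    rintro _ ⟨x, (rfl | rfl), rfl⟩
    · exact Algebra.mem_bot.2 ⟨a, by rw [← ha]; simp [ev, form4, klein4]⟩
    · exact Algebra.mem_bot.2 ⟨b, by rw [← hb]; simp [ev, form6, klein6]⟩
  refine (mem_lifts _).1 ((lifts_iff_coeff_lifts _).2 fun i => ?_)
  rw [coeff_map]
  exact Algebra.mem_bot.1 (hle ⟨_, coeff_mem_invariantAlg hG h0 i, rfl⟩)

/-- The covariants along `(u₀, v₀) + r·(dirU, dirV)` are rational polynomials in `r`. -/
theorem exists_family {u₀ v₀ : k} {a b : ℚ} (ha : form4 u₀ v₀ = algebraMap ℚ k a)
    (hb : form6 u₀ v₀ = algebraMap ℚ k b) :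
    ∃ A B : ℚ[X], ∀ r : k,
      aeval r A = form4 (u₀ + r * dirU u₀ v₀) (v₀ + r * dirV u₀ v₀) ∧
      aeval r B = form6 (u₀ + r * dirU u₀ v₀) (v₀ + r * dirV u₀ v₀) := by
  obtain ⟨A, hA⟩ := exists_rat_poly ha hb (G := form4 lineU lineV) (n := 20)
    (by simpa using familyOp_form4) (by
      rw [coeff_zero_eq_eval_zero]
      convert form4_mem_invariantAlg using 1
      simp [form4, klein4, lineU, lineV])
  obtain ⟨B, hB⟩ := exists_rat_poly ha hb (G := form6 lineU lineV) (n := 30)
    (by simpa using familyOp_form6) (by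
      rw [coeff_zero_eq_eval_zero]
      convert form6_mem_invariantAlg using 1
      simp [form6, klein6, lineU, lineV])
  refine ⟨A, B, fun r => ⟨?_, ?_⟩⟩
  · rw [← eval_map_algebraMap, hA]
    simp [form4, klein4, lineU, lineV, dirU, dirV, mul_comm r]
  · rw [← eval_map_algebraMap, hB]
    simp [form6, klein6, lineU, lineV, dirU, dirV, mul_comm r]

end FermatAgent.Switch
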