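import Fermat.Agent.Switch.Family
import Fermat.Agent.Switch.Recursion
import Fermat.Agent.Switch.TorsionEquiv
import Fermat.Agent.EC.Torsion

/-!
# The congruent family over the rationals

Through a nondegenerate pair of integers `(a, b)` passes a polynomial family `(A, B)` over `ℚ` of
short curves, all but finitely many of whose integral members have the same `5`-torsion
(Rubin–Silverberg): the flow on Klein coordinates, read through the invariants `klein4`, `klein6`.
-/

set_option autoImplicit false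

noncomputable section

open WeierstrassCurve WeierstrassCurve.Affine Polynomial
open scoped WeierstrassCurve.Affine
open FermatAgent.EC (mapPoint mapPoint_some)

namespace FermatAgent.Switch

universe u

local notation "Qbar" => AlgebraicClosure ℚ

/-- Two points with the same covariants give the same family. -/
lemma line_forms_eq {k : Type u} [Field k] [Algebra ℚ k] {u₀ v₀ u₁ v₁ : k}
    (h4 : form4 u₀ v₀ = form4 u₁ v₁) (h6 : form6 u₀ v₀ = form6 u₁ v₁) (r : k) :
    form4 (u₀ + r * dirU u₀ v₀) (v₀ + r * dirV u₀ v₀) =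
        form4 (u₁ + r * dirU u₁ v₁) (v₁ + r * dirV u₁ v₁) ∧
      form6 (u₀ + r * dirU u₀ v₀) (v₀ + r * dirV u₀ v₀) =
        form6 (u₁ + r * dirU u₁ v₁) (v₁ + r * dirV u₁ v₁) := by
  let e₀ : UV →ₐ[ℚ] k := MvPolynomial.aeval ![u₀, v₀]
  let e₁ : UV →ₐ[ℚ] k := MvPolynomial.aeval ![u₁, v₁]
  have hle : invariantAlg ≤ AlgHom.equalizer e₀ e₁ := by
    refine Algebra.adjoin_le ?_
    rintro x (rfl | rfl)
    · show e₀ _ = e₁ _
      simpa [e₀, e₁, form4, klein4] using h4
    · show e₀ _ = e₁ _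
      simpa [e₀, e₁, form6, klein6] using h6
  have key : ∀ (G : UV[X]) (n : ℕ),
      familyOp G = C (11 * form4 xu xv) * X * ((n : UV[X]) * G) → G.coeff 0 ∈ invariantAlg →
      (G.map e₀.toRingHom).eval r = (G.map e₁.toRingHom).eval r := fun G n hG h0 => by
    congr 1
    ext i
    rw [coeff_map, coeff_map]
    exact hle (coeff_mem_invariantAlg hG h0 i)
  have k4 := key (form4 lineU lineV) 20 (by simpa using familyOp_form4) (by
    rw [coeff_zero_eq_eval_zero]
    convert form4_mem_invariantAlg using 1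
    simp [form4, klein4, lineU, lineV])
  have k6 := key (form6 lineU lineV) 30 (by simpa using familyOp_form6) (by
    rw [coeff_zero_eq_eval_zero]
    convert form6_mem_invariantAlg using 1
    simp [form6, klein6, lineU, lineV])
  constructor
  · simpa [e₀, e₁, form4, klein4, lineU, lineV, dirU, dirV, mul_comm r] using k4
  · simpa [e₀, e₁, form6, klein6, lineU, lineV, dirU, dirV, mul_comm r] using k6

/-- `ℚ̄` contains a primitive fifth root of unity. -/
lemma exists_cyclotomic_five : ∃ z : Qbar, z ^ 4 + z ^ 3 + z ^ 2 + z + 1 = 0 := by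
  obtain ⟨z, hz⟩ := IsAlgClosed.exists_root (X ^ 4 + X ^ 3 + X ^ 2 + X + 1 : Qbar[X]) (by
    rw [show (X ^ 4 + X ^ 3 + X ^ 2 + X + 1 : Qbar[X]).degree = 4 by compute_degree!]
    decide)
  exact ⟨z, by simpa [IsRoot] using hz⟩

/-- Over `ℚ̄` the integral short curve is the short curve. -/
lemma qbar_curve_eq (a b : ℤ) :
    ((shortCurve a b).map (Int.castRingHom ℚ))⁄Qbar =
      (shortCurve (a : Qbar) (b : Qbar)).toAffine := by
  show (((shortCurve a b).map (Int.castRingHom ℚ)).map (algebraMap ℚ Qbar)) = _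
  refine WeierstrassCurve.ext ?_ ?_ ?_ ?_ ?_ <;> simp [shortCurve]

/-- A short curve with integral coefficients is fixed by Galois. -/
lemma shortCurve_map_galois (σ : Qbar ≃+* Qbar) (a b : ℤ) :
    (shortCurve (a : Qbar) (b : Qbar)).map σ.toRingHom = shortCurve (a : Qbar) (b : Qbar) := by
  rw [shortCurve_map, map_intCast, map_intCast]

/-- Transport along an equality of curves commutes with Galois. -/
lemma pointCongr_galois {W : WeierstrassCurve ℤ} {V : WeierstrassCurve Qbar}
    (h : (W.map (Int.castRingHom ℚ))⁄Qbar = V.toAffine) (σ : Qbar ≃ₐ[ℚ] Qbar)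
    (hV : V.map σ.toRingEquiv.toRingHom = V) (P : QPts W) :
    ECLocal.pointCongr h (σ • P) =
      mapPoint σ.toRingEquiv.toRingHom hV (ECLocal.pointCongr h P) := by
  rcases P with _ | ⟨x, y, hP⟩
  · rw [← Point.zero_def, ECLocal.galois_smul_zero, map_zero, map_zero]
  · have e : σ • (Point.some x y hP : QPts W) = Point.some (σ x) (σ y)
        ((Affine.baseChange_nonsingular (W := W.map (Int.castRingHom ℚ))
          (f := σ.toAlgHom) σ.injective x y).mpr hP) := rfl
    refine ((congrArg (ECLocal.pointCongr h) e).trans (ECLocal.pointCongr_some h _)).trans ?_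
    refine Eq.trans ?_ (congrArg _ (ECLocal.pointCongr_some h hP)).symm
    simp [mapPoint_some]

/-- An equivariant injection of the `n`-torsion over `ℚ̄` of one short curve into that of
another identifies the torsion modules. -/
theorem torEquiv_of_hom {n : ℕ} (hn : n ≠ 0) {a b a' b' : ℤ} (hd : a ^ 3 ≠ b ^ 2)
    (hd' : a' ^ 3 ≠ b' ^ 2) {A B : Qbar} (hA : A = a') (hB : B = b')
    (f : Submodule.torsionBy ℤ (shortCurve (a : Qbar) (b : Qbar)).toAffine.Point (n : ℤ) →+
      (shortCurve A B).toAffine.Point) (hf : Function.Injective f) (hfn : ∀ S, n • f S = 0)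
    (hfσ : ∀ (σ : Qbar ≃ₐ[ℚ] Qbar)
      (hσ : (shortCurve A B).map σ.toRingEquiv.toRingHom = shortCurve A B) S S',
      S'.1 = mapPoint σ.toRingEquiv.toRingHom (shortCurve_map_galois _ a b) S.1 →
        f S' = mapPoint σ.toRingEquiv.toRingHom hσ (f S)) :
    TorEquiv n (shortCurve a b) (shortCurve a' b') := by
  subst hA hB
  let pc := ECLocal.pointCongr (qbar_curve_eq a b)
  let pc' := ECLocal.pointCongr (qbar_curve_eq a' b')
  let ι : QTor (shortCurve a b) n →+
      Submodule.torsionBy ℤ (shortCurve (a : Qbar) (b : Qbar)).toAffine.Point (n : ℤ) :=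
    AddMonoidHom.mk' (fun x => ⟨pc x.1, by
      rw [Submodule.mem_torsionBy_iff, natCast_zsmul, ← map_nsmul, mem_qTor.1 x.2, map_zero]⟩)
      fun x y => Subtype.ext (map_add pc x.1 y.1)
  let g : QTor (shortCurve a b) n →+ QTor (shortCurve a' b') n := AddMonoidHom.mk'
    (fun x => ⟨pc'.symm (f (ι x)), mem_qTor.2 (by rw [← map_nsmul, hfn, map_zero])⟩)
    fun x y => Subtype.ext (by
      show pc'.symm (f (ι (x + y))) = pc'.symm (f (ι x)) + pc'.symm (f (ι y))
      rw [map_add, map_add, map_add])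
  have ginj : Function.Injective g := fun x y h =>
    Subtype.ext (pc.injective (congrArg Subtype.val
      (hf (pc'.symm.injective (congrArg Subtype.val h)) : ι x = ι y)))
  have hcard : ∀ c d : ℤ, c ^ 3 ≠ d ^ 2 → Nat.card (QTor (shortCurve c d) n) = n ^ 2 := fun c d h =>
    EC.natCard_torsionBy_rat ((shortCurve c d).map (Int.castRingHom ℚ)) (n := n) (by
      rw [WeierstrassCurve.map_Δ, shortCurve_Δ, eq_intCast, Int.cast_ne_zero]
      exact mul_ne_zero (by norm_num) (sub_ne_zero.2 h)) hn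
  have : Finite (QTor (shortCurve a' b') n) :=
    Nat.finite_of_card_ne_zero (by rw [hcard _ _ hd']; positivity)
  refine ⟨AddEquiv.ofBijective g (ginj.bijective_of_nat_card_le (by
    rw [hcard _ _ hd', hcard _ _ hd])), fun σ x => Subtype.ext ?_⟩
  show pc'.symm (f (ι (σ • x))) = σ • pc'.symm (f (ι x))
  rw [hfσ σ (shortCurve_map_galois _ a' b') (ι x) (ι (σ • x)) (pointCongr_galois _ σ _ x.1)]
  apply pc'.injective
  rw [AddEquiv.apply_symm_apply, pointCongr_galois _ σ (shortCurve_map_galois _ a' b'),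
    AddEquiv.apply_symm_apply]

/-- A pair `U, V` with prescribed covariants. -/
lemma exists_kleinSol {a b : ℤ} (hd : a ^ 3 ≠ b ^ 2) :
    ∃ U V : Qbar, klein4 U V = a ∧ klein6 U V = b := by
  obtain ⟨z, hz⟩ := exists_cyclotomic_five
  have hd' : (a : Qbar) ^ 3 ≠ (b : Qbar) ^ 2 := by exact_mod_cast hd
  have hcard := EC.natCard_nsmul_eq_zero (n := 5) (V := shortCurve (a : Qbar) (b : Qbar))
    (shortCurve_Δ_ne_zero hd') (by norm_num)
  obtain ⟨P, hP⟩ : ∃ P : {P : (shortCurve (a : Qbar) (b : Qbar)).toAffine.Point //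
      (5 : ℕ) • P = 0}, P.1 ≠ 0 := by
    by_contra hcon
    push Not at hcon
    have : Subsingleton {P : (shortCurve (a : Qbar) (b : Qbar)).toAffine.Point //
        (5 : ℕ) • P = 0} := ⟨fun x y => Subtype.ext ((hcon x).trans (hcon y).symm)⟩
    have h1 := Finite.card_le_one_iff_subsingleton.2 this
    rw [hcard] at h1
    norm_num at h1
  obtain ⟨U, V, h4, h6, -⟩ := exists_kleinPt_eq hz hd' hP P.2
  exact ⟨U, V, h4, h6⟩

/-- `(A, B)` is the congruent family through `(a, b)`: at every `r` it gives the invariants of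
the flow at time `r` of every Klein pair with invariants `(a, b)`. -/
def IsKleinFamily (a b : ℤ) (A B : ℚ[X]) : Prop :=
  ∀ U V : Qbar, klein4 U V = a → klein6 U V = b → ∀ r : Qbar,
    klein4 (flowU U V r) (flowV U V r) = aeval r A ∧
      klein6 (flowU U V r) (flowV U V r) = aeval r B

/-- The congruent family has rational coefficients and passes through `(a, b)` at `0`. -/
lemma exists_kleinFamily {a b : ℤ} (hd : a ^ 3 ≠ b ^ 2) :
    ∃ A B : ℚ[X], A.eval 0 = a ∧ B.eval 0 = b ∧ IsKleinFamily a b A B := by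
  obtain ⟨U₀, V₀, h4, h6⟩ := exists_kleinSol hd
  obtain ⟨u₀, hu₀⟩ := IsAlgClosed.exists_pow_nat_eq U₀ (show 0 < 5 by norm_num)
  obtain ⟨v₀, hv₀⟩ := IsAlgClosed.exists_pow_nat_eq V₀ (show 0 < 5 by norm_num)
  have hf4 : form4 u₀ v₀ = algebraMap ℚ Qbar a := by
    simpa [form4, hu₀, hv₀] using h4
  have hf6 : form6 u₀ v₀ = algebraMap ℚ Qbar b := by
    simpa [form6, hu₀, hv₀] using h6
  obtain ⟨A, B, hAB⟩ := exists_family hf4 hf6
  have hinj : Function.Injective (algebraMap ℚ Qbar) := (algebraMap ℚ Qbar).injective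
  have hA0 : A.eval 0 = a := hinj (by
    rw [← aeval_algebraMap_apply_eq_algebraMap_eval, map_zero, (hAB 0).1, ← hf4]; simp)
  have hB0 : B.eval 0 = b := hinj (by
    rw [← aeval_algebraMap_apply_eq_algebraMap_eval, map_zero, (hAB 0).2, ← hf6]; simp)
  refine ⟨A, B, hA0, hB0, fun U V g4 g6 r => ?_⟩
  obtain ⟨u₁, hu₁⟩ := IsAlgClosed.exists_pow_nat_eq U (show 0 < 5 by norm_num)
  obtain ⟨v₁, hv₁⟩ := IsAlgClosed.exists_pow_nat_eq V (show 0 < 5 by norm_num)
  obtain ⟨e4, e6⟩ := line_forms_eq (u₀ := u₀) (v₀ := v₀) (u₁ := u₁) (v₁ := v₁)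
    (by simp [form4, hu₀, hv₀, hu₁, hv₁, h4, g4]) (by simp [form6, hu₀, hv₀, hu₁, hv₁, h6, g6]) r
  rw [(hAB r).1, (hAB r).2, e4, e6, form4, form6, (pow_five_line u₁ v₁ r).1,
    (pow_five_line u₁ v₁ r).2, hu₁, hv₁]
  exact ⟨rfl, rfl⟩

/-- All but finitely many members of the congruent family through `(a, b)` have the `5`-torsion
of `shortCurve a b`. -/
theorem IsKleinFamily.exists_torEquiv {a b : ℤ} {A B : ℚ[X]} (hfam : IsKleinFamily a b A B)
    (hd : a ^ 3 ≠ b ^ 2) (hA0 : A.eval 0 = a) (hB0 : B.eval 0 = b) :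
    ∃ bad : Set ℤ, bad.Finite ∧ ∀ r a' b' : ℤ, r ∉ bad → A.eval (r : ℚ) = a' →
      B.eval (r : ℚ) = b' →
      a' ^ 3 ≠ b' ^ 2 ∧ TorEquiv 5 (shortCurve a b) (shortCurve a' b') := by
  classical
  obtain ⟨z, hz⟩ := exists_cyclotomic_five
  have hd' : (a : Qbar) ^ 3 ≠ (b : Qbar) ^ 2 := by exact_mod_cast hd
  set Aq := A.map (algebraMap ℚ Qbar) with hAq
  set Bq := B.map (algebraMap ℚ Qbar) with hBq
  have hfamq : ∀ U V : Qbar, klein4 U V = a → klein6 U V = b → ∀ r : Qbar,
      klein4 (flowU U V r) (flowV U V r) = Aq.eval r ∧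
        klein6 (flowU U V r) (flowV U V r) = Bq.eval r := by
    simpa only [hAq, hBq, eval_map_algebraMap, IsKleinFamily] using hfam
  have hA0q : Aq.eval 0 = (a : Qbar) := by
    rw [hAq, eval_map_algebraMap, ← map_zero (algebraMap ℚ Qbar),
      aeval_algebraMap_apply_eq_algebraMap_eval, hA0, map_intCast]
  have hB0q : Bq.eval 0 = (b : Qbar) := by
    rw [hBq, eval_map_algebraMap, ← map_zero (algebraMap ℚ Qbar),
      aeval_algebraMap_apply_eq_algebraMap_eval, hB0, map_intCast]
  refine ⟨((↑) : ℤ → Qbar) ⁻¹' {r | (Aq ^ 3 - Bq ^ 2).IsRoot r},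
    Set.Finite.preimage Int.cast_injective.injOn (Polynomial.finite_setOfPred_isRoot fun h => hd'
      (sub_eq_zero.1 (by simpa [hA0q, hB0q] using congrArg (fun P => P.eval 0) h))),
    fun r a' b' hr hA hB => ?_⟩
  have eA : Aq.eval (r : Qbar) = (a' : Qbar) := by
    rw [hAq, eval_intCast_map, hA, map_intCast]
  have eB : Bq.eval (r : Qbar) = (b' : Qbar) := by
    rw [hBq, eval_intCast_map, hB, map_intCast]
  have hgood' : (a' : Qbar) ^ 3 ≠ (b' : Qbar) ^ 2 := by
    rw [← eA, ← eB]
    exact fun h => hr (by simpa [IsRoot, sub_eq_zero] using h)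
  refine ⟨by exact_mod_cast hgood', ?_⟩
  obtain ⟨f, hf, hf5, hfσ⟩ := exists_torsionHom hz hd' Aq Bq hfamq hA0q hB0q (r := (r : Qbar))
    (by rw [eA, eB]; exact hgood')
  exact torEquiv_of_hom (by norm_num) hd (by exact_mod_cast hgood') eA eB f hf hf5
    fun σ hσ => hfσ σ.toRingEquiv _ hσ (map_intCast _ r)

/-- **The congruent family.** A polynomial family over `ℚ` through `(a, b)` almost all of whose
integral members have the same `5`-torsion as `shortCurve a b`. -/
theorem exists_congruentFamily {a b : ℤ} (hd : a ^ 3 ≠ b ^ 2) :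
    ∃ A B : ℚ[X], A.eval 0 = a ∧ B.eval 0 = b ∧ IsKleinFamily a b A B ∧
      ∃ bad : Set ℤ, bad.Finite ∧ ∀ r a' b' : ℤ, r ∉ bad → A.eval (r : ℚ) = a' →
        B.eval (r : ℚ) = b' →
        a' ^ 3 ≠ b' ^ 2 ∧ TorEquiv 5 (shortCurve a b) (shortCurve a' b') := by
  obtain ⟨A, B, hA0, hB0, hfam⟩ := exists_kleinFamily hd
  exact ⟨A, B, hA0, hB0, hfam, hfam.exists_torEquiv hd hA0 hB0⟩

end FermatAgent.Switch
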