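import Mathlib.RingTheory.Derivation.Basic
import Mathlib.Tactic.LinearCombination
import Mathlib.Tactic.Ring

/-!
# Klein's icosahedral forms

The forms `klein4`, `klein6` in `U = u⁵`, `V = v⁵` are the covariants `c₄`, `c₆` of the
degree twelve form `D = u v (u¹⁰ + 11 u⁵ v⁵ - v¹⁰)`; `(dirU, dirV) = (-∂D/∂v, ∂D/∂u)`.
-/

set_option autoImplicit false

namespace FermatAgent.Switch

universe u

variable {R : Type u} [CommRing R]

/-- `c₄` of the universal curve of level five. -/
def klein4 (U V : R) : R :=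
  U ^ 4 - 228 * U ^ 3 * V + 494 * U ^ 2 * V ^ 2 + 228 * U * V ^ 3 + V ^ 4

/-- `c₆` of the universal curve of level five. -/
def klein6 (U V : R) : R :=
  -(U ^ 6 + 522 * U ^ 5 * V - 10005 * U ^ 4 * V ^ 2 - 10005 * U ^ 2 * V ^ 4 - 522 * U * V ^ 5
    + V ^ 6)

/-- `D / (u v)`. -/
def kleinG (U V : R) : R := U ^ 2 + 11 * U * V - V ^ 2

/-- `c₄(u, v)`. -/
def form4 (u v : R) : R := klein4 (u ^ 5) (v ^ 5)

/-- `c₆(u, v)`. -/
def form6 (u v : R) : R := klein6 (u ^ 5) (v ^ 5)

/-- `-∂D/∂v`. -/
def dirU (u v : R) : R :=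
  -(u * ((u ^ 5) ^ 2 + 66 * u ^ 5 * v ^ 5 - 11 * (v ^ 5) ^ 2))

/-- `∂D/∂u`. -/
def dirV (u v : R) : R :=
  v * (11 * (u ^ 5) ^ 2 + 66 * u ^ 5 * v ^ 5 - (v ^ 5) ^ 2)

/-- The syzygy of Klein's forms, with the icosahedral form of the vertices. -/
theorem klein_disc (U V : R) :
    klein4 U V ^ 3 - klein6 U V ^ 2 = -1728 * (U * V * kleinG U V ^ 5) := by
  simp only [klein4, klein6, kleinG]; ring

/-- The quartic form is invariant under `(U, V) ↦ (-V, U)`. -/
theorem klein4_swap (U V : R) : klein4 (-V) U = klein4 U V := by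
  simp only [klein4]; ring

/-- The sextic form is invariant under `(U, V) ↦ (-V, U)`. -/
theorem klein6_swap (U V : R) : klein6 (-V) U = klein6 U V := by
  simp only [klein6]; ring

/-- The quartic form is even. -/
theorem klein4_neg (U V : R) : klein4 (-U) (-V) = klein4 U V := by
  simp only [klein4]; ring

/-- The sextic form is even. -/
theorem klein6_neg (U V : R) : klein6 (-U) (-V) = klein6 U V := by
  simp only [klein6]; ring

section Derivation

variable {A : Type u} [CommRing A] [Algebra A R] (δ : Derivation A R R) {u v : R}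
  (hu : δ u = dirU u v) (hv : δ v = dirV u v)

include hu in
theorem deriv_pow_five_left :
    δ (u ^ 5) = -5 * u ^ 5 * ((u ^ 5) ^ 2 + 66 * u ^ 5 * v ^ 5 - 11 * (v ^ 5) ^ 2) := by
  rw [Derivation.leibniz_pow, hu, dirU, nsmul_eq_mul, smul_eq_mul]; push_cast; ring

include hv in
theorem deriv_pow_five_right :
    δ (v ^ 5) = 5 * v ^ 5 * (11 * (u ^ 5) ^ 2 + 66 * u ^ 5 * v ^ 5 - (v ^ 5) ^ 2) := by
  rw [Derivation.leibniz_pow, hv, dirV, nsmul_eq_mul, smul_eq_mul]; push_cast; ring

include hu hv in
/-- The derivation sends `c₄(u, v)` to `20 c₆(u, v)`. -/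
theorem deriv_form4 : δ (form4 u v) = 20 * form6 u v := by
  have h1 := deriv_pow_five_left δ hu
  have h2 := deriv_pow_five_right δ hv
  simp only [form4, form6, klein4, klein6]
  generalize u ^ 5 = U at *
  generalize v ^ 5 = V at *
  simp only [map_add, map_sub, Derivation.leibniz, Derivation.leibniz_pow, smul_eq_mul,
    nsmul_eq_mul, h1, h2, show (228 : R) = ((228 : ℕ) : R) by norm_num,
    show (494 : R) = ((494 : ℕ) : R) by norm_num, Derivation.map_natCast]
  push_cast; ring

include hu hv in
/-- The derivation sends `c₆(u, v)` to `30 c₄(u, v)²`. -/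
theorem deriv_form6 : δ (form6 u v) = 30 * form4 u v ^ 2 := by
  have h1 := deriv_pow_five_left δ hu
  have h2 := deriv_pow_five_right δ hv
  simp only [form4, form6, klein4, klein6]
  generalize u ^ 5 = U at *
  generalize v ^ 5 = V at *
  simp only [map_neg, map_add, map_sub, Derivation.leibniz, Derivation.leibniz_pow, smul_eq_mul,
    nsmul_eq_mul, h1, h2, show (522 : R) = ((522 : ℕ) : R) by norm_num,
    show (10005 : R) = ((10005 : ℕ) : R) by norm_num, Derivation.map_natCast]
  push_cast; ring

include hu hv in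
/-- The derivation sends the direction `U` to a multiple of `u`. -/
theorem deriv_dirU : δ (dirU u v) = 11 * form4 u v * u := by
  have h1 := deriv_pow_five_left δ hu
  have h2 := deriv_pow_five_right δ hv
  have h0 := hu
  simp only [form4, klein4, dirU] at h0 ⊢
  generalize u ^ 5 = U at *
  generalize v ^ 5 = V at *
  simp only [map_neg, map_add, map_sub, Derivation.leibniz, Derivation.leibniz_pow, smul_eq_mul,
    nsmul_eq_mul, h1, h2, h0, show (66 : R) = ((66 : ℕ) : R) by norm_num,
    show (11 : R) = ((11 : ℕ) : R) by norm_num, Derivation.map_natCast]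
  push_cast; ring

include hu hv in
/-- The derivation sends the direction `V` to a multiple of `v`. -/
theorem deriv_dirV : δ (dirV u v) = 11 * form4 u v * v := by
  have h1 := deriv_pow_five_left δ hu
  have h2 := deriv_pow_five_right δ hv
  have h0 := hv
  simp only [form4, klein4, dirV] at h0 ⊢
  generalize u ^ 5 = U at *
  generalize v ^ 5 = V at *
  simp only [map_add, map_sub, Derivation.leibniz, Derivation.leibniz_pow, smul_eq_mul,
    nsmul_eq_mul, h1, h2, h0, show (66 : R) = ((66 : ℕ) : R) by norm_num,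
    show (11 : R) = ((11 : ℕ) : R) by norm_num, Derivation.map_natCast]
  push_cast; ring

end Derivation

end FermatAgent.Switch
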