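import Fermat.Agent.Switch.Forms
import Mathlib.Algebra.Field.Basic

/-!
# The toric five torsion point of the universal curve of level five

`(qx z U V, qy z U V)` is a point of `y² = x³ - 27 c₄ x - 54 c₆` for a primitive fifth root
of unity `z`; doubling it replaces `(U, V)` by `(-V, U)`, which also equals replacing `z` by `z²`.
-/

set_option autoImplicit false

namespace FermatAgent.Switch

universe u

variable {k : Type u} [Field k] [CharZero k]

/-- The `x`-coordinate of the toric point. -/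
def qx (z U V : k) : k :=
  ((36 * (z ^ 2 + z ^ 3) - 57) * U ^ 2 + (396 * (z ^ 2 + z ^ 3) + 198) * U * V
    + (-93 - 36 * (z ^ 2 + z ^ 3)) * V ^ 2) / 5

/-- The `y`-coordinate of the toric point. -/
def qy (z U V : k) : k :=
  ((-216 - 432 * z - 324 * z ^ 2 - 108 * z ^ 3) * U ^ 3
    + (-2484 - 4968 * z - 3456 * z ^ 2 - 1512 * z ^ 3) * U ^ 2 * V
    + (-972 - 1944 * z + 1512 * z ^ 2 - 3456 * z ^ 3) * U * V ^ 2
    + (108 + 216 * z - 108 * z ^ 2 + 324 * z ^ 3) * V ^ 3) / 5

/-- The slope of the tangent at the toric point. -/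
def qSlope (z U V : k) : k :=
  ((21 + 42 * z + 18 * z ^ 2 + 24 * z ^ 3) * U + (3 + 6 * z + 24 * z ^ 2 - 18 * z ^ 3) * V) / 5

variable {z : k} (hz : z ^ 4 + z ^ 3 + z ^ 2 + z + 1 = 0)

include hz

/-- The toric point lies on `y² = x³ - 27 c₄ x - 54 c₆`. -/
theorem qy_sq (U V : k) :
    qy z U V ^ 2 = qx z U V ^ 3 - 27 * klein4 U V * qx z U V - 54 * klein6 U V := by
  simp only [qx, qy, klein4, klein6]
  linear_combination ((793152/125) * V^6 + (-16842816/125) * U * V^5 +
      (16282944/25) * U^2 * V^4 + (16282944/25) * U^3 * V^3 +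
      (11710656/25) * U^4 * V^2 + (8817984/125) * U^5 * V + (373248/125) * U^6 +
      (-559872/125) * z * V^6 +
      (12643776/125) * z * U * V^5 + (-14649984/25) * z * U^2 * V^4 +
      (2846016/25) * z * U^3 * V^3 + (14649984/25) * z * U^4 * V^2 +
      (12643776/125) * z * U^5 * V + (559872/125) * z * U^6 + (793152/125) * z^2 * V^6 +
      (-16842816/125) * z^2 * U * V^5 +
      (16282944/25) * z^2 * U^2 * V^4 + (16282944/25) * z^2 * U^3 * V^3 +
      (11710656/25) * z^2 * U^4 * V^2 + (8817984/125) * z^2 * U^5 * V +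
      (373248/125) * z^2 * U^6 + (93312/125) * z^4 * V^6 + (-3079296/125) * z^4 * U * V^5 +
      (6718464/25) * z^4 * U^2 * V^4 +
      (-23607936/25) * z^4 * U^3 * V^3 + (-6718464/25) * z^4 * U^4 * V^2 +
      (-3079296/125) * z^4 * U^5 * V + (-93312/125) * z^4 * U^6 +
      (46656/125) * z^5 * V^6 + (-1539648/125) * z^5 * U * V^5 + (3359232/25) * z^5 * U^2 * V^4 +
      (-11803968/25) * z^5 * U^3 * V^3 +
      (-3359232/25) * z^5 * U^4 * V^2 + (-1539648/125) * z^5 * U^5 * V +
      (-46656/125) * z^5 * U^6) * hz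

/-- The slope is that of the tangent at the toric point. -/
theorem qSlope_mul (U V : k) :
    qSlope z U V * (2 * qy z U V) = 3 * qx z U V ^ 2 - 27 * klein4 U V := by
  simp only [qx, qy, qSlope, klein4]
  linear_combination ((-24624/25) * V^4 + (263088/25) * U * V^3 + (128304/25) * U^2 * V^2 +
      (-191808/25) * U^3 * V +
      (-18144/25) * U^4 + (27216/25) * z * V^4 + (-268272/25) * z * U * V^3 +
      (-351216/25) * z * U^2 * V^2 +
      (-230688/25) * z * U^3 * V + (-18144/25) * z * U^4 + (-15552/25) * z^2 * V^4 +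
      (225504/25) * z^2 * U * V^3 +
      (-574128/25) * z^2 * U^2 * V^2 + (-154224/25) * z^2 * U^3 * V + (-9072/25) * z^2 * U^4) * hz

/-- Squaring the root of unity corresponds to `(U, V) ↦ (-V, U)` on `x`. -/
theorem qx_sq (U V : k) : qx (z ^ 2) U V = qx z (-V) U := by
  simp only [qx]
  linear_combination ((-36/5) * V^2 + (396/5) * U * V + (36/5) * U^2 + (36/5) * z * V^2 +
      (-396/5) * z * U * V + (-36/5) * z * U^2 + (-36/5) * z^2 * V^2 + (396/5) * z^2 * U * V +
      (36/5) * z^2 * U^2) * hz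

/-- Squaring the root of unity corresponds to `(U, V) ↦ (-V, U)` on `y`. -/
theorem qy_sq_root (U V : k) : qy (z ^ 2) U V = qy z (-V) U := by
  simp only [qy]
  linear_combination ((-108/5) * V^3 + (1512/5) * U * V^2 + (-3456/5) * U^2 * V + (-324/5) * U^3 +
      (-324/5) * z * V^3 + (3456/5) * z * U * V^2 + (1512/5) * z * U^2 * V + (108/5) * z * U^3 +
      (324/5) * z^2 * V^3 + (-3456/5) * z^2 * U * V^2 + (-1512/5) * z^2 * U^2 * V +
      (-108/5) * z^2 * U^3) * hz

/-- The first coordinate of twice the toric point. -/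
theorem qx_double (U V : k) :
    qx z (-V) U = qSlope z U V ^ 2 - 2 * qx z U V := by
  simp only [qx, qSlope]
  linear_combination ((-1224/25) * V^2 + (864/25) * U * V + (-1476/25) * U^2 + (1188/25) * z * V^2 +
      (-1368/25) * z * U * V + (-288/25) * z * U^2 + (-324/25) * z^2 * V^2 +
      (864/25) * z^2 * U * V +
      (-576/25) * z^2 * U^2) * hz

/-- The second coordinate of twice the toric point. -/
theorem qy_double (U V : k) :
    qy z (-V) U = -(qy z U V + qSlope z U V * (qx z (-V) U - qx z U V)) := by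
  simp only [qx, qy, qSlope]
  linear_combination ((1728/25) * V^3 + (-17712/25) * U * V^2 + (-15984/25) * U^2 * V +
      (-1296/25) * U^3 +
      (1728/25) * z * V^3 + (-17712/25) * z * U * V^2 + (-15984/25) * z * U^2 * V +
      (-1296/25) * z * U^3 +
      (-1296/25) * z^2 * V^3 + (15984/25) * z^2 * U * V^2 + (-17712/25) * z^2 * U^2 * V +
      (-1728/25) * z^2 * U^3) * hz

omit [CharZero k] hz in
/-- `(U, V) ↦ (-U, -V)` changes the sign of `y`. -/
theorem qy_neg (U V : k) : qy z (-U) (-V) = -qy z U V := by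
  simp only [qy]; ring

omit [CharZero k] hz in
/-- `(U, V) ↦ (-U, -V)` fixes `x`. -/
theorem qx_neg (U V : k) : qx z (-U) (-V) = qx z U V := by
  simp only [qx]; ring

/-- The identity `-90` of the two coefficients of the slope. -/
theorem slope_coeff_sq :
    ((21 + 42 * z + 18 * z ^ 2 + 24 * z ^ 3) / 5) ^ 2 +
      ((3 + 6 * z + 24 * z ^ 2 - 18 * z ^ 3) / 5) ^ 2 = -90 := by
  linear_combination ((108) + (-36) * z + (36) * z^2) * hz

/-- On a nonsingular curve the toric point is not killed by two. -/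
theorem qy_ne_zero {U V : k} (h : klein4 U V ^ 3 ≠ klein6 U V ^ 2) : qy z U V ≠ 0 := by
  intro h0
  have h1 := qy_sq hz U V
  have h2 := qSlope_mul hz U V
  rw [h0] at h1 h2
  have h3 : qx z U V ^ 2 = 9 * klein4 U V :=
    mul_left_cancel₀ (b := qx z U V ^ 2) (show (3 : k) ≠ 0 by norm_num) (by linear_combination -h2)
  have h4 : klein4 U V * qx z U V = -3 * klein6 U V :=
    mul_left_cancel₀ (b := klein4 U V * qx z U V) (show (2 : k) ≠ 0 by norm_num)
      (mul_left_cancel₀ (show (9 : k) ≠ 0 by norm_num) (by linear_combination h1 + qx z U V * h3))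
  refine h (mul_left_cancel₀ (b := klein4 U V ^ 3) (show (9 : k) ≠ 0 by norm_num) ?_)
  linear_combination -klein4 U V ^ 2 * h3 + (klein4 U V * qx z U V - 3 * klein6 U V) * h4

/-- The toric point determines `(U, V)`. -/
theorem eq_of_qx_qy_eq {U V U' V' : k} (h4 : klein4 U' V' = klein4 U V)
    (hd : klein4 U V ^ 3 ≠ klein6 U V ^ 2) (hx : qx z U' V' = qx z U V)
    (hy : qy z U' V' = qy z U V) : U' = U ∧ V' = V := by
  have hy0 := qy_ne_zero hz hd
  have hL : qSlope z U' V' = qSlope z U V := by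
    have h1 := qSlope_mul hz U' V'
    rw [h4, hx, hy, ← qSlope_mul hz U V] at h1
    exact mul_right_cancel₀ (mul_ne_zero (show (2 : k) ≠ 0 by norm_num) hy0) h1
  have hx2 : qx z (-V') U' = qx z (-V) U := by rw [qx_double hz, qx_double hz, hL, hx]
  have hy2 : qy z (-V') U' = qy z (-V) U := by rw [qy_double hz, qy_double hz, hL, hx, hy, hx2]
  have hd2 : klein4 (-V) U ^ 3 ≠ klein6 (-V) U ^ 2 := by rwa [klein4_swap, klein6_swap]
  have hy20 := qy_ne_zero hz hd2
  have hL2 : qSlope z (-V') U' = qSlope z (-V) U := by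
    have h1 := qSlope_mul hz (-V') U'
    rw [klein4_swap, h4, hx2, hy2] at h1
    have h2 := qSlope_mul hz (-V) U
    rw [klein4_swap] at h2
    exact mul_right_cancel₀ (mul_ne_zero (show (2 : k) ≠ 0 by norm_num) hy20) (h1.trans h2.symm)
  have hdet := slope_coeff_sq hz
  simp only [qSlope] at hL hL2
  refine ⟨mul_left_cancel₀ (show (-90 : k) ≠ 0 by norm_num) ?_,
    mul_left_cancel₀ (show (-90 : k) ≠ 0 by norm_num) ?_⟩
  · linear_combination (21 + 42 * z + 18 * z ^ 2 + 24 * z ^ 3) / 5 * hL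
      + (3 + 6 * z + 24 * z ^ 2 - 18 * z ^ 3) / 5 * hL2 - (U' - U) * hdet
  · linear_combination (3 + 6 * z + 24 * z ^ 2 - 18 * z ^ 3) / 5 * hL
      - (21 + 42 * z + 18 * z ^ 2 + 24 * z ^ 3) / 5 * hL2 - (V' - V) * hdet

end FermatAgent.Switch
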