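import Fermat.Agent.Switch.TorsionEquiv

/-!
# Scaling an integral model down
-/

set_option autoImplicit false

noncomputable section

open WeierstrassCurve Polynomial
open scoped WeierstrassCurve.Affine

namespace FermatAgent.Switch

lemma exists_dvd_add_two_mul {q : ℕ} (hq : q.Prime) (hq2 : q ≠ 2) (n : ℕ) (c : ℤ) :
    ∃ x : ℤ, (q : ℤ) ^ n ∣ c + 2 * x := by
  have h : IsCoprime (2 : ℤ) ((q : ℤ) ^ n) := by
    refine IsCoprime.pow_right ?_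
    rw [show (2 : ℤ) = ((2 : ℕ) : ℤ) from rfl, Nat.isCoprime_iff_coprime]
    exact (Nat.coprime_primes Nat.prime_two hq).2 (Ne.symm hq2)
  obtain ⟨u, v, huv⟩ := h
  exact ⟨-c * u, c * v, by linear_combination -c * huv⟩

lemma exists_dvd_add_three_mul {q : ℕ} (hq : q.Prime) (hq3 : q ≠ 3) (n : ℕ) (c : ℤ) :
    ∃ x : ℤ, (q : ℤ) ^ n ∣ c + 3 * x := by
  have h : IsCoprime (3 : ℤ) ((q : ℤ) ^ n) := by
    refine IsCoprime.pow_right ?_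
    rw [show (3 : ℤ) = ((3 : ℕ) : ℤ) from rfl, Nat.isCoprime_iff_coprime]
    exact (Nat.coprime_primes Nat.prime_three hq).2 (Ne.symm hq3)
  obtain ⟨u, v, huv⟩ := h
  exact ⟨-c * u, c * v, by linear_combination -c * huv⟩

/-- Descent to a smaller model at a prime `q ≥ 5` with `q⁴ ∣ c₄` and `q⁶ ∣ c₆`. -/
lemma exists_scaled_model (X : WeierstrassCurve ℤ) {q : ℕ} (hq : q.Prime) (hq2 : q ≠ 2)
    (hq3 : q ≠ 3) (h4 : (q : ℤ) ^ 4 ∣ X.c₄) (h6 : (q : ℤ) ^ 6 ∣ X.c₆) :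
    ∃ X' : WeierstrassCurve ℤ, X.c₄ = (q : ℤ) ^ 4 * X'.c₄ ∧ X.c₆ = (q : ℤ) ^ 6 * X'.c₆ ∧
      X.Δ = (q : ℤ) ^ 12 * X'.Δ ∧ ∀ n : ℕ, TorEquiv n X' X := by
  obtain ⟨s, e₁, he₁⟩ := exists_dvd_add_two_mul hq hq2 1 X.a₁
  obtain ⟨r, e₂, he₂⟩ := exists_dvd_add_three_mul hq hq3 2 (X.a₂ - s * X.a₁ - s ^ 2)
  obtain ⟨t, e₃, he₃⟩ := exists_dvd_add_two_mul hq hq2 3 (X.a₃ + r * X.a₁)
  set Y : WeierstrassCurve ℤ := (⟨1, r, s, t⟩ : VariableChange ℤ) • X with hY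
  have hc₄ : Y.c₄ = X.c₄ := by rw [hY, variableChange_c₄]; simp
  have hc₆ : Y.c₆ = X.c₆ := by rw [hY, variableChange_c₆]; simp
  have hΔ : Y.Δ = X.Δ := by rw [hY, variableChange_Δ]; simp
  have y₁ : Y.a₁ = (q : ℤ) * e₁ := by
    rw [pow_one] at he₁
    rw [← he₁, hY, variableChange_def]; simp
  have y₂ : Y.a₂ = (q : ℤ) ^ 2 * e₂ := by
    rw [← he₂, hY, variableChange_def]; simp; ring
  have y₃ : Y.a₃ = (q : ℤ) ^ 3 * e₃ := by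
    rw [← he₃, hY, variableChange_def]; simp
  have hcop : ∀ (c : ℕ) (n : ℕ), (∀ p : ℕ, p.Prime → p ∣ c → p = 2 ∨ p = 3) →
      IsCoprime ((q : ℤ) ^ n) (c : ℤ) := by
    intro c n hc
    refine IsCoprime.pow_left ?_
    rw [Nat.isCoprime_iff_coprime, hq.coprime_iff_not_dvd]
    intro h
    rcases hc q hq h with h' | h'
    · exact hq2 h'
    · exact hq3 h'
  have hsmooth : ∀ p : ℕ, p.Prime → ∀ i j : ℕ, p ∣ 2 ^ i * 3 ^ j → p = 2 ∨ p = 3 :=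
    fun p hp i j h => ((Nat.Prime.dvd_mul hp).1 h).imp
      (fun h => (Nat.prime_dvd_prime_iff_eq hp Nat.prime_two).1 (hp.dvd_of_dvd_pow h))
      (fun h => (Nat.prime_dvd_prime_iff_eq hp Nat.prime_three).1 (hp.dvd_of_dvd_pow h))
  obtain ⟨e₄, y₄⟩ : (q : ℤ) ^ 4 ∣ Y.a₄ := by
    refine (hcop 48 4 fun p hp h => hsmooth p hp 4 1 h).dvd_of_dvd_mul_left ?_
    obtain ⟨k, hk⟩ := h4
    refine ⟨(e₁ ^ 2 + 4 * e₂) ^ 2 - 24 * e₁ * e₃ - k, ?_⟩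
    rw [← hc₄] at hk
    simp only [WeierstrassCurve.c₄, b₂, b₄, y₁, y₂, y₃] at hk
    push_cast
    linear_combination -hk
  obtain ⟨e₆, y₆⟩ : (q : ℤ) ^ 6 ∣ Y.a₆ := by
    refine (hcop 864 6 fun p hp h => hsmooth p hp 5 3 h).dvd_of_dvd_mul_left ?_
    obtain ⟨k, hk⟩ := h6
    refine ⟨-(e₁ ^ 2 + 4 * e₂) ^ 3 + 36 * (e₁ ^ 2 + 4 * e₂) * (2 * e₄ + e₁ * e₃)
      - 216 * e₃ ^ 2 - k, ?_⟩
    rw [← hc₆] at hk
    simp only [WeierstrassCurve.c₆, b₂, b₄, b₆, y₁, y₂, y₃, y₄] at hk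
    push_cast
    linear_combination -hk
  refine ⟨⟨e₁, e₂, e₃, e₄, e₆⟩, ?_, ?_, ?_, ?_⟩
  · rw [← hc₄]; simp only [WeierstrassCurve.c₄, b₂, b₄, y₁, y₂, y₃, y₄]; ring
  · rw [← hc₆]; simp only [WeierstrassCurve.c₆, b₂, b₄, b₆, y₁, y₂, y₃, y₄, y₆]; ring
  · rw [← hΔ]; simp only [WeierstrassCurve.Δ, b₂, b₄, b₆, b₈, y₁, y₂, y₃, y₄, y₆]; ring
  · intro n
    refine torEquiv_of_variableChange n
      ⟨Units.mk0 (q : ℚ) (Nat.cast_ne_zero.2 hq.ne_zero), r, s, t⟩ ?_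
    have hu : (q : ℚ) ≠ 0 := Nat.cast_ne_zero.2 hq.ne_zero
    rw [hY, variableChange_def] at y₁ y₂ y₃ y₄ y₆
    simp only [inv_one, Units.val_one, one_pow, one_mul] at y₁ y₂ y₃ y₄ y₆
    have z₁ := congrArg (fun n : ℤ => (n : ℚ)) y₁
    have z₂ := congrArg (fun n : ℤ => (n : ℚ)) y₂
    have z₃ := congrArg (fun n : ℤ => (n : ℚ)) y₃
    have z₄ := congrArg (fun n : ℤ => (n : ℚ)) y₄
    have z₆ := congrArg (fun n : ℤ => (n : ℚ)) y₆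
    push_cast at z₁ z₂ z₃ z₄ z₆
    refine WeierstrassCurve.ext ?_ ?_ ?_ ?_ ?_ <;>
      simp only [variableChange_def, WeierstrassCurve.map_a₁, WeierstrassCurve.map_a₂,
        WeierstrassCurve.map_a₃, WeierstrassCurve.map_a₄, WeierstrassCurve.map_a₆, eq_intCast,
        Units.val_inv_eq_inv_val, Units.val_mk0] <;>
      field_simp
    exacts [by linear_combination z₁, by linear_combination z₂, by linear_combination z₃,
      by linear_combination z₄, by linear_combination z₆]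

/-- If `-c` is not a square modulo `ℓ` then `ℓ` does not divide `c`. -/
lemma not_dvd_of_not_isSquare {ℓ : ℕ} {c : ℤ} (h : ¬IsSquare ((-c : ℤ) : ZMod ℓ)) :
    ¬(ℓ : ℤ) ∣ c := fun hd => h ⟨0, by
  rw [mul_zero, (ZMod.intCast_zmod_eq_zero_iff_dvd _ ℓ).2 (dvd_neg.2 hd)]⟩

end FermatAgent.Switch
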