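import Fermat.Agent.ECLocal.StableLine
import Fermat.Agent.EC.DetFrobenius
import Fermat.Agent.EC.Frobenius
import Fermat.Agent.EC.GoodPrimeTrace
import Fermat.Prelude.Def_FLTPrelim_ModularRep

/-!
# A nonsplit multiplicative prime `ℓ ≡ 1 (mod 3)` forces irreducibility mod `3`

`modRepIsIrreducible_three_of_nonsplit`: if a semistable curve had a stable line mod `3`, the
line or the quotient would be fixed, so Frobenius at `ℓ`, of determinant `ℓ ≡ 1`, would act
unipotently and its cube trivially. On a node model it exchanges the tangent directions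
(`residue_pow_of_nonsplit`) and is `-ℓ` on the torsion of the identity component
(`frobenius_eq_neg_nsmul`), which contains a nonzero point of order `3` (`exists_torsion_isE0`):
a contradiction.
-/

set_option autoImplicit false

noncomputable section

open WeierstrassCurve
open scoped WeierstrassCurve.Affine

namespace FermatAgent.Switch

open FermatAgent.ECLocal

local notation "Qbar" => AlgebraicClosure ℚ

/-- The residual data of a node model at a nonsplit prime. -/
lemma frobenius_nodal {k : Type*} [Field k] {ℓ : ℕ} [hℓ : Fact ℓ.Prime] [CharP k ℓ]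
    (h2 : (2 : k) ≠ 0) (h3 : (3 : k) ≠ 0) {a₁ a₃ b c4 c6 : ℤ} {rr tt al be : k}
    (ha₁ : (a₁ : k) = -(al + be)) (hb : (b : k) + 12 * rr = (al - be) ^ 2)
    (hc4 : (c4 : k) = (al - be) ^ 4) (hc6 : (c6 : k) = -(al - be) ^ 6)
    (ha₃ : (a₃ : k) + rr * (a₁ : k) + 2 * tt = 0) (hne : al ≠ be)
    (hns : ¬ IsSquare ((-c6 : ℤ) : ZMod ℓ)) :
    al ^ ℓ = be ∧ be ^ ℓ = al ∧ rr ^ ℓ = rr ∧ tt ^ ℓ = tt := by
  let φ := frobenius k ℓ
  have hφ : ∀ x : k, φ x = x ^ ℓ := fun x => rfl
  have hD : al - be ≠ 0 := sub_ne_zero.2 hne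
  have hℓ2 : ℓ ≠ 2 := fun h => h2 (by
    have := CharP.cast_eq_zero k ℓ
    rw [h] at this; exact_mod_cast this)
  have he : ((-c6 : ℤ) : ZMod ℓ) ≠ 0 := fun h => hns (h ▸ ⟨0, (zero_mul 0).symm⟩)
  have hpow : ((-c6 : ℤ) : ZMod ℓ) ^ (ℓ / 2) = -1 := by
    refine (ZMod.pow_div_two_eq_neg_one_or_one ℓ he).resolve_left fun h => hns ?_
    exact (ZMod.euler_criterion ℓ he).2 h
  have hpowk : ((-c6 : ℤ) : k) ^ (ℓ / 2) = -1 := by
    have h := congrArg (ZMod.castHom dvd_rfl k) hpow
    simpa using h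
  have h3' : φ ((al - be) ^ 3) = -(al - be) ^ 3 := by
    obtain ⟨m, hm⟩ : Odd ℓ := hℓ.out.odd_of_ne_two hℓ2
    have hm2 : ℓ / 2 = m := by omega
    rw [hm2] at hpowk
    push_cast at hpowk
    rw [hc6, neg_neg] at hpowk
    rw [hφ, hm]
    generalize al - be = D at hpowk ⊢
    linear_combination D ^ 3 * hpowk
  have hsq : φ ((al - be) ^ 2) = (al - be) ^ 2 := by
    have e : (al - be) ^ 2 = -(c6 : k) / (c4 : k) := by
      rw [hc4, hc6]; field_simp
    rw [e, map_div₀, map_neg, map_intCast, map_intCast]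
  have hneg : φ (al - be) = -(al - be) := by
    rw [map_pow] at hsq h3'
    rcases sq_eq_sq_iff_eq_or_eq_neg.1 hsq with h | h
    · rw [h] at h3'
      exact absurd (mul_left_cancel₀ h2 (by linear_combination h3' :
        2 * (al - be) ^ 3 = 2 * 0)) (pow_ne_zero 3 hD)
    · exact h
  have hsum : φ (al + be) = al + be := by
    rw [show al + be = -(a₁ : k) by rw [ha₁, neg_neg], map_neg, map_intCast]
  rw [map_sub] at hneg
  rw [map_add] at hsum
  have h4 : (12 : k) ≠ 0 := by
    rw [show (12 : k) = 2 * 2 * 3 by norm_num]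
    exact mul_ne_zero (mul_ne_zero h2 h2) h3
  have hrr : φ rr = rr := by
    have e : 12 * rr = (al - be) ^ 2 - (b : k) := by linear_combination hb
    have := congrArg φ e
    rw [map_mul, map_ofNat, map_sub, hsq, map_intCast, ← e] at this
    exact mul_left_cancel₀ h4 this
  have htt : φ tt = tt := by
    have := congrArg φ ha₃
    simp only [map_add, map_mul, map_intCast, map_ofNat, map_zero, hrr] at this
    exact mul_left_cancel₀ h2 (by linear_combination this - ha₃)
  rw [← hφ, ← hφ, ← hφ, ← hφ]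
  exact ⟨mul_left_cancel₀ h2 (by linear_combination hsum + hneg),
    mul_left_cancel₀ h2 (by linear_combination hsum - hneg), hrr, htt⟩

/-- An endomorphism of a plane fixing a line or a quotient line has `1` as an eigenvalue. -/
lemma det_one_sub_eq_zero_of_line {R : Type*} [Field R] {M : Type*} [AddCommGroup M] [Module R M]
    (hrank : Module.finrank R M = 2) (A : M →ₗ[R] M) {N : Submodule R M} (h0 : N ≠ ⊥)
    (h1 : N ≠ ⊤) (h : (∀ x ∈ N, A x = x) ∨ ∀ x, A x - x ∈ N) : LinearMap.det (1 - A) = 0 := by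
  have := Module.finite_of_finrank_eq_succ hrank
  by_contra hd
  have hu : IsUnit (1 - A : M →ₗ[R] M) :=
    (LinearMap.isUnit_iff_isUnit_det _).2 (isUnit_iff_ne_zero.2 hd)
  obtain ⟨hinj, hsurj⟩ := (Module.End.isUnit_iff _).1 hu
  rcases h with h | h
  · obtain ⟨v, hv, hv0⟩ := Submodule.exists_mem_ne_zero_of_ne_bot h0
    exact hv0 (hinj (by simp [h v hv]))
  · refine h1 (eq_top_iff.2 fun v _ => ?_)
    obtain ⟨w, rfl⟩ := hsurj v
    have := N.neg_mem (h w)
    simpa using this

/-- A unipotence criterion in dimension two. -/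
lemma apply_apply_of_line {R : Type*} [Field R] {M : Type*} [AddCommGroup M] [Module R M]
    (hrank : Module.finrank R M = 2) (A : M →ₗ[R] M) {N : Submodule R M} (h0 : N ≠ ⊥)
    (h1 : N ≠ ⊤) (hdet : LinearMap.det A = 1)
    (h : (∀ x ∈ N, A x = x) ∨ ∀ x, A x - x ∈ N) (x : M) :
    A (A x) - A x = A x - x := by
  have hker := det_one_sub_eq_zero_of_line hrank A h0 h1 h
  have htr := EC.trace_eq_of_det hrank A
  rw [hdet, hker, sub_zero, one_add_one_eq_two] at htr
  have := EC.comp_self_of_trace_det hrank A x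
  rw [hdet, htr, one_smul, two_smul] at this
  rw [← sub_eq_zero, ← this]
  abel

/-- The group of classes killed by `n` in a component group has at most `n` elements. -/
lemma componentGroup_torsion {K : Type*} [Field K] {A : ValuationSubring K}
    {W : WeierstrassCurve A} (M : NodeModel W) {n : ℕ} (hn : n ≠ 0) :
    ∃ f : {x : NodeModel.ComponentGroup W // n • x = 0} → ZMod n, Function.Injective f := by
  have hc : A.valuation (W.a₆ : K) ≠ 0 := M.c_ne_zero
  have hrep : ∀ x : {x : NodeModel.ComponentGroup W // n • x = 0},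
      ∃ (a : A.ValueGroupˣ) (j : ℤ), Additive.ofMul (QuotientGroup.mk a) = x.1 ∧
        a ^ n = Units.mk0 _ hc ^ j := by
    rintro ⟨x, hx⟩
    obtain ⟨a, ha⟩ := QuotientGroup.mk_surjective (Additive.toMul x)
    have hxa : x = Additive.ofMul (QuotientGroup.mk a) := by rw [ha]; rfl
    rw [hxa, ← ofMul_pow, ofMul_eq_zero, ← QuotientGroup.mk_pow, QuotientGroup.eq_one_iff,
      dif_neg hc, Subgroup.mem_zpowers_iff] at hx
    obtain ⟨j, hj⟩ := hx
    exact ⟨a, j, hxa.symm, hj.symm⟩
  choose a j hxa hpow using hrep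
  refine ⟨fun x => (j x : ZMod n), fun x y h => ?_⟩
  obtain ⟨i, hi⟩ : (n : ℤ) ∣ j y - j x := (ZMod.intCast_eq_intCast_iff_dvd_sub _ _ n).1 h
  refine Subtype.ext ((hxa x).symm.trans (Eq.trans ?_ (hxa y)))
  congr 1
  rw [QuotientGroup.eq, dif_neg hc, Subgroup.mem_zpowers_iff]
  refine ⟨i, ?_⟩
  have he : ((a x)⁻¹ * a y) ^ n = (Units.mk0 _ hc ^ i) ^ n := by
    rw [mul_pow, inv_pow, hpow, hpow, ← zpow_neg, ← zpow_add, ← zpow_natCast (Units.mk0 _ hc ^ i),
      ← zpow_mul]
    congr 1
    linear_combination hi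
  have hv := congrArg (Units.val) he
  rw [Units.val_pow_eq_pow_val, Units.val_pow_eq_pow_val] at hv
  exact Units.ext ((pow_left_inj₀ zero_le zero_le hn).1 hv).symm

variable {W : WeierstrassCurve ℤ}

/-- Frobenius at a nonsplit prime is `-ℓ` on the torsion of the identity component. -/
lemma frobenius_eq_neg_nsmul {ℓ : ℕ} [hℓ : Fact ℓ.Prime] {p : ℕ} (hp : p.Prime) (hℓp : ℓ ≠ p)
    {A : ValuationSubring Qbar} (hA : A.LiesOverPrime ℓ) {F : Qbar ≃ₐ[ℚ] Qbar}
    (hF : A.IsFrobeniusAt F ℓ) {r t : A}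
    (M : NodeModel (translation r t • modelAt W A))
    (hres : (IsLocalRing.residue A M.α) ^ ℓ = IsLocalRing.residue A M.β ∧
      (IsLocalRing.residue A M.β) ^ ℓ = IsLocalRing.residue A M.α ∧
      (IsLocalRing.residue A r) ^ ℓ = IsLocalRing.residue A r ∧
      (IsLocalRing.residue A t) ^ ℓ = IsLocalRing.residue A t)
    (P : ((W.map (Int.castRingHom ℚ))⁄Qbar).Point) (hP : p • P = 0)
    {Q : (gen (translation r t • modelAt W A)).toAffine.Point}
    (hQ : translatePoint (modelAt W A) r t Q = toGen W A P) (h0 : IsE0 Q) :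
    F • P = -(ℓ • P) := by
  classical
  obtain ⟨hal, hbe, hrr, htt⟩ := hres
  have : CharP (IsLocalRing.ResidueField A) ℓ := residueChar A hA
  let g : A.decompositionSubgroup ℚ := ⟨F, hF.mem_decompositionSubgroup⟩
  have hres : ∀ a : A, IsLocalRing.residue A (g • a) = IsLocalRing.residue A a ^ ℓ := fun a =>
    (IsLocalRing.ResidueField.residue_smul _ g a).trans (hF.smul_residue_eq _)
  have hpk : (p : IsLocalRing.ResidueField A) ≠ 0 :=
    natCast_residue_ne_zero hℓ.out hA fun h => hℓp ((Nat.prime_dvd_prime_iff_eq hℓ.out hp).1 h)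
  have hQp : p • Q = 0 := (translatePoint_bijective (modelAt W A) r t).1 (by
    rw [map_nsmul, hQ, ← map_nsmul, hP, map_zero, map_zero])
  rcases Q with _ | ⟨x, y, hxy⟩
  · rw [← Affine.Point.zero_def, map_zero, eq_comm, map_eq_zero_iff _ (toGen W A).injective] at hQ
    subst hQ
    rw [galois_smul_zero, nsmul_zero, neg_zero]
  have hx : x ∈ A := by
    by_contra hx
    exact Affine.Point.some_ne_zero _
      (((isE1_some_iff hxy).2 hx).eq_zero_of_nsmul_eq_zero hpk hQp)
  have hy : y ∈ A := y_mem_of_x_mem hxy.1 hx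
  obtain ⟨h', e⟩ := translatePoint_some (modelAt W A) r t hxy
  rw [hQ] at e
  rcases P with _ | ⟨x₁, y₁, h₁⟩
  · rw [← Affine.Point.zero_def, map_zero] at e
    exact absurd e.symm (Affine.Point.some_ne_zero _)
  rw [toGen_some] at e
  simp only [Affine.Point.some.injEq] at e
  obtain ⟨rfl, rfl⟩ := e
  obtain ⟨Q', hQ'⟩ := (translatePoint_bijective (modelAt W A) r t).2
    (toGen W A (F • (Affine.Point.some _ _ h₁)))
  have hFs : F • (Affine.Point.some (x + r) (y + t) h₁ :
      ((W.map (Int.castRingHom ℚ))⁄Qbar).Point) = .some (F (x + r)) (F (y + t))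
      ((Affine.baseChange_nonsingular (W := W.map (Int.castRingHom ℚ))
        (f := F.toAlgHom) F.injective (x + r) (y + t)).mpr h₁) := rfl
  rcases Q' with _ | ⟨x', y', hxy'⟩
  · exfalso
    rw [← Affine.Point.zero_def, map_zero, hFs] at hQ'; erw [toGen_some] at hQ'
    exact Affine.Point.some_ne_zero _ hQ'.symm
  obtain ⟨h'', e'⟩ := translatePoint_some (modelAt W A) r t hxy'
  rw [hQ', hFs] at e'; erw [toGen_some] at e'
  simp only [Affine.Point.some.injEq] at e'
  obtain ⟨ex, ey⟩ := e'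
  set xa : A := g • (⟨x, hx⟩ + r) - r with hxa
  set ya : A := g • (⟨y, hy⟩ + t) - t with hya
  have hx' : x' = (xa : Qbar) := by
    rw [show (xa : Qbar) = F (x + r) - r from rfl, ex]; ring
  have hy' : y' = (ya : Qbar) := by
    rw [show (ya : Qbar) = F (y + t) - t from rfl, ey]; ring
  subst hx' hy'
  have hxr : IsLocalRing.residue A xa = IsLocalRing.residue A ⟨x, hx⟩ ^ ℓ := by
    rw [hxa, map_sub, hres, map_add, add_pow_char, hrr]; ring
  have hyr : IsLocalRing.residue A ya = IsLocalRing.residue A ⟨y, hy⟩ ^ ℓ := by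
    rw [hya, map_sub, hres, map_add, add_pow_char, htt]; ring
  have hcurve : (spc (translation r t • modelAt W A)).map
      (frobenius (IsLocalRing.ResidueField A) ℓ) = spc (translation r t • modelAt W A) := by
    refine WeierstrassCurve.ext ?_ ?_ ?_ ?_ ?_ <;>
      simp only [WeierstrassCurve.map_a₁, WeierstrassCurve.map_a₂, WeierstrassCurve.map_a₃,
        WeierstrassCurve.map_a₄, WeierstrassCurve.map_a₆, M.a₁_eq, M.a₂_eq, M.a₃_eq, M.a₄_eq,
        M.residue_a₆, map_neg, map_add, map_mul, map_zero, frobenius_def, hal, hbe] <;> ring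
  have h0' : IsE0 (.some (xa : Qbar) (ya : Qbar) hxy' :
      (gen (translation r t • modelAt W A)).toAffine.Point) := by
    rw [isE0_some_iff_of_mem hxy' xa.2, show IsLocalRing.residue A ⟨(xa : Qbar), xa.2⟩ = _ from hxr,
      show IsLocalRing.residue A ⟨(ya : Qbar), _⟩ = _ from hyr, ← hcurve]
    exact (Affine.map_nonsingular _ (frobenius (IsLocalRing.ResidueField A) ℓ).injective _ _).2
      ((isE0_some_iff_of_mem hxy hx).1 h0)
  set N := M.nodal with hN
  set P₁ : (spc (translation r t • modelAt W A)).toAffine.Point := red (.some x y hxy) with hP₁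
  have hprod : N.param (red (.some (xa : Qbar) (ya : Qbar) hxy')) * N.param P₁ ^ ℓ = 1 := by
    rw [hP₁, red_some_of_mem hxy hx h0, red_some_of_mem hxy' xa.2 h0']
    simp only [Nodal.param_some]
    rw [show IsLocalRing.residue A ⟨(xa : Qbar), xa.2⟩ = _ from hxr,
      show IsLocalRing.residue A ⟨(ya : Qbar), _⟩ = _ from hyr]
    set X := IsLocalRing.residue A ⟨x, hx⟩
    set Y := IsLocalRing.residue A ⟨y, hy⟩
    obtain ⟨hU, hV⟩ := N.sub_ne_zero' ((isE0_some_iff_of_mem hxy hx).1 h0)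
    have e1 : Y ^ ℓ - N.α * X ^ ℓ = (Y - N.β * X) ^ ℓ := by
      rw [sub_pow_char, mul_pow]
      show _ = _ - (IsLocalRing.residue A M.β) ^ ℓ * _
      rw [hbe]; rfl
    have e2 : Y ^ ℓ - N.β * X ^ ℓ = (Y - N.α * X) ^ ℓ := by
      rw [sub_pow_char, mul_pow]
      show _ = _ - (IsLocalRing.residue A M.α) ^ ℓ * _
      rw [hal]; rfl
    rw [e1, e2, div_pow, div_mul_div_comm, mul_comm,
      div_self (mul_ne_zero (pow_ne_zero _ hU) (pow_ne_zero _ hV))]
  have hn0 := h0.nsmul ℓ
  have hsum := IsE0.add h0' hn0.1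
  have hE1 : IsE1 ((.some (xa : Qbar) (ya : Qbar) hxy' :
      (gen (translation r t • modelAt W A)).toAffine.Point) + ℓ • .some x y hxy) := by
    rw [← red_eq_zero_iff hsum.1, hsum.2, ← N.param_eq_one_iff, N.param_add, hn0.2, N.param_nsmul]
    exact hprod
  have hQ'p : p • (.some (xa : Qbar) (ya : Qbar) hxy' :
      (gen (translation r t • modelAt W A)).toAffine.Point) = 0 :=
    (translatePoint_bijective (modelAt W A) r t).1 (by
      rw [map_nsmul, hQ', ← map_nsmul, ← galois_smul_nsmul, hP, galois_smul_zero, map_zero,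
        map_zero])
  have hzero := hE1.eq_zero_of_nsmul_eq_zero hpk
    (by rw [nsmul_add, hQ'p, ← mul_nsmul', mul_comm, mul_nsmul', hQp, nsmul_zero, add_zero])
  rw [eq_neg_iff_add_eq_zero]
  apply (toGen W A).injective
  rw [map_add, map_nsmul, map_zero, ← hQ', ← hQ, ← map_nsmul, ← map_add, hzero, map_zero]

/-- At a nonsplit prime Frobenius exchanges the tangent directions of a node model and fixes its
centre. -/
lemma residue_pow_of_nonsplit {ℓ : ℕ} [hℓ : Fact ℓ.Prime] (h2 : ¬ ℓ ∣ 2) (h3 : ¬ ℓ ∣ 3)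
    (hns : ¬ IsSquare ((-W.c₆ : ℤ) : ZMod ℓ)) {A : ValuationSubring Qbar}
    (hA : A.LiesOverPrime ℓ) {r t : A} (M : NodeModel (translation r t • modelAt W A)) :
    (IsLocalRing.residue A M.α) ^ ℓ = IsLocalRing.residue A M.β ∧
      (IsLocalRing.residue A M.β) ^ ℓ = IsLocalRing.residue A M.α ∧
      (IsLocalRing.residue A r) ^ ℓ = IsLocalRing.residue A r ∧
      (IsLocalRing.residue A t) ^ ℓ = IsLocalRing.residue A t := by
  have : CharP (IsLocalRing.ResidueField A) ℓ := residueChar A hA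
  have h2k : (2 : IsLocalRing.ResidueField A) ≠ 0 := by
    exact_mod_cast natCast_residue_ne_zero hℓ.out hA h2
  have h3k : (3 : IsLocalRing.ResidueField A) ≠ 0 := by
    exact_mod_cast natCast_residue_ne_zero hℓ.out hA h3
  have hspc0 : spc (modelAt W A) = W.map (Int.castRingHom (IsLocalRing.ResidueField A)) :=
    map_modelAt_eq W A _
  have hsp := translate_spc (modelAt W A) r t
  set al := IsLocalRing.residue A M.α with hal
  set be := IsLocalRing.residue A M.β with hbe
  have hV : spc (translation r t • modelAt W A) = ⟨-(al + be), -(al * be), 0, 0, 0⟩ :=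
    WeierstrassCurve.ext M.nodal.a₁_eq M.nodal.a₂_eq M.nodal.a₃_eq M.nodal.a₄_eq M.nodal.a₆_eq
  rw [hspc0, hV] at hsp
  have ea₁ := congrArg WeierstrassCurve.a₁ hsp
  have eb₂ := congrArg WeierstrassCurve.b₂ hsp
  have ec₄ := congrArg WeierstrassCurve.c₄ hsp
  have ec₆ := congrArg WeierstrassCurve.c₆ hsp
  have ea₃ := congrArg WeierstrassCurve.a₃ hsp
  rw [variableChange_b₂, WeierstrassCurve.map_b₂, eq_intCast] at eb₂
  rw [variableChange_c₄, WeierstrassCurve.map_c₄, eq_intCast] at ec₄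
  rw [variableChange_c₆, WeierstrassCurve.map_c₆, eq_intCast] at ec₆
  simp [translation, variableChange_def, VariableChange.map] at ea₁ ea₃
  simp [translation, VariableChange.map, WeierstrassCurve.c₄, WeierstrassCurve.c₆,
    -WeierstrassCurve.map_c₄] at eb₂ ec₄ ec₆
  simp only [WeierstrassCurve.b₂, WeierstrassCurve.b₄, WeierstrassCurve.b₆] at eb₂ ec₄ ec₆
  push_cast at eb₂ ec₄ ec₆
  exact frobenius_nodal (k := IsLocalRing.ResidueField A) h2k h3k (a₁ := W.a₁)
    (a₃ := W.a₃) (b := W.b₂) (c4 := W.c₄) (c6 := W.c₆)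
    (rr := IsLocalRing.residue A r) (tt := IsLocalRing.residue A t)
    (al := al) (be := be)
    (by linear_combination ea₁)
    (by simp only [WeierstrassCurve.b₂]; push_cast; linear_combination eb₂)
    (by simp only [WeierstrassCurve.c₄, WeierstrassCurve.b₂, WeierstrassCurve.b₄];
        push_cast; linear_combination ec₄)
    (by simp only [WeierstrassCurve.c₆, WeierstrassCurve.b₂, WeierstrassCurve.b₄,
          WeierstrassCurve.b₆];
        push_cast; linear_combination ec₆)
    (by linear_combination ea₃)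
    M.residue_ne hns

/-- Some nonzero `p`-torsion point meets the identity component of a node model. -/
lemma exists_torsion_isE0 (hΔ0 : W.Δ ≠ 0) {p : ℕ} [hp : Fact p.Prime] {A : ValuationSubring Qbar}
    {r t : A} (M : NodeModel (translation r t • modelAt W A)) :
    ∃ x : Submodule.torsionBy ℤ ((W.map (Int.castRingHom ℚ))⁄Qbar).Point (p : ℤ), x ≠ 0 ∧
      ∃ Q, translatePoint (modelAt W A) r t Q = toGen W A x.1 ∧ IsE0 Q := by
  classical
  let e := AddEquiv.ofBijective _ (translatePoint_bijective (modelAt W A) r t)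
  let c : Submodule.torsionBy ℤ ((W.map (Int.castRingHom ℚ))⁄Qbar).Point (p : ℤ) →+
      NodeModel.ComponentGroup (translation r t • modelAt W A) :=
    (M.componentHom.comp (e.symm.toAddMonoidHom.comp (toGen W A).toAddMonoidHom)).comp
      (Submodule.subtype _).toAddMonoidHom
  by_contra hcon
  push Not at hcon
  have hinj : Function.Injective c := (injective_iff_map_eq_zero c).2 fun x hx =>
    by_contra fun h => hcon x h _ (e.apply_symm_apply _) (M.componentHom_eq_zero_iff.1 hx)
  obtain ⟨f, hf⟩ := componentGroup_torsion M hp.out.ne_zero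
  let c' : Submodule.torsionBy ℤ ((W.map (Int.castRingHom ℚ))⁄Qbar).Point (p : ℤ) →
      {x : NodeModel.ComponentGroup (translation r t • modelAt W A) // p • x = 0} :=
    fun x => ⟨c x, by rw [← map_nsmul, show p • x = 0 from Subtype.ext (nsmul_coe_torsion x),
      map_zero]⟩
  have hΔq := EC.intMap_Δ_ne_zero hΔ0
  have : NeZero p := ⟨hp.out.ne_zero⟩
  have hcard := Nat.card_le_card_of_injective (f ∘ c')
    (hf.comp fun x y h => hinj (congrArg Subtype.val h))
  rw [EC.natCard_torsionBy_rat _ hΔq hp.out.ne_zero, Nat.card_zmod] at hcard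
  nlinarith [hp.out.two_le]

/-- Nonsplit multiplicative reduction at `ℓ ≡ 1 (mod 3)` forces irreducibility mod `3`. -/
theorem modRepIsIrreducible_three_of_nonsplit (hΔ0 : W.Δ ≠ 0) (hW : W.IsSemistableModel)
    {ℓ : ℕ} [hℓ : Fact ℓ.Prime] (hℓ3 : ℓ % 3 = 1) (hd : (ℓ : ℤ) ∣ W.Δ)
    (hns : ¬ IsSquare ((-W.c₆ : ℤ) : ZMod ℓ)) : W.ModRepIsIrreducible 3 := by
  classical
  have : Fact (Nat.Prime 3) := ⟨Nat.prime_three⟩
  have hΔq := EC.intMap_Δ_ne_zero hΔ0
  have hrank := EC.finrank_torsionBy_rat (W.map (Int.castRingHom ℚ)) hΔq 3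
  refine ⟨Module.nontrivial_of_finrank_eq_succ hrank, fun N hN => ?_⟩
  by_contra hcon
  push Not at hcon
  obtain ⟨h0, h1⟩ := hcon
  obtain ⟨A, hA⟩ := GaloisBasic.exists_liesOverPrime hℓ.out
  obtain ⟨F, hF⟩ := GaloisBasic.exists_isFrobeniusAt hℓ.out hA
  have hℓne3 : ℓ ≠ 3 := by rintro rfl; norm_num at hℓ3
  have hℓne2 : ℓ ≠ 2 := by rintro rfl; norm_num at hℓ3
  have hndvd : ∀ {m : ℕ}, m.Prime → ℓ ≠ m → ¬ℓ ∣ m := fun hm hne h =>
    hne ((Nat.prime_dvd_prime_iff_eq hℓ.out hm).1 h)
  -- Frobenius is unipotent on `W[3]`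
  have hdet : LinearMap.det (Affine.Point.galoisRepModuleEnd ℚ
      (W.map (Int.castRingHom ℚ)).toAffine 3 F) = 1 := by
    rw [EC.det_frobenius hΔ0 hℓ.out hℓne3 hA hF, ← ZMod.natCast_mod, hℓ3, Nat.cast_one]
  have hkey := apply_apply_of_line hrank _ h0 h1 hdet
    ((fix_line_or_cofix (by decide) hΔ0 hW hN h0 h1).imp (fun h x hx => h F x hx)
      (fun h x => h F x))
  have hcube : ∀ x : Submodule.torsionBy ℤ ((W.map (Int.castRingHom ℚ))⁄Qbar).Point ((3 : ℕ) : ℤ),
      F • F • F • x = x := by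
    intro x
    have e1 : F • F • x - F • x = F • x - x := hkey x
    have e2 : F • F • F • x - F • F • x = F • F • x - F • x := hkey (F • x)
    set d := F • x - x
    have h3 : 3 • d = 0 := Subtype.ext (nsmul_coe_torsion d)
    rw [← sub_eq_zero, ← h3]
    calc F • F • F • x - x = (F • F • F • x - F • F • x) + (F • F • x - F • x) + d := by
          simp only [d]; abel
      _ = 3 • d := by rw [e2, e1]; abel
  -- the node model
  obtain ⟨r, t, ⟨M⟩, -⟩ := exists_nodeModel_at W A hℓ.out hA hΔ0 hd (hW ℓ hℓ.out hd)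
  have hres := residue_pow_of_nonsplit (hndvd Nat.prime_two hℓne2)
    (hndvd Nat.prime_three hℓne3) hns hA M
  obtain ⟨x, hx0, Q, hQ, hQ0⟩ := exists_torsion_isE0 hΔ0 (p := 3) M
  have h3 : 3 • x = 0 := Subtype.ext (nsmul_coe_torsion x)
  have hFP := frobenius_eq_neg_nsmul Nat.prime_three hℓne3 hA hF M hres x.1 (nsmul_coe_torsion x)
    hQ hQ0
  have hFx : F • x = -x := Subtype.ext (hFP.trans (by
    rw [nsmul_eq_mod_nsmul ℓ (nsmul_coe_torsion x), hℓ3, one_nsmul]; rfl))
  have h := hcube x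
  rw [hFx, smul_neg, hFx, neg_neg, hFx] at h
  refine hx0 ?_
  calc x = 3 • x + (-x - x) := by abel
    _ = 0 := by rw [h3, h, sub_self, add_zero]

end FermatAgent.Switch
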