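import Fermat.Agent.GaloisBasic.CharpolyDensity
import Fermat.Agent.ECLocal.AtPrime
import Fermat.Agent.Mazur.Kummer
import Mathlib.RingTheory.Algebraic.Integral
import Mathlib.FieldTheory.Finite.Basic

/-!
# Primes at which the specialised curve is nodal of nonsplit type
-/

set_option autoImplicit false

noncomputable section

open Polynomial

namespace FermatAgent.Switch

open FermatAgent.ECLocal

local notation "Qbar" => AlgebraicClosure ℚ

/-- Clearing the denominators of a rational polynomial. -/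
lemma exists_int_multiple_poly (P : ℚ[X]) :
    ∃ N : ℕ, 0 < N ∧ ∃ P' : ℤ[X], P'.map (Int.castRingHom ℚ) = (N : ℚ[X]) * P := by
  induction P using Polynomial.induction_on' with
  | add p q hp hq =>
    obtain ⟨N₁, h₁, p', hp'⟩ := hp
    obtain ⟨N₂, h₂, q', hq'⟩ := hq
    refine ⟨N₁ * N₂, Nat.mul_pos h₁ h₂, (N₂ : ℤ[X]) * p' + (N₁ : ℤ[X]) * q', ?_⟩
    rw [Polynomial.map_add, Polynomial.map_mul, Polynomial.map_mul, hp', hq',
      Polynomial.map_natCast, Polynomial.map_natCast, Nat.cast_mul]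
    ring
  | monomial n q =>
    refine ⟨q.den, q.den_pos, Polynomial.monomial n q.num, ?_⟩
    rw [Polynomial.map_monomial, eq_intCast, ← C_eq_natCast, C_mul_monomial,
      ← Rat.den_mul_eq_num q]

/-- An algebraic number lies in all valuation rings above all but finitely many primes. -/
lemma exists_mem_of_not_dvd (x : Qbar) :
    ∃ N : ℕ, 0 < N ∧ ∀ (q : ℕ) (A : ValuationSubring Qbar), q.Prime → A.LiesOverPrime q →
      ¬q ∣ N → x ∈ A := by
  have hx : IsAlgebraic ℤ x :=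
    (IsFractionRing.isAlgebraic_iff ℤ ℚ Qbar).2 (Algebra.IsAlgebraic.isAlgebraic x)
  obtain ⟨y, hy, hint⟩ := hx.exists_integral_multiple
  refine ⟨y.natAbs, Int.natAbs_pos.2 hy, fun q A hq hA hqN => ?_⟩
  have hmem : y • x ∈ A := GaloisBasic.zbar_mem A ⟨y • x, hint⟩
  have hyA : ((y : Qbar))⁻¹ ∈ A := by
    have hu : IsUnit (y : A) := by
      rw [← IsLocalRing.residue_ne_zero_iff_isUnit, map_intCast]
      intro h
      have : Fact q.Prime := ⟨hq⟩
      have := residueChar A hA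
      exact hqN (Int.natCast_dvd.1 ((CharP.intCast_eq_zero_iff _ q y).1 h))
    obtain ⟨u, hu⟩ := hu
    have he : ((u⁻¹ : Aˣ) : Qbar) = (y : Qbar)⁻¹ := by
      refine eq_inv_of_mul_eq_one_left ?_
      have e : ((u⁻¹ : Aˣ) : A) * (y : A) = 1 := by rw [← hu, Units.inv_mul]
      simpa using congrArg Subtype.val e
    exact he ▸ ((u⁻¹ : Aˣ) : A).2
  have e : x = (y : Qbar)⁻¹ * (y • x) := by
    rw [zsmul_eq_mul, ← mul_assoc, inv_mul_cancel₀ (Int.cast_ne_zero.2 hy), one_mul]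
  rw [e]
  exact mul_mem hyA hmem

/-- A power of an automorphism fixes what it fixes. -/
lemma pow_apply_eq_self (τ : Qbar ≃ₐ[ℚ] Qbar) {x : Qbar} (hx : τ x = x) (m : ℕ) :
    (τ ^ m) x = x := by
  rw [AlgEquiv.coe_pow]; exact Function.iterate_fixed hx m

/-- Two automorphisms which are powers of each other on `M` both negate it if one does. -/
lemma apply_eq_neg_of_pow {g σ : Qbar ≃ₐ[ℚ] Qbar} {M : Qbar} {j k : ℕ} (hM : M ≠ 0)
    (hgM : g M = -M) (e1 : σ M = (g ^ k) M) (e2 : g M = (σ ^ j) M) : σ M = -M := by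
  have key : ∀ m : ℕ, (g ^ m) M = M ∨ (g ^ m) M = -M := by
    intro m
    induction m with
    | zero => exact Or.inl rfl
    | succ m ih =>
      rcases ih with e | e
      · exact Or.inr (by rw [pow_succ', AlgEquiv.mul_apply, e, hgM])
      · exact Or.inl (by rw [pow_succ', AlgEquiv.mul_apply, e, map_neg, hgM, neg_neg])
  rcases key k with e | e
  · exfalso
    rw [e] at e1
    rw [pow_apply_eq_self σ e1, hgM, eq_comm, eq_neg_iff_add_eq_zero, ← two_mul,
      mul_eq_zero] at e2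
    exact e2.elim (by norm_num) hM
  · exact e1.trans e

/-- An element whose cube lies in a valuation ring lies in it. -/
lemma mem_of_cube_mem {V : ValuationSubring Qbar} {x : Qbar} (h3 : x ^ 3 ∈ V) : x ∈ V := by
  rcases V.mem_or_inv_mem x with h | h
  · exact h
  · by_cases h0 : x = 0
    · rw [h0]; exact zero_mem _
    have := mul_mem h3 (mul_mem h h)
    rwa [show x ^ 3 * (x⁻¹ * x⁻¹) = x by field_simp] at this

/-- A rational polynomial with an integral multiple is evaluated residually at an integer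
congruent to `rc`. -/
lemma natCast_mul_intCast_eq_residue {V : ValuationSubring Qbar} {rc : Qbar} (rv : V)
    (hrv : (rv : Qbar) = rc) {r : ℤ} (hrK : (r : IsLocalRing.ResidueField V) =
      IsLocalRing.residue V rv) (P : ℚ[X]) (N : ℕ) (P' : ℤ[X]) (c : ℤ) (y : V)
    (hP : P'.map (Int.castRingHom ℚ) = (N : ℚ[X]) * P) (hc : P.eval (r : ℚ) = c)
    (hy : aeval rc P = (y : Qbar)) :
    (N : IsLocalRing.ResidueField V) * (c : IsLocalRing.ResidueField V) =
      (N : IsLocalRing.ResidueField V) * IsLocalRing.residue V y := by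
  have e1 : P'.eval₂ (Int.castRingHom V) rv = (N : V) * y := by
    refine Subtype.ext ((Polynomial.ringHom_eval₂_intCastRingHom P' V.subtype rv).trans ?_)
    show _ = (((N : V) * y : V) : Qbar)
    have hh := congrArg (fun Q : ℚ[X] => Q.eval₂ (algebraMap ℚ Qbar) rc) hP
    simp only [eval₂_map, eval₂_mul, eval₂_natCast] at hh
    rw [show Int.castRingHom Qbar = (algebraMap ℚ Qbar).comp (Int.castRingHom ℚ) from
      RingHom.ext_int _ _]
    rw [show V.subtype rv = rc from hrv, hh, ← aeval_def, hy]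
    simp
  have e2 : P'.eval r = N * c := by
    have hh := congrArg (fun Q : ℚ[X] => Q.eval (r : ℚ)) hP
    simp only [eval_intCast_map, eval_mul, eval_natCast, hc, eq_intCast] at hh
    exact_mod_cast hh
  have e3 : P'.eval₂ (Int.castRingHom (IsLocalRing.ResidueField V)) (IsLocalRing.residue V rv) =
      ((P'.eval r : ℤ) : IsLocalRing.ResidueField V) := by
    rw [← hrK, ← eq_intCast (Int.castRingHom (IsLocalRing.ResidueField V)) r, eval₂_hom,
      eq_intCast]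
  rw [← Polynomial.ringHom_eval₂_intCastRingHom, e1, e2, map_mul, map_natCast] at e3
  rw [Int.cast_mul, Int.cast_natCast] at e3
  exact e3.symm

/-- If `m ^ ℓ = -m` in characteristic `ℓ ≠ 2` then `m ^ 2` is not a square of the prime field. -/
lemma not_isSquare_of_pow_eq_neg {K : Type*} [Field K] {ℓ : ℕ} [Fact ℓ.Prime] [CharP K ℓ]
    (hℓ2 : ℓ ≠ 2) (h2K : (2 : K) ≠ 0) {m : K} (hm0 : m ≠ 0) (hmq : m ^ ℓ = -m) {b : ℤ}
    (hb : (b : K) = -m ^ 2) : ¬IsSquare ((-b : ℤ) : ZMod ℓ) := by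
  rintro ⟨s, hs⟩
  have e : ((-b : ℤ) : K) = (ZMod.castHom (dvd_refl ℓ) K s) ^ 2 := by
    rw [← map_pow, pow_two, ← hs, map_intCast]
  set s' := ZMod.castHom (dvd_refl ℓ) K s with hs'
  rw [Int.cast_neg, hb, neg_neg] at e
  have hs'q : s' ^ ℓ = s' := by rw [hs', ← map_pow, ZMod.pow_card]
  have hfixm : m ^ ℓ = m := by
    rcases sq_eq_sq_iff_eq_or_eq_neg.1 e with h | h
    · rw [h, hs'q]
    · rw [h, neg_pow, hs'q, Odd.neg_one_pow ((Fact.out : ℓ.Prime).odd_of_ne_two hℓ2), neg_one_mul]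
  rw [hmq] at hfixm
  exact hm0 ((mul_eq_zero.1 (show (2 : K) * m = 0 by linear_combination -hfixm)).resolve_left h2K)

/-- A Frobenius element seeing `g` yields primes with prescribed nodal fibre; on a further
algebraic number `z` it acts as a power of `g`, and `g` as a power of it. -/
theorem exists_nonsplit_frobenius {A B : ℚ[X]} {g : Qbar ≃ₐ[ℚ] Qbar} {rc M : Qbar} (z : Qbar)
    (hM : M ≠ 0) (hrc : g rc = rc) (hgM : g M = -M) (hB : aeval rc B = -M ^ 2)
    (hAB : aeval rc A ^ 3 = aeval rc B ^ 2) (S : Finset ℕ) :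
    ∃ (ℓ : ℕ) (V : ValuationSubring Qbar) (σ : Qbar ≃ₐ[ℚ] Qbar) (j k : ℕ), ℓ.Prime ∧ ℓ ∉ S ∧
      V.LiesOverPrime ℓ ∧ V.IsFrobeniusAt σ ℓ ∧ (σ z = (g ^ k) z ∧ g z = (σ ^ j) z) ∧
      ∃ ρ : ℤ, ∀ r a' b' : ℤ, (ℓ : ℤ) ∣ r - ρ →
        A.eval (r : ℚ) = a' → B.eval (r : ℚ) = b' →
        (ℓ : ℤ) ∣ a' ^ 3 - b' ^ 2 ∧ ¬IsSquare ((-b' : ℤ) : ZMod ℓ) := by
  classical
  obtain ⟨NA, hNA, A', hA'⟩ := exists_int_multiple_poly A
  obtain ⟨NB, hNB, B', hB'⟩ := exists_int_multiple_poly B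
  obtain ⟨Nr, hNr, hr⟩ := exists_mem_of_not_dvd rc
  obtain ⟨Nm, hNm, hm⟩ := exists_mem_of_not_dvd M
  obtain ⟨Ni, hNi, hi⟩ := exists_mem_of_not_dvd M⁻¹
  let L₀ : IntermediateField ℚ Qbar := IntermediateField.adjoin ℚ {rc, M, z}
  have : FiniteDimensional ℚ L₀ :=
    IntermediateField.finiteDimensional_adjoin fun x _ => Algebra.IsIntegral.isIntegral x
  set S' : Finset ℕ := S ∪ {2} ∪ (NA * NB * Nr * Nm * Ni).primeFactors with hS'
  obtain ⟨ℓ, V, σ, j, k, hℓ, hℓS, hV, hσ, -, hj, hk⟩ :=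
    GaloisBasic.exists_frobenius_pow_congr L₀ g S'
  simp only [hS', Finset.mem_union, Finset.mem_singleton, not_or,
    Nat.mem_primeFactors, hℓ, true_and, not_and, ne_eq] at hℓS
  obtain ⟨⟨hℓS0, hℓ2⟩, hℓN⟩ := hℓS
  have hN0 : NA * NB * Nr * Nm * Ni ≠ 0 := by positivity
  have hndvd : ¬ℓ ∣ NA * NB * Nr * Nm * Ni := fun h => hℓN h hN0
  simp only [Nat.Prime.dvd_mul hℓ, not_or] at hndvd
  obtain ⟨⟨⟨⟨hdA, hdB⟩, hdr⟩, hdm⟩, hdi⟩ := hndvd
  have : Fact ℓ.Prime := ⟨hℓ⟩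
  have := residueChar V hV
  have memL : ∀ x ∈ ({rc, M, z} : Set Qbar), x ∈ L₀ := fun x hx =>
    IntermediateField.subset_adjoin ℚ _ hx
  have fixσ : ∀ {x : Qbar}, x ∈ L₀ → σ x = (g ^ k) x ∧ g x = (σ ^ j) x := by
    intro x hx
    have h1 := (IntermediateField.mem_fixingSubgroup_iff L₀ _).1 hk x hx
    have h2 := (IntermediateField.mem_fixingSubgroup_iff L₀ _).1 hj x hx
    constructor
    · have := congrArg (g ^ k) h1
      rwa [← AlgEquiv.mul_apply, mul_inv_cancel_left] at this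
    · have := congrArg (σ ^ j) h2
      rwa [← AlgEquiv.mul_apply, mul_inv_cancel_left] at this
  have hσrc : σ rc = rc := by rw [(fixσ (memL rc (by simp))).1, pow_apply_eq_self g hrc]
  have hσM : σ M = -M := apply_eq_neg_of_pow hM hgM (fixσ (memL M (by simp))).1
    (fixσ (memL M (by simp))).2
  -- the residual data
  let γ : V.decompositionSubgroup ℚ := ⟨σ, hσ.mem_decompositionSubgroup⟩
  have hres : ∀ a : V, IsLocalRing.residue V (γ • a) = IsLocalRing.residue V a ^ ℓ := fun a =>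
    (IsLocalRing.ResidueField.residue_smul _ γ a).trans (hσ.smul_residue_eq _)
  set K := IsLocalRing.ResidueField V
  let rv : V := ⟨rc, hr ℓ V hℓ hV hdr⟩
  let mv : V := ⟨M, hm ℓ V hℓ hV hdm⟩
  set ρ' := IsLocalRing.residue V rv
  set m := IsLocalRing.residue V mv with hmdef
  have hρ : ρ' ^ ℓ = ρ' := by
    rw [← hres rv, show γ • rv = rv from Subtype.ext hσrc]
  have hmq : m ^ ℓ = -m := by
    rw [hmdef, ← hres mv, show γ • mv = -mv from Subtype.ext hσM, map_neg]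
  have h2K : (2 : K) ≠ 0 := by
    exact_mod_cast natCast_residue_ne_zero hℓ hV (n := 2)
      (fun h => hℓ2 ((Nat.prime_dvd_prime_iff_eq hℓ Nat.prime_two).1 h))
  obtain ⟨ρ, hρeq⟩ : ∃ ρ : ℤ, ρ' = (ρ : K) := by
    have h : ρ' ∈ (⊥ : Subfield K) := (Subfield.mem_bot_iff_pow_eq_self K ℓ).2 hρ
    obtain ⟨y, hy⟩ := (bot_le (a := (ZMod.castHom (dvd_refl ℓ) K).fieldRange)) h
    exact ⟨(y.val : ℤ), by rw [← hy, Int.cast_natCast, ← map_natCast (ZMod.castHom (dvd_refl ℓ) K),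
      ZMod.natCast_zmod_val]⟩
  have hm0 : m ≠ 0 := by
    intro h
    have e : mv * ⟨M⁻¹, hi ℓ V hℓ hV hdi⟩ = 1 := Subtype.ext (mul_inv_cancel₀ hM)
    have := congrArg (IsLocalRing.residue V) e
    rw [map_mul, ← hmdef, h, zero_mul, map_one] at this
    exact zero_ne_one this
  refine ⟨ℓ, V, σ, j, k, hℓ, hℓS0, hV, hσ, fixσ (memL z (by simp)), ρ, fun r a' b' hr' hA hB₀ => ?_⟩
  have hrK : (r : K) = ρ' := by
    rw [hρeq, ← sub_eq_zero, ← Int.cast_sub]
    exact (CharP.intCast_eq_zero_iff K ℓ _).2 hr'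
  -- reductions of the two polynomials
  have hsub := natCast_mul_intCast_eq_residue rv rfl hrK
  have hb : (b' : K) = -m ^ 2 := by
    have := hsub B NB B' b' (-mv ^ 2) hB' hB₀ (by rw [hB]; rfl)
    rw [map_neg, map_pow, ← hmdef] at this
    exact mul_left_cancel₀ (natCast_residue_ne_zero hℓ hV hdB) this
  have hmem : aeval rc A ∈ V :=
    mem_of_cube_mem (by rw [hAB, hB]; exact pow_mem (neg_mem (pow_mem mv.2 2)) 2)
  have hab : (a' : K) ^ 3 = (b' : K) ^ 2 := by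
    have h := mul_left_cancel₀ (natCast_residue_ne_zero hℓ hV hdA)
      (hsub A NA A' a' ⟨_, hmem⟩ hA' hA rfl)
    rw [h, hb, ← map_pow, show (⟨aeval rc A, hmem⟩ : V) ^ 3 = (-mv ^ 2) ^ 2 from
      Subtype.ext (by push_cast; rw [hAB, hB]), map_pow, map_neg, map_pow]
  exact ⟨(CharP.intCast_eq_zero_iff K ℓ _).1 (by push_cast; rw [hab, sub_self]),
    not_isSquare_of_pow_eq_neg hℓ2 h2K hm0 hmq hb⟩

/-- Such a prime can be taken `1` modulo `3` when `g` fixes the cube roots of unity. -/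
theorem exists_nonsplit_prime {A B : ℚ[X]} {g : Qbar ≃ₐ[ℚ] Qbar} {rc M : Qbar}
    (hw : ∀ w : Qbar, w ^ 2 + w + 1 = 0 → g w = w) (hM : M ≠ 0) (hrc : g rc = rc)
    (hgM : g M = -M) (hB : aeval rc B = -M ^ 2)
    (hAB : aeval rc A ^ 3 = aeval rc B ^ 2) (S : Finset ℕ) :
    ∃ ℓ : ℕ, ℓ.Prime ∧ ℓ ∉ S ∧ ℓ % 3 = 1 ∧ ∃ ρ : ℤ, ∀ r a' b' : ℤ, (ℓ : ℤ) ∣ r - ρ →
      A.eval (r : ℚ) = a' → B.eval (r : ℚ) = b' →
      (ℓ : ℤ) ∣ a' ^ 3 - b' ^ 2 ∧ ¬IsSquare ((-b' : ℤ) : ZMod ℓ) := by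
  obtain ⟨w, hw1⟩ := IsAlgClosed.exists_root (X ^ 2 + X + 1 : Qbar[X]) (by
    rw [show (X ^ 2 + X + 1 : Qbar[X]).degree = 2 by compute_degree!]
    decide)
  have hw0 : w ^ 2 + w + 1 = 0 := by simpa [IsRoot] using hw1
  obtain ⟨ℓ, V, σ, j, k, hℓ, hℓS, hV, hσ, ⟨hσw, -⟩, hρ⟩ :=
    exists_nonsplit_frobenius w hM hrc hgM hB hAB (S ∪ {3})
  simp only [Finset.mem_union, Finset.mem_singleton, not_or] at hℓS
  have hℓ3 : ¬ℓ ∣ 3 := fun h => hℓS.2 ((Nat.prime_dvd_prime_iff_eq hℓ Nat.prime_three).1 h)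
  have hw3 : w ^ 3 = 1 := by linear_combination (w - 1) * hw0
  rw [Mazur.frobenius_rootsOfUnity hℓ hV hℓ3 three_ne_zero hσ hw3,
    pow_apply_eq_self g (hw w hw0)] at hσw
  refine ⟨ℓ, hℓ, hℓS.1, ?_, hρ⟩
  have h0 : ℓ % 3 ≠ 0 := fun h => hℓS.2
    ((Nat.prime_dvd_prime_iff_eq Nat.prime_three hℓ).1 (Nat.dvd_of_mod_eq_zero h)).symm
  by_contra h1
  rw [pow_eq_pow_mod ℓ hw3, show ℓ % 3 = 2 by omega] at hσw
  exact (by norm_num : (3 : Qbar) ≠ 0)
    (by linear_combination (4 - (2 * w + 1)) * hw0 + (2 * w + 1) * hσw)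

end FermatAgent.Switch
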