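import Fermat.Agent.Switch.Klein
import Fermat.Agent.EC.PointMap
import Mathlib.AlgebraicGeometry.EllipticCurve.Affine.Point
import Mathlib.FieldTheory.IsAlgClosed.Basic

/-!
# Five torsion points of `y² = x³ - 27 c₄ x - 54 c₆`
-/

set_option autoImplicit false

noncomputable section

open WeierstrassCurve WeierstrassCurve.Affine

namespace FermatAgent.Switch

universe u

variable {k : Type u} [Field k]

/-- `y² = x³ - 27 a x - 54 b`. -/
def shortCurve {R : Type u} [CommRing R] (a b : R) : WeierstrassCurve R :=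
  ⟨0, 0, 0, -27 * a, -54 * b⟩

/-- The equation of the short curve. -/
lemma shortCurve_equation_iff (a b x y : k) :
    (shortCurve a b).toAffine.Equation x y ↔ y ^ 2 = x ^ 3 - 27 * a * x - 54 * b := by
  rw [Affine.equation_iff]
  constructor <;> intro h <;> simp only [shortCurve] at * <;> linear_combination h

/-- The discriminant of the short curve is `1259712 (a³ - b²)`. -/
lemma shortCurve_Δ {R : Type u} [CommRing R] (a b : R) :
    (shortCurve a b).Δ = 1259712 * (a ^ 3 - b ^ 2) := by
  simp only [shortCurve, WeierstrassCurve.Δ, b₂, b₄, b₆, b₈]; ring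

/-- The short curve is nonsingular for `a³ ≠ b²` in characteristic zero. -/
lemma shortCurve_Δ_ne_zero [CharZero k] {a b : k} (h : a ^ 3 ≠ b ^ 2) :
    (shortCurve a b).Δ ≠ 0 := by
  rw [shortCurve_Δ]
  exact mul_ne_zero (by norm_num) (sub_ne_zero.2 h)

/-- Short curves commute with ring homomorphisms. -/
lemma shortCurve_map {R : Type u} [CommRing R] {S : Type u} [CommRing S] (φ : R →+* S) (a b : R) :
    (shortCurve a b).map φ = shortCurve (φ a) (φ b) := by
  refine WeierstrassCurve.ext ?_ ?_ ?_ ?_ ?_ <;> simp [shortCurve, WeierstrassCurve.map, map_ofNat]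

variable [CharZero k] [DecidableEq k]

/-- The duplication formula on a short curve. -/
lemma nsmul_two_some {a b x y : k} (h : (shortCurve a b).toAffine.Nonsingular x y) (hy : y ≠ 0)
    {l : k} (hl : l * (2 * y) = 3 * x ^ 2 - 27 * a) :
    ∃ h', (2 : ℕ) • Point.some x y h =
      Point.some (l ^ 2 - 2 * x) (-(y + l * (l ^ 2 - 3 * x))) h' := by
  have hne : y ≠ (shortCurve a b).toAffine.negY x y := by
    simp only [negY, shortCurve]
    intro e
    exact hy (mul_left_cancel₀ (show (2 : k) ≠ 0 by norm_num) (by linear_combination e))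
  have hs : (shortCurve a b).toAffine.slope x x y y = l := by
    rw [slope_of_Y_ne rfl hne]
    simp only [negY, shortCurve]
    have h2 : y - (-y - 0 * x - 0) = 2 * y := by ring
    rw [h2, div_eq_iff (mul_ne_zero (by norm_num) hy), hl]
    ring
  rw [two_nsmul, Point.add_self_of_Y_ne hne]
  simp only [Point.some.injEq]
  refine ⟨?_, ?_, ?_⟩
  · have h' := nonsingular_add h h fun hxy => hne hxy.2
    rw [hs] at h'
    convert h' using 1 <;> simp only [addX, addY, negY, negAddY, shortCurve] <;> ring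
  · rw [hs]; simp only [addX, shortCurve]; ring
  · rw [hs]; simp only [addX, addY, negY, negAddY, shortCurve]; ring

variable {z : k} (hz : z ^ 4 + z ^ 3 + z ^ 2 + z + 1 = 0)
variable {a b : k} (hd : a ^ 3 ≠ b ^ 2)

include hz hd in
omit [DecidableEq k] in
/-- The toric point is a nonsingular point of the short curve. -/
lemma klein_nonsingular {U V : k} (h4 : klein4 U V = a) (h6 : klein6 U V = b) :
    (shortCurve a b).toAffine.Nonsingular (qx z U V) (qy z U V) := by
  refine (equation_iff_nonsingular_of_Δ_ne_zero (shortCurve_Δ_ne_zero hd)).1 ?_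
  rw [shortCurve_equation_iff, ← h4, ← h6]
  exact qy_sq hz U V

/-- The point attached to `(U, V)`. -/
def kleinPt {U V : k} (h4 : klein4 U V = a) (h6 : klein6 U V = b) :
    (shortCurve a b).toAffine.Point :=
  .some _ _ (klein_nonsingular hz hd h4 h6)

include hz hd in
/-- Twice the point of `(U, V)` is the point of `(-V, U)`. -/
lemma two_nsmul_kleinPt {U V : k} (h4 : klein4 U V = a) (h6 : klein6 U V = b) :
    (2 : ℕ) • kleinPt hz hd h4 h6 =
      kleinPt hz hd ((klein4_swap U V).trans h4) ((klein6_swap U V).trans h6) := by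
  obtain ⟨h', e⟩ := nsmul_two_some (klein_nonsingular hz hd h4 h6)
    (qy_ne_zero hz (by rw [h4, h6]; exact hd)) (l := qSlope z U V)
    (by rw [qSlope_mul hz, h4])
  rw [kleinPt, e, kleinPt]
  simp only [Point.some.injEq]
  refine ⟨(qx_double hz U V).symm, ?_⟩
  rw [qy_double hz U V, qx_double hz U V]
  ring

include hz hd in
omit [DecidableEq k] in
/-- The point of `(-U, -V)` is the negative. -/
lemma kleinPt_neg {U V : k} (h4 : klein4 U V = a) (h6 : klein6 U V = b) :
    kleinPt hz hd ((klein4_neg U V).trans h4) ((klein6_neg U V).trans h6) =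
      -kleinPt hz hd h4 h6 := by
  rw [kleinPt, kleinPt, Point.neg_some]
  simp only [Point.some.injEq, negY, shortCurve]
  exact ⟨qx_neg U V, by rw [qy_neg]; ring⟩

include hz hd in
lemma four_nsmul_kleinPt {U V : k} (h4 : klein4 U V = a) (h6 : klein6 U V = b) :
    (4 : ℕ) • kleinPt hz hd h4 h6 = -kleinPt hz hd h4 h6 := by
  rw [show (4 : ℕ) = 2 * 2 from rfl, mul_nsmul, two_nsmul_kleinPt, two_nsmul_kleinPt,
    ← kleinPt_neg]

include hz hd in
/-- The toric point is killed by five. -/
lemma five_nsmul_kleinPt {U V : k} (h4 : klein4 U V = a) (h6 : klein6 U V = b) :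
    (5 : ℕ) • kleinPt hz hd h4 h6 = 0 := by
  rw [succ_nsmul, four_nsmul_kleinPt, neg_add_cancel]

include hz hd in
omit [DecidableEq k] in
/-- Distinct parameters give distinct points. -/
lemma kleinPt_inj {U V U' V' : k} {h4 : klein4 U V = a} {h6 : klein6 U V = b}
    {h4' : klein4 U' V' = a} {h6' : klein6 U' V' = b}
    (h : kleinPt hz hd h4' h6' = kleinPt hz hd h4 h6) : U' = U ∧ V' = V := by
  rw [kleinPt, kleinPt] at h
  simp only [Point.some.injEq] at h
  exact eq_of_qx_qy_eq hz (h4'.trans h4.symm) (by rw [h4, h6]; exact hd) h.1 h.2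

include hz hd in
/-- Every point of exact order five is a Klein point. -/
theorem exists_kleinPt_eq {P : (shortCurve a b).toAffine.Point} (hP : P ≠ 0)
    (h5 : (5 : ℕ) • P = 0) :
    ∃ (U V : k) (h4 : klein4 U V = a) (h6 : klein6 U V = b), kleinPt hz hd h4 h6 = P := by
  rcases P with _ | ⟨x, y, h⟩
  · exact absurd rfl hP
  have hy : y ≠ 0 := by
    intro hy
    apply hP
    have h2 : (2 : ℕ) • Point.some x y h = 0 := by
      rw [two_nsmul]
      exact Point.add_self_of_Y_eq (by simp [negY, shortCurve, hy])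
    rwa [show (5 : ℕ) = 2 * 2 + 1 from rfl, add_nsmul, mul_nsmul, h2, nsmul_zero, zero_add,
      one_nsmul] at h5
  set l := (3 * x ^ 2 - 27 * a) / (2 * y) with hl
  have hl' : l * (2 * y) = 3 * x ^ 2 - 27 * a :=
    div_mul_cancel₀ _ (mul_ne_zero (by norm_num) hy)
  obtain ⟨h', e⟩ := nsmul_two_some h hy hl'
  set x₂ := l ^ 2 - 2 * x with hx₂
  set y₂ := -(y + l * (l ^ 2 - 3 * x)) with hy₂def
  have h4P : (4 : ℕ) • Point.some x y h = -Point.some x y h := by
    rw [eq_neg_iff_add_eq_zero, ← succ_nsmul]; exact h5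
  have hy₂ : y₂ ≠ 0 := by
    intro h0
    apply hP
    have h2 : (2 : ℕ) • Point.some x₂ y₂ h' = 0 := by
      rw [two_nsmul]
      exact Point.add_self_of_Y_eq (by simp [negY, shortCurve, h0])
    rw [← e, ← mul_nsmul, h4P] at h2
    exact neg_eq_zero.1 h2
  set m := (3 * x₂ ^ 2 - 27 * a) / (2 * y₂) with hm
  have hm' : m * (2 * y₂) = 3 * x₂ ^ 2 - 27 * a :=
    div_mul_cancel₀ _ (mul_ne_zero (by norm_num) hy₂)
  obtain ⟨h'', e'⟩ := nsmul_two_some h' hy₂ hm'
  rw [← e, ← mul_nsmul, h4P, Point.neg_some] at e'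
  simp only [Point.some.injEq, negY, shortCurve] at e'
  obtain ⟨ex, ey⟩ := e'
  set c₀ := (21 + 42 * z + 18 * z ^ 2 + 24 * z ^ 3) / 5 with hc₀
  set c₁ := (3 + 6 * z + 24 * z ^ 2 - 18 * z ^ 3) / 5 with hc₁
  have hdet : c₀ ^ 2 + c₁ ^ 2 = -90 := slope_coeff_sq hz
  set U := -(c₀ * l + c₁ * m) / 90 with hU
  set V := -(c₁ * l - c₀ * m) / 90 with hV
  have hS : ∀ U V, qSlope z U V = c₀ * U + c₁ * V := fun U V => by
    simp only [qSlope, hc₀, hc₁]; ring
  have hL : qSlope z U V = l := by rw [hS, hU, hV]; linear_combination (-l / 90) * hdet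
  have hM : qSlope z (-V) U = m := by rw [hS, hU, hV]; linear_combination (-m / 90) * hdet
  have q1 := qx_double hz U V
  have q2 := qx_double hz (-V) U
  rw [qx_neg, hM] at q2
  rw [hL] at q1
  have hqx : qx z U V = x := by
    have h3 : 3 * qx z U V = 3 * x := by linear_combination ex - q2 + 2 * q1 - 2 * hx₂
    exact mul_left_cancel₀ (show (3 : k) ≠ 0 by norm_num) h3
  have hqx2 : qx z (-V) U = x₂ := by rw [q1, hqx]
  have r1 := qy_double hz U V
  have r2 := qy_double hz (-V) U
  rw [qy_neg, qx_neg, hM, hqx, hqx2] at r2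
  rw [hL, hqx, hqx2] at r1
  have hqy : qy z U V = y := by
    have h2 : 2 * qy z U V = 2 * y := by
      linear_combination r1 - r2 - hy₂def + ey - l * hx₂ + m * ex
    exact mul_left_cancel₀ (show (2 : k) ≠ 0 by norm_num) h2
  have h4 : klein4 U V = a := by
    have := qSlope_mul hz U V
    rw [hqx, hqy, hL, hl'] at this
    linear_combination (1 / 27 : k) * this
  have h6 : klein6 U V = b := by
    have h1 := qy_sq hz U V
    rw [hqx, hqy, h4, (shortCurve_equation_iff a b x y).1 h.1] at h1
    linear_combination (1 / 54 : k) * h1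
  exact ⟨U, V, h4, h6, by rw [kleinPt]; simp only [Point.some.injEq]; exact ⟨hqx, hqy⟩⟩

end FermatAgent.Switch
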