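import Fermat.Agent.Switch.Points
import Fermat.Agent.ECLocal.NodeInertia
import Mathlib.RingTheory.DedekindDomain.AdicValuation
import Mathlib.RingTheory.Localization.FractionRing
import Mathlib.RingTheory.Polynomial.Basic
import Mathlib.FieldTheory.RatFunc.Basic

/-!
# Specialisation of torsion in a family of curves over a polynomial ring

If every `n`-torsion point of the member at `0` of a family over `k[X]` lifts to a torsion point of
the generic member with polynomial coordinates, then evaluating the lifts at `r` embeds the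
`n`-torsion of the member at `0` into that of any nonsingular member: both are images of the
generic torsion under reduction, which is injective on torsion prime to the characteristic.
-/

set_option autoImplicit false

noncomputable section

open WeierstrassCurve WeierstrassCurve.Affine Polynomial
open FermatAgent.EC (mapPoint mapPoint_some mapPoint_injective)

namespace FermatAgent.Switch

open FermatAgent.ECLocal

universe u

variable {k : Type u} [Field k]

/-- The place `X = r` of `k[X]`. -/
def placeAt (r : k) : IsDedekindDomain.HeightOneSpectrum k[X] where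
  asIdeal := Ideal.span {X - C r}
  isPrime := (Ideal.span_singleton_prime (X_sub_C_ne_zero r)).2 (prime_X_sub_C r)
  ne_bot h := X_sub_C_ne_zero r (Ideal.span_singleton_eq_bot.1 h)

variable (K : Type u) [Field K] [Algebra k[X] K] [IsFractionRing k[X] K]

/-- The valuation ring of `X = r`. -/
def ringAt (r : k) : ValuationSubring K := ((placeAt r).valuation K).valuationSubring

/-- Polynomials are integral at `X = r`. -/
def toRingAt (r : k) : k[X] →+* ringAt K r :=
  (algebraMap k[X] K).codRestrict (ringAt K r).toSubring fun P =>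
    (Valuation.mem_valuationSubring_iff _ _).2 ((placeAt r).valuation_le_one P)

/-- Constants in the residue field. -/
def constRes (r : k) : k →+* IsLocalRing.ResidueField (ringAt K r) :=
  ((IsLocalRing.residue _).comp (toRingAt K r)).comp C

lemma residue_toRingAt (r : k) (P : k[X]) :
    IsLocalRing.residue _ (toRingAt K r P) = constRes K r (P.eval r) := by
  obtain ⟨Q, hQ⟩ := X_sub_C_dvd_sub_C_eval (p := P) (a := r)
  have h0 : IsLocalRing.residue _ (toRingAt K r (X - C r)) = 0 := by
    rw [IsLocalRing.residue_eq_zero_iff, IsLocalRing.mem_maximalIdeal, mem_nonunits_iff]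
    intro hu
    have h1 : (placeAt r).valuation K (algebraMap k[X] K (X - C r)) < 1 :=
      ((placeAt r).valuation_lt_one_iff_mem _).2 (Ideal.mem_span_singleton_self _)
    obtain ⟨w, hw⟩ := hu
    have h2 : algebraMap k[X] K (X - C r) * ((w⁻¹ : (ringAt K r)ˣ) : K) = 1 := by
      have e : toRingAt K r (X - C r) * ((w⁻¹ : (ringAt K r)ˣ) : ringAt K r) = 1 := by
        rw [← hw, Units.mul_inv]
      exact congrArg Subtype.val e
    have h3 := congrArg ((placeAt r).valuation K) h2
    rw [map_mul, map_one] at h3
    exact (mul_lt_one_of_lt_of_le h1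
      ((Valuation.mem_valuationSubring_iff _ _).1 ((w⁻¹ : (ringAt K r)ˣ) : ringAt K r).2)).ne h3
  have e : IsLocalRing.residue _ (toRingAt K r P) -
      IsLocalRing.residue _ (toRingAt K r (C (P.eval r))) = 0 := by
    rw [← map_sub, ← map_sub, hQ, map_mul, map_mul, h0, zero_mul]
  exact sub_eq_zero.1 e

variable [CharZero k] [DecidableEq k] {n : ℕ} {a b : k}

/-- `(PX, PY)` lifts an `n`-torsion point to the generic member. -/
def IsLift (A B : k[X]) (n : ℕ) (x y : k) (PX PY : k[X]) : Prop :=
  PX.eval 0 = x ∧ PY.eval 0 = y ∧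
    ∀ [DecidableEq (FractionRing k[X])], ∃ h : (shortCurve (algebraMap k[X] (FractionRing k[X]) A)
      (algebraMap k[X] (FractionRing k[X]) B)).toAffine.Nonsingular
        (algebraMap k[X] (FractionRing k[X]) PX) (algebraMap k[X] (FractionRing k[X]) PY),
      n • Point.some _ _ h = 0

/-- **Reduction at a nonsingular member.** Reduction at the place `X = s` maps the points of the
generic member homomorphically to those of the member at `s` over the residue field, injectively
on `n`-torsion, and evaluates polynomial coordinates at `s`. -/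
lemma exists_reductionAt (hn : n ≠ 0) (A B : k[X]) {s : k} (hs : A.eval s ^ 3 ≠ B.eval s ^ 2)
    [DecidableEq (FractionRing k[X])]
    [DecidableEq (IsLocalRing.ResidueField (ringAt (FractionRing k[X]) s))] :
    ∃ red : (shortCurve (algebraMap k[X] (FractionRing k[X]) A)
        (algebraMap k[X] (FractionRing k[X]) B)).toAffine.Point →+
          ((shortCurve (A.eval s) (B.eval s)).map
            (constRes (FractionRing k[X]) s)).toAffine.Point,
      (∀ P, n • P = 0 → red P = 0 → P = 0) ∧
      ∀ (PX PY : k[X]) (h : (shortCurve (algebraMap k[X] (FractionRing k[X]) A)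
        (algebraMap k[X] (FractionRing k[X]) B)).toAffine.Nonsingular
          (algebraMap k[X] (FractionRing k[X]) PX) (algebraMap k[X] (FractionRing k[X]) PY)),
        ∃ h' : (shortCurve (A.eval s) (B.eval s)).toAffine.Nonsingular (PX.eval s) (PY.eval s),
          red (Point.some _ _ h) = mapPoint (constRes (FractionRing k[X]) s) rfl
            (Point.some _ _ h') := by
  classical
  let K := FractionRing k[X]
  let φ := algebraMap k[X] K
  let WA : WeierstrassCurve (ringAt K s) := shortCurve (toRingAt K s A) (toRingAt K s B)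
  have hgen : gen WA = shortCurve (φ A) (φ B) := shortCurve_map (ringAt K s).subtype _ _
  have hm : spc WA = (shortCurve (A.eval s) (B.eval s)).map (constRes K s) := by
    rw [spc, shortCurve_map, shortCurve_map, residue_toRingAt, residue_toRingAt]
  have hE0 : ∀ P : (gen WA).toAffine.Point, IsE0 P := by
    intro P
    refine isE0_of_residue_Δ_ne_zero ?_ P
    have e : IsLocalRing.residue (ringAt K s) WA.Δ =
        constRes K s (1259712 * (A.eval s ^ 3 - B.eval s ^ 2)) := by
      rw [show WA.Δ = _ from shortCurve_Δ _ _, map_mul, map_sub, map_pow, map_pow, map_ofNat,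
        residue_toRingAt, residue_toRingAt, map_mul, map_sub, map_pow, map_pow, map_ofNat]
    rw [e, _root_.map_ne_zero]
    exact mul_ne_zero (by norm_num) (sub_ne_zero.2 hs)
  let pc := ECLocal.pointCongr (congrArg WeierstrassCurve.toAffine hgen.symm)
  let pcs := ECLocal.pointCongr (congrArg WeierstrassCurve.toAffine hm)
  refine ⟨pcs.toAddMonoidHom.comp ((AddMonoidHom.mk' (fun P : (gen WA).toAffine.Point => red P)
      fun P Q => (IsE0.add (hE0 P) (hE0 Q)).2).comp pc.toAddMonoidHom),
    fun P hP h0 => ?_, fun PX PY h => ?_⟩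
  · have h1 : IsE1 (pc P) :=
      (red_eq_zero_iff (hE0 _)).1 (pcs.injective (h0.trans (map_zero pcs).symm))
    have hnr : (n : IsLocalRing.ResidueField (ringAt K s)) ≠ 0 := by
      rw [← map_natCast (constRes K s), _root_.map_ne_zero]
      exact Nat.cast_ne_zero.2 hn
    exact pc.injective ((h1.eq_zero_of_nsmul_eq_zero hnr
      (by rw [← map_nsmul, hP, map_zero])).trans (map_zero pc).symm)
  · have hg : (gen WA).toAffine.Nonsingular (φ PX) (φ PY) := by rw [hgen]; exact h
    have hx : φ PX ∈ ringAt K s := (toRingAt K s PX).2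
    have hns := (isE0_some_iff_of_mem hg hx).1 (hE0 _)
    have eX : IsLocalRing.residue (ringAt K s) ⟨φ PX, hx⟩ = constRes K s (PX.eval s) :=
      residue_toRingAt K s PX
    have eY : IsLocalRing.residue (ringAt K s) ⟨φ PY, y_mem_of_x_mem hg.1 hx⟩ =
        constRes K s (PY.eval s) := residue_toRingAt K s PY
    have h' : (shortCurve (A.eval s) (B.eval s)).toAffine.Nonsingular (PX.eval s) (PY.eval s) := by
      refine (Affine.map_nonsingular _ (constRes K s).injective _ _).1 ?_
      rw [← eX, ← eY]
      have := hns; rw [hm] at this; exact this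
    refine ⟨h', ?_⟩
    show pcs (red (pc (Point.some _ _ h))) = _
    rw [show pc (Point.some _ _ h) = Point.some _ _ hg from ECLocal.pointCongr_some _ h,
      red_some_of_mem hg hx (hE0 _), mapPoint_some]
    simp only [pcs, ECLocal.pointCongr_some, eX, eY]
    rfl

/-- **Specialisation.** If the `n`-torsion points of the member at `0` lift, evaluation of the
lifts at `r` is an injective homomorphism to the `n`-torsion of the member at `r`. -/
theorem exists_specialisation (hn : n ≠ 0) (A B : k[X]) (hA : A.eval 0 = a) (hB : B.eval 0 = b)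
    (hd : a ^ 3 ≠ b ^ 2)
    (hlift : ∀ (x y : k) (h : (shortCurve a b).toAffine.Nonsingular x y),
      n • Point.some x y h = 0 → ∃ PX PY, IsLift A B n x y PX PY)
    {r : k} (hr : A.eval r ^ 3 ≠ B.eval r ^ 2) :
    ∃ f : Submodule.torsionBy ℤ (shortCurve a b).toAffine.Point (n : ℤ) →+
        (shortCurve (A.eval r) (B.eval r)).toAffine.Point,
      Function.Injective f ∧ (∀ S, n • f S = 0) ∧
      ∀ (S : Submodule.torsionBy ℤ (shortCurve a b).toAffine.Point (n : ℤ)) (x y : k)
        (h : (shortCurve a b).toAffine.Nonsingular x y) (PX PY : k[X]),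
        S.1 = Point.some x y h → IsLift A B n x y PX PY →
          ∃ h', f S = Point.some (PX.eval r) (PY.eval r) h' := by
  classical
  let K := FractionRing k[X]
  let φ := algebraMap k[X] K
  choose Red hinj hval using fun (s : k) (hs : A.eval s ^ 3 ≠ B.eval s ^ 2) =>
    exists_reductionAt hn A B hs
  have hd0 : A.eval 0 ^ 3 ≠ B.eval 0 ^ 2 := by rw [hA, hB]; exact hd
  let m0 : (shortCurve a b).toAffine.Point →+
      ((shortCurve (A.eval 0) (B.eval 0)).map (constRes K 0)).toAffine.Point :=
    mapPoint (constRes K 0) (by rw [hA, hB])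
  let mr : (shortCurve (A.eval r) (B.eval r)).toAffine.Point →+
      ((shortCurve (A.eval r) (B.eval r)).map (constRes K r)).toAffine.Point :=
    mapPoint (constRes K r) rfl
  let T₀ := Submodule.torsionBy ℤ (shortCurve a b).toAffine.Point (n : ℤ)
  have hT : ∀ S : T₀, n • S.1 = 0 := fun S => by
    rw [← natCast_zsmul]; exact (Submodule.mem_torsionBy_iff _ _).1 S.2
  have hgenLift : ∀ S : T₀, ∃ G : (shortCurve (φ A) (φ B)).toAffine.Point,
      n • G = 0 ∧ Red 0 hd0 G = m0 S.1 ∧
      ∃ Q : (shortCurve (A.eval r) (B.eval r)).toAffine.Point,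
        Red r hr G = mr Q := by
    intro S
    rcases hS : S.1 with _ | ⟨x, y, h⟩
    · exact ⟨0, nsmul_zero _, by rw [map_zero, ← Point.zero_def, map_zero],
        0, by rw [map_zero, map_zero]⟩
    · obtain ⟨PX, PY, h0X, h0Y, hl⟩ := hlift x y h (hS ▸ hT S)
      obtain ⟨hK, hKn⟩ := hl
      obtain ⟨h0', e0⟩ := hval 0 hd0 PX PY hK
      obtain ⟨hr', er⟩ := hval r hr PX PY hK
      refine ⟨_, hKn, ?_, _, er⟩
      rw [e0]
      simp only [m0, mapPoint_some, h0X, h0Y]
      rfl
  choose G hGn hG0 Q hQ using hgenLift
  have huniq : ∀ (S : T₀) (P : (shortCurve (φ A) (φ B)).toAffine.Point),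
      n • P = 0 → Red 0 hd0 P = m0 S.1 → P = G S := fun S P hP h => by
    refine sub_eq_zero.1 (hinj 0 hd0 _ ?_ ?_)
    · rw [nsmul_sub, hP, hGn, sub_zero]
    · rw [map_sub, h, hG0, sub_self]
  have hmap : Function.Injective mr := mapPoint_injective _ _
  let f : T₀ →+ (shortCurve (A.eval r) (B.eval r)).toAffine.Point :=
    AddMonoidHom.mk' Q fun S T => hmap (by
      have e : G S + G T = G (S + T) := huniq _ _
        (by rw [nsmul_add, hGn, hGn, add_zero])
        (by rw [map_add, hG0, hG0, ← map_add]; rfl)
      rw [map_add, ← hQ, ← hQ, ← hQ, ← e, map_add])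
  refine ⟨f, (injective_iff_map_eq_zero f).2 fun S hS => ?_, fun S => ?_,
    fun S x y h PX PY hS hl => ?_⟩
  · have h1 : Red r hr (G S) = 0 := by
      rw [hQ S, show Q S = 0 from hS, map_zero]
    have h2 := hG0 S
    rw [hinj r hr _ (hGn S) h1, map_zero] at h2
    exact Subtype.ext (mapPoint_injective _ _ (h2.symm.trans (map_zero m0).symm))
  · refine hmap ?_
    rw [map_nsmul, map_zero]
    show n • mr (Q S) = 0
    rw [← hQ, ← map_nsmul, hGn, map_zero]
  · obtain ⟨h0X, h0Y, hl'⟩ := hl
    obtain ⟨hK, hKn⟩ := hl'
    obtain ⟨h0', e0⟩ := hval 0 hd0 PX PY hK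
    obtain ⟨hr', er⟩ := hval r hr PX PY hK
    have e : Point.some _ _ hK = G S := huniq S _ hKn (by
      rw [e0, hS]
      simp only [m0, mapPoint_some, h0X, h0Y]
      rfl)
    exact ⟨hr', hmap (by rw [← er, e]; exact (hQ S).symm)⟩

end FermatAgent.Switch
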